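import Mathlib
import Fermat.Prelude.Def_ExtEndgame_ProductionDatum
import Fermat.Prelude.Def_GroupCohomology_ContinuousUnramified

/-!
# S55 bridge, part B5: Krasner — the local Galois group and its global levels

* `exists_global_generator`: every `x ∈ ℚ̄_q` lies in `ℚ_q(ι b)` for some `b ∈ ℚ̄`
  (`ι = padicEmbedding q`).
* `localGaloisToGlobal_injective`: restriction `Gal(ℚ̄_q/ℚ_q) → Gal(ℚ̄/ℚ)` is injective.
* `exists_global_level_of_local`: every finite subextension `E/ℚ_q` of `ℚ̄_q` is "covered" by a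
  finite global level `F/ℚ`: `localGaloisToGlobal q τ ∈ G_F → τ ∈ G_E`.
-/

set_option autoImplicit false

namespace Fermat.Agent.S55.Bridge

open Polynomial IntermediateField

variable (q : ℕ) [Fact q.Prime]

/-- Elements of `ℚ̄_q` algebraic over `ℚ` are in the image of `padicEmbedding q`. -/
theorem mem_range_padicEmbedding_of_root (g : Polynomial ℚ) (hg : g ≠ 0) (b : PadicAlgCl q)
    (hb : Polynomial.aeval b g = 0) : ∃ b' : AlgebraicClosure ℚ, padicEmbedding q b' = b := by
  have hsplit : (g.map (algebraMap ℚ (AlgebraicClosure ℚ))).Splits := IsAlgClosed.splits _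
  have hmap : (g.map (algebraMap ℚ (AlgebraicClosure ℚ))).map
      ((padicEmbedding q : AlgebraicClosure ℚ →ₐ[ℚ] PadicAlgCl q) : AlgebraicClosure ℚ →+* PadicAlgCl q)
      = g.map (algebraMap ℚ (PadicAlgCl q)) := by
    rw [Polynomial.map_map]
    congr 1
    exact (padicEmbedding q).comp_algebraMap
  have hroot : b ∈ (g.map (algebraMap ℚ (PadicAlgCl q))).roots := by
    rw [Polynomial.mem_roots (Polynomial.map_ne_zero hg), Polynomial.IsRoot.def,
      Polynomial.eval_map_algebraMap]
    exact hb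
  rw [← hmap, hsplit.roots_map, Multiset.mem_map] at hroot
  obtain ⟨b', -, hb'⟩ := hroot
  exact ⟨b', hb'⟩

/-- `ι(ℚ̄)` is dense in `ℚ̄_q`: every element is approximated by elements of `ι(ℚ̄)`. -/
theorem exists_global_near (x : PadicAlgCl q) {δ : ℝ} (δpos : 0 < δ) :
    ∃ b : AlgebraicClosure ℚ, ‖x - padicEmbedding q b‖ < δ := by
  have hxint : IsIntegral ℚ_[q] x := Algebra.IsIntegral.isIntegral x
  set f : Polynomial ℚ_[q] := minpoly ℚ_[q] x with hf
  have fmon : f.Monic := minpoly.monic hxint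
  have fa0 : Polynomial.aeval x f = 0 := minpoly.aeval _ _
  have fnatdeg0 : f.natDegree ≠ 0 := (minpoly.natDegree_pos hxint).ne'
  have hε : (δ / (max ‖x‖ 1)) ^ f.natDegree / (f.natDegree + 1) > 0 := by positivity
  have hd : DenseRange (algebraMap ℚ ℚ_[q]) := by
    have h := Padic.denseRange_ratCast q
    have heq : (algebraMap ℚ ℚ_[q] : ℚ → ℚ_[q]) = ((↑) : ℚ → ℚ_[q]) := by
      funext r
      exact eq_ratCast _ r
    rw [heq]
    exact h
  obtain ⟨g, gmon, gdeg, gcoeff⟩ :=
    exists_monic_and_natDegree_eq_and_norm_map_algebraMap_coeff_sub_lt hd fmon hε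
  obtain ⟨b, hb, hab⟩ := exists_aroots_norm_sub_lt_of_norm_coeff_sub_lt
      hε fa0 fmon (gmon.map _) (gdeg ▸ (g.natDegree_map _)) gcoeff (IsAlgClosed.splits _)
  have hab : ‖x - b‖ < δ := by
    rw [← Real.rpow_natCast, ← mul_comm_div, div_self, one_mul,
        ← Real.rpow_mul (div_pos δpos (by positivity)).le, mul_inv_cancel₀] at hab
    · simpa [mul_assoc, div_mul_cancel₀ _ (by positivity : (max ‖x‖ 1) > 0).ne'] using hab
    · simp [fnatdeg0]
    · positivity
  have hgb : Polynomial.aeval b g = 0 := by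
    rw [Polynomial.mem_aroots] at hb
    have h2 := hb.2
    rwa [Polynomial.aeval_map_algebraMap] at h2
  obtain ⟨b', hb'⟩ := mem_range_padicEmbedding_of_root q g gmon.ne_zero b hgb
  exact ⟨b', by rw [hb']; exact hab⟩

/-- **Krasner.** Every element of `ℚ̄_q` lies in `ℚ_q(ι b)` for some `b ∈ ℚ̄`. -/
theorem exists_global_generator (x : PadicAlgCl q) :
    ∃ b : AlgebraicClosure ℚ, x ∈ IntermediateField.adjoin ℚ_[q] {padicEmbedding q b} := by
  classical
  have hxint : IsIntegral ℚ_[q] x := Algebra.IsIntegral.isIntegral x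
  set f : Polynomial ℚ_[q] := minpoly ℚ_[q] x with hf
  have firr : Irreducible f := minpoly.irreducible hxint
  let T : Finset (PadicAlgCl q) := {y ∈ (f.rootSet (PadicAlgCl q)).toFinset | y ≠ x}
  let δ : ℝ := if hT : T.Nonempty then Finset.min' (T.image fun y => ‖x - y‖)
      (Finset.image_nonempty.mpr hT) else 1
  have norm_sub_le : ∀ a' : PadicAlgCl q, IsConjRoot ℚ_[q] x a' → x ≠ a' → δ ≤ ‖x - a'‖ := by
    intro a' conj ne
    by_cases hT : T.Nonempty <;> simp only [hT, ↓reduceDIte, δ]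
    · apply Finset.min'_le (T.image fun y => ‖x - y‖) (‖x - a'‖)
      apply Finset.mem_image_of_mem
      simp only [Finset.mem_filter, Set.mem_toFinset, T]
      rw [hf, ← (isConjRoot_iff_mem_minpoly_rootSet hxint)]
      exact ⟨conj, ne.symm⟩
    · simp only [ne_eq, Finset.not_nonempty_iff_eq_empty, Finset.filter_eq_empty_iff,
        Set.mem_toFinset, not_not, T] at hT
      rw [isConjRoot_iff_mem_minpoly_rootSet hxint] at conj
      exact (ne (hT conj).symm).elim
  have δpos : δ > 0 := by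
    by_cases hT : T.Nonempty <;> simp only [hT, ↓reduceDIte, δ]
    · simp only [gt_iff_lt, Finset.lt_min'_iff, Finset.mem_image, forall_exists_index, and_imp,
        forall_apply_eq_imp_iff₂]
      rintro a' ha'
      simp only [Finset.mem_filter, Set.mem_toFinset, T] at ha'
      rw [norm_pos_iff, sub_ne_zero]
      exact ha'.2.symm
    · linarith
  obtain ⟨b', hab⟩ := exists_global_near q x δpos
  refine ⟨b', ?_⟩
  have hbint : IsIntegral ℚ_[q] (padicEmbedding q b') := Algebra.IsIntegral.isIntegral _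
  exact IsKrasner.krasner (K := ℚ_[q]) (L := PadicAlgCl q) firr.separable
    (IsAlgClosed.splits _) hbint
    (fun a' h1 h2 => lt_of_lt_of_le hab (norm_sub_le a' h1 h2))

/-- If `τ` restricts to an element fixing `b ∈ ℚ̄`, then `τ` fixes `ℚ_q(ι b)` pointwise. -/
theorem fixes_adjoin_of_fixes (τ : PadicAlgCl q ≃ₐ[ℚ_[q]] PadicAlgCl q) (b : AlgebraicClosure ℚ)
    (hb : localGaloisToGlobal q τ b = b) (x : PadicAlgCl q)
    (hx : x ∈ IntermediateField.adjoin ℚ_[q] {padicEmbedding q b}) : τ x = x := by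
  have hτb : τ (padicEmbedding q b) = padicEmbedding q b := by
    rw [← padicEmbedding_localGaloisToGlobal, hb]
  have hle : IntermediateField.adjoin ℚ_[q] {padicEmbedding q b}
      ≤ IntermediateField.fixedField (Subgroup.zpowers τ) := by
    rw [IntermediateField.adjoin_le_iff]
    rintro y hy
    rw [Set.mem_singleton_iff] at hy
    subst hy
    rintro ⟨σ, hσ⟩
    obtain ⟨n, rfl⟩ := Subgroup.mem_zpowers_iff.1 hσ
    show (τ ^ n) (padicEmbedding q b) = padicEmbedding q b
    have hfix : τ ∈ MulAction.stabilizer (PadicAlgCl q ≃ₐ[ℚ_[q]] PadicAlgCl q)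
        (padicEmbedding q b) := hτb
    exact (Subgroup.zpow_mem _ hfix n : _)
  exact hle hx ⟨τ, Subgroup.mem_zpowers τ⟩

/-- **Restriction `Gal(ℚ̄_q/ℚ_q) → Gal(ℚ̄/ℚ)` is injective.** -/
theorem localGaloisToGlobal_injective : Function.Injective (localGaloisToGlobal q) := by
  rw [injective_iff_map_eq_one]
  intro τ hτ
  apply AlgEquiv.ext
  intro x
  obtain ⟨b, hb⟩ := exists_global_generator q x
  have := fixes_adjoin_of_fixes q τ b (by rw [hτ]; rfl) x hb
  simpa using this

/-- Every finite subextension `E/ℚ_q` of `ℚ̄_q` is covered by a finite global level. -/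
theorem exists_global_level_of_local (E : IntermediateField ℚ_[q] (PadicAlgCl q))
    [FiniteDimensional ℚ_[q] E] :
    ∃ F : IntermediateField ℚ (AlgebraicClosure ℚ), FiniteDimensional ℚ F ∧
      ∀ τ : PadicAlgCl q ≃ₐ[ℚ_[q]] PadicAlgCl q,
        localGaloisToGlobal q τ ∈ F.fixingSubgroup → τ ∈ E.fixingSubgroup := by
  obtain ⟨α, hα⟩ := Field.exists_primitive_element ℚ_[q] E
  obtain ⟨b, hb⟩ := exists_global_generator q (α : PadicAlgCl q)
  haveI : Algebra.IsAlgebraic ℚ (AlgebraicClosure ℚ) := AlgebraicClosure.isAlgebraic ℚ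
  refine ⟨IntermediateField.adjoin ℚ {b},
    IntermediateField.adjoin.finiteDimensional (Algebra.IsIntegral.isIntegral b), ?_⟩
  intro τ hτ
  have hτb : localGaloisToGlobal q τ b = b :=
    (IntermediateField.mem_fixingSubgroup_iff _ _).1 hτ b
      (IntermediateField.subset_adjoin ℚ _ (Set.mem_singleton b))
  have hτα : τ (α : PadicAlgCl q) = α := fixes_adjoin_of_fixes q τ b hτb _ hb
  rw [IntermediateField.mem_fixingSubgroup_iff]
  intro y hy
  -- `y ∈ E = ℚ_q(α)`
  have hy' : (⟨y, hy⟩ : E) ∈ IntermediateField.adjoin ℚ_[q] {α} := by rw [hα]; trivial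
  have hle : IntermediateField.adjoin ℚ_[q] {(α : PadicAlgCl q)}
      ≤ IntermediateField.fixedField (Subgroup.zpowers τ) := by
    rw [IntermediateField.adjoin_le_iff]
    rintro z hz
    rw [Set.mem_singleton_iff] at hz
    subst hz
    rintro ⟨σ, hσ⟩
    obtain ⟨n, rfl⟩ := Subgroup.mem_zpowers_iff.1 hσ
    show (τ ^ n) (α : PadicAlgCl q) = α
    have hfix : τ ∈ MulAction.stabilizer (PadicAlgCl q ≃ₐ[ℚ_[q]] PadicAlgCl q)
        (α : PadicAlgCl q) := hτα
    exact (Subgroup.zpow_mem _ hfix n : _)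
  have hyα : y ∈ IntermediateField.adjoin ℚ_[q] {(α : PadicAlgCl q)} := by
    have h1 : IntermediateField.lift (IntermediateField.adjoin ℚ_[q] {α})
        = IntermediateField.adjoin ℚ_[q] {(α : PadicAlgCl q)} := by
      rw [IntermediateField.lift_adjoin, Set.image_singleton]
    rw [← h1]
    exact (IntermediateField.mem_lift (⟨y, hy⟩ : E)).2 hy'
  exact hle hyα ⟨τ, Subgroup.mem_zpowers τ⟩

/-- Conversely every finite global level is covered by a finite local extension. -/
theorem exists_local_level_of_global (F : IntermediateField ℚ (AlgebraicClosure ℚ))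
    [FiniteDimensional ℚ F] :
    ∃ E : IntermediateField ℚ_[q] (PadicAlgCl q), FiniteDimensional ℚ_[q] E ∧
      ∀ τ : PadicAlgCl q ≃ₐ[ℚ_[q]] PadicAlgCl q,
        τ ∈ E.fixingSubgroup → localGaloisToGlobal q τ ∈ F.fixingSubgroup := by
  obtain ⟨β, hβ⟩ := Field.exists_primitive_element ℚ F
  refine ⟨IntermediateField.adjoin ℚ_[q] {padicEmbedding q (β : AlgebraicClosure ℚ)},
    IntermediateField.adjoin.finiteDimensional (Algebra.IsIntegral.isIntegral _), ?_⟩
  intro τ hτ
  have hτβ : τ (padicEmbedding q (β : AlgebraicClosure ℚ)) = padicEmbedding q β :=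
    (IntermediateField.mem_fixingSubgroup_iff _ _).1 hτ _
      (IntermediateField.subset_adjoin ℚ_[q] _ (Set.mem_singleton _))
  have hgβ : localGaloisToGlobal q τ (β : AlgebraicClosure ℚ) = β := by
    have hinj : Function.Injective (padicEmbedding q) := (padicEmbedding q).injective
    apply hinj
    rw [padicEmbedding_localGaloisToGlobal, hτβ]
  rw [IntermediateField.mem_fixingSubgroup_iff]
  intro y hy
  have hy' : (⟨y, hy⟩ : F) ∈ IntermediateField.adjoin ℚ {β} := by rw [hβ]; trivial
  have hle : IntermediateField.adjoin ℚ {(β : AlgebraicClosure ℚ)}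
      ≤ IntermediateField.fixedField (Subgroup.zpowers (localGaloisToGlobal q τ)) := by
    rw [IntermediateField.adjoin_le_iff]
    rintro z hz
    rw [Set.mem_singleton_iff] at hz
    subst hz
    rintro ⟨σ, hσ⟩
    obtain ⟨n, rfl⟩ := Subgroup.mem_zpowers_iff.1 hσ
    show ((localGaloisToGlobal q τ) ^ n) (β : AlgebraicClosure ℚ) = β
    have hfix : localGaloisToGlobal q τ ∈ MulAction.stabilizer
        (AlgebraicClosure ℚ ≃ₐ[ℚ] AlgebraicClosure ℚ) (β : AlgebraicClosure ℚ) := hgβ
    exact (Subgroup.zpow_mem _ hfix n : _)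
  have hyβ : y ∈ IntermediateField.adjoin ℚ {(β : AlgebraicClosure ℚ)} := by
    have h1 : IntermediateField.lift (IntermediateField.adjoin ℚ {β})
        = IntermediateField.adjoin ℚ {(β : AlgebraicClosure ℚ)} := by
      rw [IntermediateField.lift_adjoin, Set.image_singleton]
    rw [← h1]
    exact (IntermediateField.mem_lift (⟨y, hy⟩ : F)).2 hy'
  exact hle hyβ ⟨localGaloisToGlobal q τ, Subgroup.mem_zpowers _⟩

section LevelConstant

open groupCohomology

/-- Prelude level-constancy on the local Galois group (levels pulled back from finite global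
extensions) is the same as level-constancy for finite extensions of `ℚ_q`. -/
theorem isLevelConstant₁_local_iff {X : Type*}
    (f : (PadicAlgCl q ≃ₐ[ℚ_[q]] PadicAlgCl q) → X) :
    IsLevelConstant₁ (localGaloisToGlobal q) f ↔
      ∃ E : IntermediateField ℚ_[q] (PadicAlgCl q), FiniteDimensional ℚ_[q] E ∧
        ∀ g s : PadicAlgCl q ≃ₐ[ℚ_[q]] PadicAlgCl q, s ∈ E.fixingSubgroup → f (g * s) = f g := by
  constructor
  · rintro ⟨F, hF, h⟩
    haveI := hF
    obtain ⟨E, hE, hEF⟩ := exists_local_level_of_global q F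
    exact ⟨E, hE, fun g s hs => h g s (hEF s hs)⟩
  · rintro ⟨E, hE, h⟩
    haveI := hE
    obtain ⟨F, hF, hFE⟩ := exists_global_level_of_local q E
    exact ⟨F, hF, fun g s hs => h g s (hFE s hs)⟩

/-- Same for 2-cochains. -/
theorem isLevelConstant₂_local_iff {X : Type*}
    (f : (PadicAlgCl q ≃ₐ[ℚ_[q]] PadicAlgCl q) × (PadicAlgCl q ≃ₐ[ℚ_[q]] PadicAlgCl q) → X) :
    IsLevelConstant₂ (localGaloisToGlobal q) f ↔
      ∃ E : IntermediateField ℚ_[q] (PadicAlgCl q), FiniteDimensional ℚ_[q] E ∧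
        ∀ g g' s s' : PadicAlgCl q ≃ₐ[ℚ_[q]] PadicAlgCl q, s ∈ E.fixingSubgroup →
          s' ∈ E.fixingSubgroup → f (g * s, g' * s') = f (g, g') := by
  constructor
  · rintro ⟨F, hF, h⟩
    haveI := hF
    obtain ⟨E, hE, hEF⟩ := exists_local_level_of_global q F
    exact ⟨E, hE, fun g g' s s' hs hs' => h g g' s s' (hEF s hs) (hEF s' hs')⟩
  · rintro ⟨E, hE, h⟩
    haveI := hE
    obtain ⟨F, hF, hFE⟩ := exists_global_level_of_local q E
    exact ⟨F, hF, fun g g' s s' hs hs' => h g g' s s' (hFE s hs) (hFE s' hs')⟩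

end LevelConstant

/-- `primeLocalToGlobal` is injective. -/
theorem primeLocalToGlobal_injective (q : Nat.Primes) :
    Function.Injective (ExtCitation.primeLocalToGlobal q) := by
  letI : Fact (q : ℕ).Prime := ⟨q.2⟩
  exact localGaloisToGlobal_injective (q : ℕ)

end Fermat.Agent.S55.Bridge
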