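import Fermat.Agent.S55.Bridge.Krasner

set_option autoImplicit false

namespace Fermat.Agent.S55.Bridge

open Polynomial IntermediateField
open scoped Pointwise NNReal

variable (q : ℕ) [Fact q.Prime]

/-- The absolute value on `ℚ̄` induced by `padicEmbedding q`. -/
noncomputable def padicAbs : AbsoluteValue (AlgebraicClosure ℚ) ℝ where
  toFun x := ‖padicEmbedding q x‖
  map_mul' x y := by simp [map_mul]
  nonneg' x := norm_nonneg _
  eq_zero' x := by simp
  add_le' x y := by
    simp only [map_add]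
    exact norm_add_le _ _

theorem padicAbs_apply (x : AlgebraicClosure ℚ) : padicAbs q x = ‖padicEmbedding q x‖ := rfl

/-- Twisting `padicAbs` by an automorphism. -/
noncomputable def padicAbsTwist (σ : AlgebraicClosure ℚ ≃ₐ[ℚ] AlgebraicClosure ℚ) :
    AbsoluteValue (AlgebraicClosure ℚ) ℝ where
  toFun x := ‖padicEmbedding q (σ x)‖
  map_mul' x y := by simp [map_mul]
  nonneg' x := norm_nonneg _
  eq_zero' x := by simp
  add_le' x y := by
    simp only [map_add]
    exact norm_add_le _ _

theorem mem_padicPlace_iff_norm {x : AlgebraicClosure ℚ} :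
    x ∈ padicPlace q ↔ ‖padicEmbedding q x‖ ≤ 1 := by
  rw [mem_padicPlace_iff]
  exact Iff.rfl

theorem mem_padicPlace_of_mem_decomposition {σ : AlgebraicClosure ℚ ≃ₐ[ℚ] AlgebraicClosure ℚ}
    (hσ : σ ∈ (padicPlace q).decompositionSubgroup ℚ) (x : AlgebraicClosure ℚ) :
    σ x ∈ padicPlace q ↔ x ∈ padicPlace q := by
  have hinv : σ⁻¹ ∈ (padicPlace q).decompositionSubgroup ℚ := Subgroup.inv_mem _ hσ
  rw [MulAction.mem_stabilizer_iff] at hinv
  have h := ValuationSubring.mem_pointwise_smul_iff_inv_smul_mem (S := padicPlace q)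
    (g := σ⁻¹) (x := x)
  rw [hinv, inv_inv] at h
  rw [h]
  rfl

end Fermat.Agent.S55.Bridge

namespace Fermat.Agent.S55.Bridge

open Polynomial IntermediateField
open scoped Pointwise NNReal

variable (q : ℕ) [Fact q.Prime]

theorem norm_padicEmbedding_natCast_self :
    ‖padicEmbedding q ((q : ℕ) : AlgebraicClosure ℚ)‖ = (q : ℝ)⁻¹ := by
  rw [map_natCast]
  have h : ((q : ℕ) : PadicAlgCl q) = algebraMap ℚ_[q] (PadicAlgCl q) (q : ℚ_[q]) := by
    rw [map_natCast]
  rw [h, PadicAlgCl.norm_extends, Padic.norm_p]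

/-- Elements of the decomposition group of `padicPlace q` are isometries for the `q`-adic norm. -/
theorem norm_padicEmbedding_of_mem_decomposition
    {σ : AlgebraicClosure ℚ ≃ₐ[ℚ] AlgebraicClosure ℚ}
    (hσ : σ ∈ (padicPlace q).decompositionSubgroup ℚ) (x : AlgebraicClosure ℚ) :
    ‖padicEmbedding q (σ x)‖ = ‖padicEmbedding q x‖ := by
  have hq : (q : ℕ).Prime := Fact.out
  have hequiv : (padicAbs q).IsEquiv (padicAbsTwist q σ) := by
    rw [AbsoluteValue.isEquiv_iff_lt_one_iff]
    intro y
    show ‖padicEmbedding q y‖ < 1 ↔ ‖padicEmbedding q (σ y)‖ < 1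
    rcases eq_or_ne y 0 with rfl | hy
    · simp
    · have hσy : σ y ≠ 0 := by simpa using hy
      have key : ∀ z : AlgebraicClosure ℚ, z ≠ 0 →
          (‖padicEmbedding q z‖ < 1 ↔ z⁻¹ ∉ padicPlace q) := by
        intro z hz
        rw [mem_padicPlace_iff_norm, map_inv₀, norm_inv, not_le]
        have hpos : 0 < ‖padicEmbedding q z‖ := by
          rw [norm_pos_iff]
          simpa using hz
        rw [one_lt_inv₀ hpos]
      rw [key y hy, key (σ y) hσy, ← map_inv₀, mem_padicPlace_of_mem_decomposition q hσ]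
  obtain ⟨c, hc, hvw⟩ := AbsoluteValue.isEquiv_iff_exists_rpow_eq.1 hequiv
  have hq' : padicAbs q (q : AlgebraicClosure ℚ) ^ c = padicAbsTwist q σ (q : AlgebraicClosure ℚ) :=
    congrFun hvw _
  have h1 : padicAbs q (q : AlgebraicClosure ℚ) = (q : ℝ)⁻¹ := norm_padicEmbedding_natCast_self q
  have h2 : padicAbsTwist q σ (q : AlgebraicClosure ℚ) = (q : ℝ)⁻¹ := by
    show ‖padicEmbedding q (σ (q : AlgebraicClosure ℚ))‖ = _
    rw [map_natCast]
    exact norm_padicEmbedding_natCast_self q
  rw [h1, h2] at hq'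
  have hq0 : (0 : ℝ) < (q : ℝ)⁻¹ := inv_pos.2 (by exact_mod_cast hq.pos)
  have hq1 : (q : ℝ)⁻¹ ≠ 1 := by
    rw [ne_eq, inv_eq_one]
    exact_mod_cast hq.one_lt.ne'
  have hc1 : c = 1 := by
    have h3 : (q : ℝ)⁻¹ ^ c = (q : ℝ)⁻¹ ^ (1 : ℝ) := by rw [hq', Real.rpow_one]
    exact (Real.rpow_right_inj hq0 hq1).1 h3
  have := congrFun hvw x
  rw [hc1] at this
  simp only [Real.rpow_one] at this
  exact this.symm

end Fermat.Agent.S55.Bridge

namespace Fermat.Agent.S55.Bridge

open Polynomial IntermediateField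
open scoped Pointwise NNReal

variable (q : ℕ) [Fact q.Prime]

section Extend

/-- The ring hom `ℚ̄ → ℂ_q`. -/
noncomputable def toPadicComplex : AlgebraicClosure ℚ →+* ℂ_[q] :=
  (UniformSpace.Completion.coeRingHom : PadicAlgCl q →+* ℂ_[q]).comp
    ((padicEmbedding q : AlgebraicClosure ℚ →ₐ[ℚ] PadicAlgCl q) : AlgebraicClosure ℚ →+* PadicAlgCl q)

theorem toPadicComplex_apply (x : AlgebraicClosure ℚ) :
    toPadicComplex q x = ((padicEmbedding q x : PadicAlgCl q) : ℂ_[q]) := rfl

/-- The uniform structure on `ℚ̄` induced by the `q`-adic embedding. -/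
@[reducible] noncomputable def padicUniformSpace : UniformSpace (AlgebraicClosure ℚ) :=
  UniformSpace.comap (padicEmbedding q) inferInstance

theorem isUniformInducing_toPadicComplex :
    @IsUniformInducing _ _ (padicUniformSpace q) _ (toPadicComplex q) := by
  letI := padicUniformSpace q
  have h1 : IsUniformInducing (padicEmbedding q : AlgebraicClosure ℚ → PadicAlgCl q) := ⟨rfl⟩
  have h2 : IsUniformInducing ((↑) : PadicAlgCl q → ℂ_[q]) :=
    UniformSpace.Completion.isUniformInducing_coe _
  exact h2.comp h1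

theorem denseRange_padicEmbedding :
    DenseRange (padicEmbedding q : AlgebraicClosure ℚ → PadicAlgCl q) := by
  rw [Metric.denseRange_iff]
  intro x r hr
  obtain ⟨b, hb⟩ := exists_global_near q x hr
  exact ⟨b, by rw [dist_eq_norm]; exact hb⟩

theorem denseRange_toPadicComplex : DenseRange (toPadicComplex q) := by
  have h2 : DenseRange ((↑) : PadicAlgCl q → ℂ_[q]) := UniformSpace.Completion.denseRange_coe
  exact h2.comp (denseRange_padicEmbedding q) (UniformSpace.Completion.continuous_coe _)

variable {q} in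
theorem uniformContinuous_toPadicComplex_comp
    {σ : AlgebraicClosure ℚ ≃ₐ[ℚ] AlgebraicClosure ℚ}
    (hσ : σ ∈ (padicPlace q).decompositionSubgroup ℚ) :
    @UniformContinuous _ _ (padicUniformSpace q) _
      ((toPadicComplex q).comp (σ : AlgebraicClosure ℚ →+* AlgebraicClosure ℚ)) := by
  letI := padicUniformSpace q
  have h2 : UniformContinuous ((↑) : PadicAlgCl q → ℂ_[q]) :=
    UniformSpace.Completion.uniformContinuous_coe _
  have h1 : UniformContinuous (fun x : AlgebraicClosure ℚ => padicEmbedding q (σ x)) := by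
    have hU : uniformity (AlgebraicClosure ℚ)
        = Filter.comap (Prod.map (padicEmbedding q) (padicEmbedding q))
          (uniformity (PadicAlgCl q)) := rfl
    rw [UniformContinuous, hU]
    rw [(Metric.uniformity_basis_dist.comap _).tendsto_iff Metric.uniformity_basis_dist]
    intro ε hε
    refine ⟨ε, hε, ?_⟩
    rintro ⟨a, b⟩ hab
    simp only [Set.mem_preimage, Prod.map_apply, Set.mem_ofPred_eq] at hab ⊢
    rw [dist_eq_norm] at hab ⊢
    rw [← map_sub, ← map_sub, norm_padicEmbedding_of_mem_decomposition q hσ, map_sub]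
    exact hab
  exact h2.comp h1

variable {q} in
/-- The continuous extension of `ι ∘ σ ∘ ι⁻¹` to `ℂ_q`. -/
noncomputable def extendToPadicComplex
    {σ : AlgebraicClosure ℚ ≃ₐ[ℚ] AlgebraicClosure ℚ}
    (hσ : σ ∈ (padicPlace q).decompositionSubgroup ℚ) : ℂ_[q] →+* ℂ_[q] :=
  letI := padicUniformSpace q
  IsDenseInducing.extendRingHom (i := toPadicComplex q)
    (f := (toPadicComplex q).comp (σ : AlgebraicClosure ℚ →+* AlgebraicClosure ℚ))
    (isUniformInducing_toPadicComplex q) (denseRange_toPadicComplex q)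
    (uniformContinuous_toPadicComplex_comp hσ)

variable {q} in
theorem extendToPadicComplex_apply
    {σ : AlgebraicClosure ℚ ≃ₐ[ℚ] AlgebraicClosure ℚ}
    (hσ : σ ∈ (padicPlace q).decompositionSubgroup ℚ) (x : AlgebraicClosure ℚ) :
    extendToPadicComplex hσ (toPadicComplex q x) = toPadicComplex q (σ x) := by
  letI := padicUniformSpace q
  exact IsDenseInducing.extend_eq
    ((isUniformInducing_toPadicComplex q).isDenseInducing (denseRange_toPadicComplex q))
    (uniformContinuous_toPadicComplex_comp hσ).continuous x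

variable {q} in
theorem continuous_extendToPadicComplex
    {σ : AlgebraicClosure ℚ ≃ₐ[ℚ] AlgebraicClosure ℚ}
    (hσ : σ ∈ (padicPlace q).decompositionSubgroup ℚ) :
    Continuous (extendToPadicComplex hσ) := by
  letI := padicUniformSpace q
  exact (uniformContinuous_uniformly_extend (isUniformInducing_toPadicComplex q)
    (denseRange_toPadicComplex q) (uniformContinuous_toPadicComplex_comp hσ)).continuous

/-- The ring hom `ℚ_q → ℂ_q`. -/
noncomputable def padicToComplex : ℚ_[q] →+* ℂ_[q] :=
  (UniformSpace.Completion.coeRingHom : PadicAlgCl q →+* ℂ_[q]).comp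
    (algebraMap ℚ_[q] (PadicAlgCl q))

theorem continuous_padicToComplex : Continuous (padicToComplex q) := by
  have h1 : Continuous (algebraMap ℚ_[q] (PadicAlgCl q)) := by
    have hiso : Isometry (algebraMap ℚ_[q] (PadicAlgCl q)) := by
      refine AddMonoidHomClass.isometry_of_norm _ fun x => ?_
      exact PadicAlgCl.norm_extends q x
    exact hiso.continuous
  exact (UniformSpace.Completion.continuous_coe _).comp h1

variable {q} in
/-- The extension fixes `ℚ_q`. -/
theorem extendToPadicComplex_padicToComplex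
    {σ : AlgebraicClosure ℚ ≃ₐ[ℚ] AlgebraicClosure ℚ}
    (hσ : σ ∈ (padicPlace q).decompositionSubgroup ℚ) (c : ℚ_[q]) :
    extendToPadicComplex hσ (padicToComplex q c) = padicToComplex q c := by
  have hd : DenseRange ((↑) : ℚ → ℚ_[q]) := Padic.denseRange_ratCast q
  have hcont1 : Continuous fun c : ℚ_[q] => extendToPadicComplex hσ (padicToComplex q c) :=
    (continuous_extendToPadicComplex hσ).comp (continuous_padicToComplex q)
  have heq : (fun c : ℚ_[q] => extendToPadicComplex hσ (padicToComplex q c))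
      = fun c => padicToComplex q c := by
    refine hd.equalizer hcont1 (continuous_padicToComplex q) ?_
    funext r
    simp only [Function.comp_apply, map_ratCast]
  exact congrFun heq c

/-- Elements of `ℂ_q` algebraic over `ℚ_q` lie in `ℚ̄_q`. -/
theorem mem_range_coe_of_root (m : Polynomial ℚ_[q]) (hm : m ≠ 0) (z : ℂ_[q])
    (hz : m.eval₂ (padicToComplex q) z = 0) : ∃ y : PadicAlgCl q, (y : ℂ_[q]) = z := by
  have hsplit : (m.map (algebraMap ℚ_[q] (PadicAlgCl q))).Splits := IsAlgClosed.splits _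
  have hmap : (m.map (algebraMap ℚ_[q] (PadicAlgCl q))).map
      (UniformSpace.Completion.coeRingHom : PadicAlgCl q →+* ℂ_[q])
      = m.map (padicToComplex q) := by
    rw [Polynomial.map_map]
    rfl
  have hroot : z ∈ (m.map (padicToComplex q)).roots := by
    rw [Polynomial.mem_roots (Polynomial.map_ne_zero hm), Polynomial.IsRoot.def,
      Polynomial.eval_map]
    exact hz
  rw [← hmap, hsplit.roots_map, Multiset.mem_map] at hroot
  obtain ⟨y, -, hy⟩ := hroot
  exact ⟨y, hy⟩

variable {q} in
theorem exists_eq_extendToPadicComplex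
    {σ : AlgebraicClosure ℚ ≃ₐ[ℚ] AlgebraicClosure ℚ}
    (hσ : σ ∈ (padicPlace q).decompositionSubgroup ℚ) (y : PadicAlgCl q) :
    ∃ z : PadicAlgCl q, (z : ℂ_[q]) = extendToPadicComplex hσ (y : ℂ_[q]) := by
  have hyint : IsIntegral ℚ_[q] y := Algebra.IsIntegral.isIntegral y
  apply mem_range_coe_of_root q (minpoly ℚ_[q] y) (minpoly.ne_zero hyint)
  have h0 : (minpoly ℚ_[q] y).eval₂ (padicToComplex q) (y : ℂ_[q]) = 0 := by
    have h1 : (minpoly ℚ_[q] y).eval₂ (algebraMap ℚ_[q] (PadicAlgCl q)) y = 0 := by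
      have := minpoly.aeval ℚ_[q] y
      rwa [Polynomial.aeval_def] at this
    have h2 := congrArg (UniformSpace.Completion.coeRingHom : PadicAlgCl q →+* ℂ_[q]) h1
    rw [Polynomial.hom_eval₂, map_zero] at h2
    exact h2
  have h3 := congrArg (extendToPadicComplex hσ) h0
  rw [Polynomial.hom_eval₂, map_zero] at h3
  have hcomp : (extendToPadicComplex hσ).comp (padicToComplex q) = padicToComplex q :=
    RingHom.ext (extendToPadicComplex_padicToComplex hσ)
  rw [hcomp] at h3
  exact h3

variable {q} in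
/-- The lift of `σ ∈ D_A` as a function `ℚ̄_q → ℚ̄_q`. -/
noncomputable def liftFun
    {σ : AlgebraicClosure ℚ ≃ₐ[ℚ] AlgebraicClosure ℚ}
    (hσ : σ ∈ (padicPlace q).decompositionSubgroup ℚ) (y : PadicAlgCl q) : PadicAlgCl q :=
  (exists_eq_extendToPadicComplex hσ y).choose

variable {q} in
theorem coe_liftFun
    {σ : AlgebraicClosure ℚ ≃ₐ[ℚ] AlgebraicClosure ℚ}
    (hσ : σ ∈ (padicPlace q).decompositionSubgroup ℚ) (y : PadicAlgCl q) :
    ((liftFun hσ y : PadicAlgCl q) : ℂ_[q]) = extendToPadicComplex hσ (y : ℂ_[q]) :=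
  (exists_eq_extendToPadicComplex hσ y).choose_spec

theorem coe_padicAlgCl_injective :
    Function.Injective ((↑) : PadicAlgCl q → ℂ_[q]) :=
  UniformSpace.Completion.coe_injective _

variable {q} in
/-- The lift of `σ ∈ D_A` as a `ℚ_q`-algebra endomorphism of `ℚ̄_q`. -/
noncomputable def liftAlgHom
    {σ : AlgebraicClosure ℚ ≃ₐ[ℚ] AlgebraicClosure ℚ}
    (hσ : σ ∈ (padicPlace q).decompositionSubgroup ℚ) : PadicAlgCl q →ₐ[ℚ_[q]] PadicAlgCl q where
  toFun := liftFun hσ
  map_one' := by
    apply coe_padicAlgCl_injective q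
    rw [coe_liftFun, UniformSpace.Completion.coe_one, map_one]
  map_mul' x y := by
    apply coe_padicAlgCl_injective q
    rw [coe_liftFun, UniformSpace.Completion.coe_mul, UniformSpace.Completion.coe_mul, map_mul,
      coe_liftFun, coe_liftFun]
  map_zero' := by
    apply coe_padicAlgCl_injective q
    rw [coe_liftFun, UniformSpace.Completion.coe_zero, map_zero]
  map_add' x y := by
    apply coe_padicAlgCl_injective q
    rw [coe_liftFun, UniformSpace.Completion.coe_add, UniformSpace.Completion.coe_add, map_add,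
      coe_liftFun, coe_liftFun]
  commutes' c := by
    apply coe_padicAlgCl_injective q
    rw [coe_liftFun]
    exact extendToPadicComplex_padicToComplex hσ c

variable {q} in
theorem liftAlgHom_padicEmbedding
    {σ : AlgebraicClosure ℚ ≃ₐ[ℚ] AlgebraicClosure ℚ}
    (hσ : σ ∈ (padicPlace q).decompositionSubgroup ℚ) (x : AlgebraicClosure ℚ) :
    liftAlgHom hσ (padicEmbedding q x) = padicEmbedding q (σ x) := by
  apply coe_padicAlgCl_injective q
  show ((liftFun hσ (padicEmbedding q x) : PadicAlgCl q) : ℂ_[q]) = _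
  rw [coe_liftFun]
  exact extendToPadicComplex_apply hσ x

variable {q} in
/-- The lift of `σ ∈ D_A` to `Gal(ℚ̄_q/ℚ_q)`. -/
noncomputable def liftAlgEquiv
    {σ : AlgebraicClosure ℚ ≃ₐ[ℚ] AlgebraicClosure ℚ}
    (hσ : σ ∈ (padicPlace q).decompositionSubgroup ℚ) : PadicAlgCl q ≃ₐ[ℚ_[q]] PadicAlgCl q :=
  AlgEquiv.ofBijective (liftAlgHom hσ) (Algebra.IsAlgebraic.algHom_bijective (liftAlgHom hσ))

variable {q} in
theorem localGaloisToGlobal_liftAlgEquiv
    {σ : AlgebraicClosure ℚ ≃ₐ[ℚ] AlgebraicClosure ℚ}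
    (hσ : σ ∈ (padicPlace q).decompositionSubgroup ℚ) :
    localGaloisToGlobal q (liftAlgEquiv hσ) = σ := by
  apply AlgEquiv.ext
  intro x
  have hinj : Function.Injective (padicEmbedding q) := (padicEmbedding q).injective
  apply hinj
  rw [padicEmbedding_localGaloisToGlobal]
  exact liftAlgHom_padicEmbedding hσ x

end Extend

/-- **B9.** The image of `Gal(ℚ̄_q/ℚ_q) → Gal(ℚ̄/ℚ)` is exactly the decomposition group of the
place `padicPlace q` of `ℚ̄`. -/
theorem range_localGaloisToGlobal :
    (localGaloisToGlobal q).range = (padicPlace q).decompositionSubgroup ℚ := by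
  apply le_antisymm
  · rintro _ ⟨τ, rfl⟩
    exact localGaloisToGlobal_mem_decompositionSubgroup q τ
  · intro σ hσ
    exact ⟨liftAlgEquiv hσ, localGaloisToGlobal_liftAlgEquiv hσ⟩

/-- Same for `primeLocalToGlobal`. -/
theorem range_primeLocalToGlobal (q : Nat.Primes) :
    (ExtCitation.primeLocalToGlobal q).range
      = (ExtCitation.primeLocalPlace q).decompositionSubgroup ℚ := by
  letI : Fact (q : ℕ).Prime := ⟨q.2⟩
  exact range_localGaloisToGlobal (q : ℕ)

end Fermat.Agent.S55.Bridge
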