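import Fermat.Agent.S55.Bridge.Cyclo

/-!
# S55 bridge, part B2c: `M.dualTwist (cycloChar p)` satisfies the hypotheses of S55 again,
and both `M` and `M.dualTwist (cycloChar p)` factor through one finite Galois level
unramified outside `S` (when `p ∈ S`).
-/

set_option autoImplicit false

namespace Fermat.Agent.S55.Bridge

open ExtCitation IntermediateField

attribute [local instance] isAlgebraic_Qbar isGalois_Qbar

/-- If `g` acts trivially on `A` and `χ g = 1` then `g` acts trivially on `A.dualTwist χ`. -/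
theorem dualTwist_ρ_eq_one {k G : Type} [CommRing k] [Group G] (A : Rep.{0, 0, 0} k G)
    (χ : G →* kˣ) (g : G) (hA : A.ρ g = 1) (hχ : χ g = 1) : (A.dualTwist χ).ρ g = 1 := by
  have hinv : A.ρ g⁻¹ = 1 := by
    have h : A.ρ g⁻¹ * A.ρ g = 1 := by rw [← map_mul, inv_mul_cancel, map_one]
    rwa [hA, mul_one] at h
  apply LinearMap.ext
  intro f
  rw [Rep.dualTwist_ρ_apply, hχ, hinv, Units.val_one, one_smul]
  rfl

section cyclo

variable (p : ℕ) [Fact p.Prime]

/-- The field generated by the `p`-th roots of unity. -/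
noncomputable def cycloLevel : IntermediateField ℚ (AlgebraicClosure ℚ) :=
  IntermediateField.adjoin ℚ {x : AlgebraicClosure ℚ | x ^ p = 1}

theorem cycloLevel_finiteDimensional : FiniteDimensional ℚ (cycloLevel p) := by
  have hp : p.Prime := Fact.out
  have hfin : Set.Finite {x : AlgebraicClosure ℚ | x ^ p = 1} := by
    have h := (Polynomial.X ^ p - 1 : Polynomial (AlgebraicClosure ℚ)).roots.toFinset.finite_toSet
    refine h.subset fun x hx => ?_
    have hne : (Polynomial.X ^ p - 1 : Polynomial (AlgebraicClosure ℚ)) ≠ 0 :=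
      Polynomial.X_pow_sub_C_ne_zero hp.pos 1
    simp only [Finset.mem_coe, Multiset.mem_toFinset, Polynomial.mem_roots hne,
      Polynomial.IsRoot, Polynomial.eval_sub, Polynomial.eval_pow, Polynomial.eval_X,
      Polynomial.eval_one]
    exact sub_eq_zero.2 hx
  haveI : Finite {x : AlgebraicClosure ℚ | x ^ p = 1} := hfin
  exact IntermediateField.finiteDimensional_adjoin
    (fun x _ => Algebra.IsIntegral.isIntegral x)

theorem cycloChar_eq_one_of_mem_fixingSubgroup
    (σ : AlgebraicClosure ℚ ≃ₐ[ℚ] AlgebraicClosure ℚ) (hσ : σ ∈ (cycloLevel p).fixingSubgroup) :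
    cycloChar p σ = 1 := by
  apply cycloChar_eq_one_of_fixes
  intro t ht
  have htp : (t : AlgebraicClosure ℚ) ^ p = 1 := by
    have := (mem_rootsOfUnity p t).1 ht
    rw [← Units.val_pow_eq_pow_val, this, Units.val_one]
  exact (IntermediateField.mem_fixingSubgroup_iff _ σ).1 hσ t
    (IntermediateField.subset_adjoin ℚ _ htp)

end cyclo

section Rep

variable {p : ℕ} [Fact p.Prime]
  (M : Rep.{0, 0, 0} (ZMod p) (AlgebraicClosure ℚ ≃ₐ[ℚ] AlgebraicClosure ℚ))

/-- Smoothness passes to the Tate-twisted dual. -/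
theorem dualTwist_smooth [FiniteDimensional (ZMod p) M]
    (hsm : ∀ m : M, ∃ F : IntermediateField ℚ (AlgebraicClosure ℚ), FiniteDimensional ℚ F ∧
      ∀ s ∈ F.fixingSubgroup, M.ρ s m = m) :
    ∀ f : M.dualTwist (cycloChar p), ∃ F : IntermediateField ℚ (AlgebraicClosure ℚ),
      FiniteDimensional ℚ F ∧ ∀ s ∈ F.fixingSubgroup, (M.dualTwist (cycloChar p)).ρ s f = f := by
  obtain ⟨F, hFfin, hF⟩ := exists_finite_level_of_smooth M hsm
  intro f
  haveI := hFfin
  haveI := cycloLevel_finiteDimensional p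
  refine ⟨F ⊔ cycloLevel p, IntermediateField.finiteDimensional_sup F (cycloLevel p), ?_⟩
  intro s hs
  rw [IntermediateField.fixingSubgroup_sup] at hs
  rw [dualTwist_ρ_eq_one M (cycloChar p) s (hF s hs.1)
    (cycloChar_eq_one_of_mem_fixingSubgroup p s hs.2)]
  rfl

/-- Unramifiedness outside `S ∋ p` passes to the Tate-twisted dual. -/
theorem dualTwist_unramified (S : Finset Nat.Primes) (hpS : pPrime p ∈ S)
    (hMur : ∀ q : Nat.Primes, q ∉ S → ∀ A : ValuationSubring (AlgebraicClosure ℚ),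
      A.LiesOverPrime (q : ℕ) → ∀ g ∈ A.inertiaSubgroupIn ℚ, M.ρ g = 1) :
    ∀ q : Nat.Primes, q ∉ S → ∀ A : ValuationSubring (AlgebraicClosure ℚ),
      A.LiesOverPrime (q : ℕ) → ∀ g ∈ A.inertiaSubgroupIn ℚ,
        (M.dualTwist (cycloChar p)).ρ g = 1 := by
  intro q hq A hA g hg
  have hqp : (q : ℕ) ≠ p := by
    intro h
    apply hq
    have : q = pPrime p := Subtype.ext h
    rw [this]
    exact hpS
  exact dualTwist_ρ_eq_one M (cycloChar p) g (hMur q hq A hA g hg)
    (cycloChar_eq_one_of_mem_inertia p q.2 hqp A hA g hg)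

/-- **B2.** Under the hypotheses of S55 there is a single finite Galois extension `L/ℚ`,
unramified outside `S`, such that `G_L` acts trivially on `M` and on `M.dualTwist (cycloChar p)`
and `cycloChar p` is trivial on `G_L`. -/
theorem exists_common_galois_level [FiniteDimensional (ZMod p) M]
    (S : Finset Nat.Primes) (hpS : pPrime p ∈ S)
    (hsm : ∀ m : M, ∃ F : IntermediateField ℚ (AlgebraicClosure ℚ), FiniteDimensional ℚ F ∧
      ∀ s ∈ F.fixingSubgroup, M.ρ s m = m)
    (hMur : ∀ q : Nat.Primes, q ∉ S → ∀ A : ValuationSubring (AlgebraicClosure ℚ),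
      A.LiesOverPrime (q : ℕ) → ∀ g ∈ A.inertiaSubgroupIn ℚ, M.ρ g = 1) :
    ∃ L : IntermediateField ℚ (AlgebraicClosure ℚ),
      L.IsUnramifiedOutside S ∧ IsGalois ℚ L ∧
      (∀ s ∈ L.fixingSubgroup, M.ρ s = 1) ∧
      (∀ s ∈ L.fixingSubgroup, cycloChar p s = 1) ∧
      (∀ s ∈ L.fixingSubgroup, (M.dualTwist (cycloChar p)).ρ s = 1) := by
  obtain ⟨F, hFfin, hF⟩ := exists_finite_level_of_smooth M hsm
  haveI := hFfin
  haveI := cycloLevel_finiteDimensional p
  have hsupfin : FiniteDimensional ℚ ↥(F ⊔ cycloLevel p) :=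
    IntermediateField.finiteDimensional_sup F (cycloLevel p)
  obtain ⟨L, hL, hgal, hfix, -⟩ := exists_galois_level_of_subgroup S
    (MonoidHom.ker M.ρ ⊓ MonoidHom.ker (cycloChar p)) (F ⊔ cycloLevel p) hsupfin
    (fun s hs => by
      rw [IntermediateField.fixingSubgroup_sup] at hs
      exact ⟨MonoidHom.mem_ker.2 (hF s hs.1),
        MonoidHom.mem_ker.2 (cycloChar_eq_one_of_mem_fixingSubgroup p s hs.2)⟩)
    (fun q hq A hA g hg => by
      have hqp : (q : ℕ) ≠ p := by
        intro h
        apply hq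
        have : q = pPrime p := Subtype.ext h
        rw [this]
        exact hpS
      exact ⟨MonoidHom.mem_ker.2 (hMur q hq A hA g hg),
        MonoidHom.mem_ker.2 (cycloChar_eq_one_of_mem_inertia p q.2 hqp A hA g hg)⟩)
  have hmem : ∀ s ∈ L.fixingSubgroup, M.ρ s = 1 ∧ cycloChar p s = 1 := by
    intro s hs
    rw [hfix] at hs
    exact ⟨MonoidHom.mem_ker.1 hs.1, MonoidHom.mem_ker.1 hs.2⟩
  exact ⟨L, hL, hgal, fun s hs => (hmem s hs).1, fun s hs => (hmem s hs).2,
    fun s hs => dualTwist_ρ_eq_one M (cycloChar p) s (hmem s hs).1 (hmem s hs).2⟩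

end Rep

end Fermat.Agent.S55.Bridge
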