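import Fermat.Agent.S55.Bridge.H594.Unram

/-!
# S55 bridge, part B17: places of `ℚ̄` versus primes of `𝓞 F`

`F/ℚ` finite inside `ℚ̄`, `A` a valuation subring of `ℚ̄` over a prime number `q`.

* `placePrime F A hq hA : HeightOneSpectrum (𝓞 F)` — the prime `A ∩ 𝓞 F`
  (`= H594.primeBelowF F A`);
* `mem_iff_valuation_le_one` : for `x ∈ F`, `x ∈ A ↔ w.valuation x ≤ 1`;
* `unit_iff_valuation_eq_one` : `x ∈ A ∧ x⁻¹ ∈ A ↔ w.valuation x = 1`;
* `exists_place_eq` : every finite prime of `F` is `placePrime` of some place of `ℚ̄`.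
-/

set_option autoImplicit false
set_option linter.unusedSectionVars false

namespace Fermat.Agent.S55.Bridge

open Fermat.Agent.S54 NumberField IsDedekindDomain
open scoped Pointwise

attribute [local instance] isAlgebraic_Qbar isGalois_Qbar

section

variable (F : IntermediateField ℚ (AlgebraicClosure ℚ)) [FiniteDimensional ℚ F]

attribute [local instance] H594.numberField_of_finite

variable (A : ValuationSubring (AlgebraicClosure ℚ))

theorem primeBelowF_ne_bot {q : ℕ} (hq : q.Prime) (hA : A.LiesOverPrime q) :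
    H594.primeBelowF F A ≠ ⊥ := by
  intro h
  have h1 : (q : 𝓞 F) ∈ H594.primeBelowF F A := H594.natCast_mem_primeBelowF F A hA
  rw [h, Ideal.mem_bot] at h1
  exact hq.ne_zero (by exact_mod_cast h1)

/-- The finite prime of `F` below a place `A` of `ℚ̄` over a prime number. -/
noncomputable def placePrime {q : ℕ} (hq : q.Prime) (hA : A.LiesOverPrime q) :
    HeightOneSpectrum (𝓞 F) where
  asIdeal := H594.primeBelowF F A
  isPrime := H594.primeBelowF_isPrime F A
  ne_bot := primeBelowF_ne_bot F A hq hA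

theorem placePrime_asIdeal {q : ℕ} (hq : q.Prime) (hA : A.LiesOverPrime q) :
    (placePrime F A hq hA).asIdeal = H594.primeBelowF F A := rfl

/-- An element of `𝓞 F` outside the prime below `A` is a unit of `A`. -/
theorem valuation_eq_one_of_notMem_primeBelowF (s : 𝓞 F) (hs : s ∉ H594.primeBelowF F A) :
    A.valuation (algebraMap (𝓞 F) (AlgebraicClosure ℚ) s) = 1 := by
  have h1 : A.valuation (algebraMap (𝓞 F) (AlgebraicClosure ℚ) s) ≤ 1 :=
    (A.valuation_le_one_iff _).2 (H594.algebraMap_ringOfIntegers_mem F A s)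
  rw [H594.mem_primeBelowF, ValuationSubring.mem_nonunits_iff, not_lt] at hs
  exact le_antisymm h1 hs

/-- `x ∈ F` with `w.valuation x ≤ 1` is a quotient `a / s`, `s ∉ w`. -/
theorem exists_div_of_valuation_le_one (w : HeightOneSpectrum (𝓞 F)) (x : F)
    (hx : w.valuation F x ≤ 1) :
    ∃ (a s : 𝓞 F), s ∉ w.asIdeal ∧ x * algebraMap (𝓞 F) F s = algebraMap (𝓞 F) F a := by
  have hmem : x ∈ (w.valuation F).valuationSubring := hx
  rw [← HeightOneSpectrum.valuationSubringAtPrime_eq_valuationSubring] at hmem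
  obtain ⟨a, s, hs, rfl⟩ := hmem
  refine ⟨a, s, hs, ?_⟩
  have hs0 : algebraMap (𝓞 F) F s ≠ 0 := by
    intro h0
    have : s = 0 := (FaithfulSMul.algebraMap_injective (𝓞 F) F) (by rw [h0, map_zero])
    subst this
    exact hs (Ideal.zero_mem _)
  rw [mul_assoc, inv_mul_cancel₀ hs0, mul_one]

variable {q : ℕ} (hq : q.Prime) (hA : A.LiesOverPrime q)

/-- **B17a.** For `x ∈ F`: `x ∈ A` iff `x` is integral at the prime of `F` below `A`. -/
theorem mem_iff_valuation_le_one (x : F) :
    (x : AlgebraicClosure ℚ) ∈ A ↔ (placePrime F A hq hA).valuation F x ≤ 1 := by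
  have key : ∀ y : F, (placePrime F A hq hA).valuation F y ≤ 1 →
      A.valuation (y : AlgebraicClosure ℚ) ≤ 1 ∧
        ((placePrime F A hq hA).valuation F y < 1 → A.valuation (y : AlgebraicClosure ℚ) < 1) := by
    intro y hy
    obtain ⟨a, s, hs, hys⟩ := exists_div_of_valuation_le_one F _ y hy
    have hsv := valuation_eq_one_of_notMem_primeBelowF F A s hs
    have hys' : (y : AlgebraicClosure ℚ) * algebraMap (𝓞 F) (AlgebraicClosure ℚ) s
        = algebraMap (𝓞 F) (AlgebraicClosure ℚ) a := by
      have := congrArg (fun t : F => (t : AlgebraicClosure ℚ)) hys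
      simp only [IntermediateField.coe_mul] at this
      exact this
    have hval : A.valuation (y : AlgebraicClosure ℚ)
        = A.valuation (algebraMap (𝓞 F) (AlgebraicClosure ℚ) a) := by
      rw [← hys', map_mul, hsv, mul_one]
    refine ⟨?_, fun hlt => ?_⟩
    · rw [hval]
      exact (A.valuation_le_one_iff _).2 (H594.algebraMap_ringOfIntegers_mem F A a)
    · rw [hval, ← ValuationSubring.mem_nonunits_iff, ← H594.mem_primeBelowF]
      -- `a ∈ w` since `w.valuation (a / s) < 1`
      have h1 : (placePrime F A hq hA).valuation F (algebraMap (𝓞 F) F a) < 1 := by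
        rw [← hys, map_mul]
        have h2 : (placePrime F A hq hA).valuation F (algebraMap (𝓞 F) F s) = 1 :=
          (HeightOneSpectrum.valuation_eq_one_iff_notMem (K := F) (placePrime F A hq hA)).2 hs
        rw [h2, mul_one]
        exact hlt
      exact (HeightOneSpectrum.valuation_lt_one_iff_mem (K := F) (placePrime F A hq hA) a).1 h1
  constructor
  · intro hx
    by_contra hgt
    rw [not_le] at hgt
    have hx0 : x ≠ 0 := by
      rintro rfl
      rw [map_zero] at hgt
      exact not_lt.2 zero_le_one hgt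
    have hinv : (placePrime F A hq hA).valuation F x⁻¹ < 1 := by
      rw [map_inv₀]
      exact (inv_lt_one₀ (lt_trans zero_lt_one hgt)).2 hgt
    have h1 := (key x⁻¹ hinv.le).2 hinv
    have h2 : A.valuation (x : AlgebraicClosure ℚ) ≤ 1 := (A.valuation_le_one_iff _).2 hx
    have h3 : A.valuation ((x⁻¹ : F) : AlgebraicClosure ℚ) * A.valuation (x : AlgebraicClosure ℚ)
        = 1 := by
      rw [← map_mul]
      have : ((x⁻¹ : F) : AlgebraicClosure ℚ) * (x : AlgebraicClosure ℚ) = 1 := by
        have := congrArg (fun t : F => (t : AlgebraicClosure ℚ)) (inv_mul_cancel₀ hx0)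
        simpa using this
      rw [this, map_one]
    have h4 : A.valuation ((x⁻¹ : F) : AlgebraicClosure ℚ) * A.valuation (x : AlgebraicClosure ℚ)
        < 1 := by
      calc A.valuation ((x⁻¹ : F) : AlgebraicClosure ℚ) * A.valuation (x : AlgebraicClosure ℚ)
          ≤ A.valuation ((x⁻¹ : F) : AlgebraicClosure ℚ) * 1 := by gcongr
        _ < 1 := by rwa [mul_one]
    rw [h3] at h4
    exact lt_irrefl _ h4
  · intro hx
    exact (A.valuation_le_one_iff _).1 (key x hx).1

/-- **B17a'.** A unit of `F` is a unit of `A` iff it has valuation `1` at the prime below. -/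
theorem unit_iff_valuation_eq_one (u : Fˣ) :
    (((u : F) : AlgebraicClosure ℚ) ∈ A ∧ (((u⁻¹ : Fˣ) : F) : AlgebraicClosure ℚ) ∈ A) ↔
      (placePrime F A hq hA).valuation F (u : F) = 1 := by
  rw [mem_iff_valuation_le_one F A hq hA, mem_iff_valuation_le_one F A hq hA]
  have hinv : (placePrime F A hq hA).valuation F ((u⁻¹ : Fˣ) : F)
      = ((placePrime F A hq hA).valuation F (u : F))⁻¹ := by
    rw [Units.val_inv_eq_inv_val, map_inv₀]
  have hne : (placePrime F A hq hA).valuation F (u : F) ≠ 0 :=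
    (Valuation.ne_zero_iff _).2 u.ne_zero
  rw [hinv]
  constructor
  · rintro ⟨h1, h2⟩
    refine le_antisymm h1 ?_
    exact (inv_le_one₀ (zero_lt_iff.2 hne)).1 h2
  · intro h
    rw [h, inv_one]
    exact ⟨le_rfl, le_rfl⟩

end

section Exists

variable (F : IntermediateField ℚ (AlgebraicClosure ℚ)) [FiniteDimensional ℚ F]

attribute [local instance] H594.numberField_of_finite

/-- Every finite prime of a number field contains a rational prime. -/
theorem exists_prime_natCast_mem_asIdeal (w : HeightOneSpectrum (𝓞 F)) :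
    ∃ q : ℕ, q.Prime ∧ (q : 𝓞 F) ∈ w.asIdeal := by
  haveI : w.asIdeal.IsMaximal := w.isMaximal
  haveI : (w.asIdeal.under ℤ).IsPrime := Ideal.IsPrime.under ℤ w.asIdeal
  have hne : w.asIdeal.under ℤ ≠ ⊥ := Ideal.under_ne_bot ℤ w.ne_bot
  obtain ⟨n, hn⟩ := IsPrincipalIdealRing.principal (w.asIdeal.under ℤ)
  have hn' : w.asIdeal.under ℤ = Ideal.span {n} := hn
  have hn0 : n ≠ 0 := by
    rintro rfl
    apply hne
    rw [hn']
    exact Ideal.span_singleton_eq_bot.2 rfl
  have hprime : Prime n := by
    rw [← Ideal.span_singleton_prime hn0, ← hn']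
    infer_instance
  refine ⟨n.natAbs, Int.prime_iff_natAbs_prime.1 hprime, ?_⟩
  have hmem : (n.natAbs : ℤ) ∈ w.asIdeal.under ℤ := by
    rw [hn', Ideal.mem_span_singleton]
    exact Int.dvd_natAbs.2 (dvd_refl n)
  have := (Ideal.mem_comap).1 hmem
  simpa using this

/-- **B17b.** Every finite prime of `F` lies below a place of `ℚ̄` over a prime number. -/
theorem exists_place_eq (w : HeightOneSpectrum (𝓞 F)) :
    ∃ (q : ℕ) (_ : q.Prime) (A : ValuationSubring (AlgebraicClosure ℚ)) (_ : A.LiesOverPrime q),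
      H594.primeBelowF F A = w.asIdeal := by
  obtain ⟨q, hq, hqw⟩ := exists_prime_natCast_mem_asIdeal F w
  haveI hmax : w.asIdeal.IsMaximal := w.isMaximal
  -- a valuation subring of `ℚ̄` above `w`
  let A₀ : Subring (AlgebraicClosure ℚ) := (algebraMap (𝓞 F) (AlgebraicClosure ℚ)).range
  let g : 𝓞 F →+* A₀ := (algebraMap (𝓞 F) (AlgebraicClosure ℚ)).rangeRestrict
  have hginj : Function.Injective g := by
    intro x y hxy
    have h1 : algebraMap (𝓞 F) (AlgebraicClosure ℚ) x =
        algebraMap (𝓞 F) (AlgebraicClosure ℚ) y :=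
      congrArg (fun z : A₀ => (z : AlgebraicClosure ℚ)) hxy
    exact FaithfulSMul.algebraMap_injective (𝓞 F) (AlgebraicClosure ℚ) h1
  have hgsurj : Function.Surjective g :=
    (algebraMap (𝓞 F) (AlgebraicClosure ℚ)).rangeRestrict_surjective
  have hI : w.asIdeal.map g ≠ ⊤ := by
    intro htop
    have h1 : (w.asIdeal.map g).comap g = w.asIdeal :=
      Ideal.comap_map_of_bijective g ⟨hginj, hgsurj⟩
    rw [htop, Ideal.comap_top] at h1
    exact hmax.ne_top h1.symm
  obtain ⟨A, -, hA⟩ := Ideal.image_subset_nonunits_valuationSubring _ hI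
  have hPA : ∀ x ∈ w.asIdeal, algebraMap (𝓞 F) (AlgebraicClosure ℚ) x ∈ A.nonunits := by
    intro x hx
    exact hA ⟨g x, Ideal.mem_map_of_mem g hx, rfl⟩
  have hAq : A.LiesOverPrime q := by
    have := hPA _ hqw
    rwa [map_natCast] at this
  refine ⟨q, hq, A, hAq, ?_⟩
  have hle : w.asIdeal ≤ H594.primeBelowF F A := fun x hx => hPA x hx
  exact (hmax.eq_of_le (H594.primeBelowF_isPrime F A).ne_top hle).symm

end Exists

end Fermat.Agent.S55.Bridge
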