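import Fermat.Agent.S55.Spec.Datum
import Fermat.Agent.S55.H901.H1FinMain

/-!
# S55: the input `H1FiniteSpec` (GD10) of the engine E1, in the exact frozen shape

`h1FiniteSpec : Tow.H1FiniteSpec S p` for `p ∈ S`, from helper901's
`H901.finiteDimensional_continuousH1S` (on main).
-/

set_option autoImplicit false

namespace Fermat.Agent.S55.Bridge

open groupCohomology ExtCitation

/-- **GD10** in the frozen shape of `Spec/Datum.lean`. -/
theorem h1FiniteSpec {p : ℕ} [Fact p.Prime] (S : Finset Nat.Primes) (hpS : pPrime p ∈ S) :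
    Tow.H1FiniteSpec S p := by
  intro N _ hL
  obtain ⟨L, hL⟩ := hL
  refine H901.finiteDimensional_continuousH1S S hpS N ?_ ?_
  · intro m
    exact ⟨L.F, L.unram.1, fun s hs => by rw [hL s hs]; rfl⟩
  · intro q hq A hA g hg
    exact hL g (L.unram.2 q hq A hA hg)

end Fermat.Agent.S55.Bridge
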