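import Fermat.Agent.S55.Spec.Datum
import Fermat.Agent.S55.Bridge.DualTwist
import Fermat.Agent.S55.Bridge.InertiaConj

/-!
# S55: the input `SUnitsDivSpec` (GD9) of the engine E1, in the exact frozen shape

`sUnitsDivSpec (hpS : pPrime p ∈ S) : Tow.SUnitsDivSpec S p`:

* the `S`-units are `p`-divisible in the tower: for an `S`-unit `e ∈ Fˣ` and `β ^ p = e`, the
  Kummer extension `F(β)` is unramified outside `S ∋ p` (inertia at `q ∉ S` moves `β` by a `p`-th
  root of unity `ζ` with `ζ - 1 ∈ 𝔪_A`, hence `ζ = 1`; Kummer lemma, cf. helper893 `H893/Kummer`);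
* `μ_p` lives at a level (`ℚ(μ_p)` is unramified outside `p`).
-/

set_option autoImplicit false

namespace Fermat.Agent.S55.Bridge

open ExtCitation IntermediateField

attribute [local instance] isAlgebraic_Qbar isGalois_Qbar

section core

variable {A : ValuationSubring (AlgebraicClosure ℚ)}

/-- Local core of Kummer theory: inertia at a place where `p` is a unit fixes a `p`-th root `β`
of a fixed unit. -/
theorem kummer_unit_fixed_of_mem_inertia {n : ℕ} (hn0 : n ≠ 0)
    (hnv : A.valuation (n : AlgebraicClosure ℚ) = 1)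
    {σ : AlgebraicClosure ℚ ≃ₐ[ℚ] AlgebraicClosure ℚ} (hσ : σ ∈ A.inertiaSubgroupIn ℚ)
    {β : AlgebraicClosure ℚ} (hβ : σ (β ^ n) = β ^ n) (hv : A.valuation β = 1) : σ β = β := by
  have hβ0 : β ≠ 0 := by
    rintro rfl
    rw [map_zero] at hv
    exact zero_ne_one hv
  by_contra hne
  have hζ : (σ β / β) ^ n = 1 := by
    rw [div_pow, ← map_pow, hβ, div_self (pow_ne_zero n hβ0)]
  have hζ1 : σ β / β ≠ 1 := fun h => hne ((div_eq_one_iff_eq hβ0).1 h)
  have h1 : A.valuation (σ β / β - 1) = 1 :=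
    val_sub_roots_eq_one (A := A) hn0 hnv hζ (one_pow n) hζ1
  have h2 := inertia_val_sub_lt_one A hσ β hv.le
  have h3 : σ β - β = β * (σ β / β - 1) := by
    field_simp
  rw [h3, map_mul, h1, mul_one, hv] at h2
  exact lt_irrefl _ h2

end core

variable {p : ℕ} [Fact p.Prime] (S : Finset Nat.Primes)

/-- `F(β)` is unramified outside `S ∋ p` if `β ^ p ∈ F` is a unit outside `S`. -/
theorem isUnramifiedOutside_sup_adjoin_root_unit (hpS : pPrime p ∈ S)
    {F : IntermediateField ℚ (AlgebraicClosure ℚ)} (hF : F.IsUnramifiedOutside S)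
    {β : AlgebraicClosure ℚ} (hβ : β ^ p ∈ F)
    (hunit : ∀ q : Nat.Primes, q ∉ S → ∀ A : ValuationSubring (AlgebraicClosure ℚ),
      A.LiesOverPrime (q : ℕ) → A.valuation β = 1) :
    (F ⊔ ℚ⟮β⟯).IsUnramifiedOutside S := by
  have hp : p.Prime := Fact.out
  haveI := hF.1
  haveI : FiniteDimensional ℚ ℚ⟮β⟯ :=
    IntermediateField.adjoin.finiteDimensional (Algebra.IsIntegral.isIntegral β)
  refine ⟨IntermediateField.finiteDimensional_sup F ℚ⟮β⟯, fun q hq A hA σ hσ => ?_⟩
  have hσF : σ ∈ F.fixingSubgroup := hF.2 q hq A hA hσ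
  rw [IntermediateField.fixingSubgroup_sup]
  refine ⟨hσF, ?_⟩
  show σ ∈ ℚ⟮β⟯.fixingSubgroup
  have hqp : (q : ℕ) ≠ p := by
    intro h
    apply hq
    have : q = pPrime p := Subtype.ext h
    rw [this]
    exact hpS
  have hpv : A.valuation (p : AlgebraicClosure ℚ) = 1 := val_prime_eq_one (A := A) hA q.2 hp hqp
  have hσβ : σ β = β :=
    kummer_unit_fixed_of_mem_inertia hp.ne_zero hpv hσ
      ((IntermediateField.mem_fixingSubgroup_iff F σ).1 hσF _ hβ) (hunit q hq A hA)
  rw [IntermediateField.mem_fixingSubgroup_iff]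
  intro x hx
  have hle : ℚ⟮β⟯ ≤ IntermediateField.fixedField (Subgroup.zpowers σ) := by
    rw [IntermediateField.adjoin_simple_le_iff]
    rintro ⟨τ, hτ⟩
    obtain ⟨k, rfl⟩ := Subgroup.mem_zpowers_iff.1 hτ
    show (σ ^ k) • β = β
    have hstab : σ ∈ MulAction.stabilizer (AlgebraicClosure ℚ ≃ₐ[ℚ] AlgebraicClosure ℚ) β :=
      MulAction.mem_stabilizer_iff.2 hσβ
    exact MulAction.mem_stabilizer_iff.1 (Subgroup.zpow_mem _ hstab k)
  exact hle hx ⟨σ, Subgroup.mem_zpowers σ⟩

/-- A unit at `A` (both `u` and `u⁻¹` in `A`) has valuation one. -/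
theorem valuation_unit_eq_one {A : ValuationSubring (AlgebraicClosure ℚ)}
    (u : (AlgebraicClosure ℚ)ˣ) (hu : (u : AlgebraicClosure ℚ) ∈ A)
    (hu' : ((u⁻¹ : (AlgebraicClosure ℚ)ˣ) : AlgebraicClosure ℚ) ∈ A) :
    A.valuation (u : AlgebraicClosure ℚ) = 1 := by
  have h1 : A.valuation (u : AlgebraicClosure ℚ) ≤ 1 := (A.valuation_le_one_iff _).2 hu
  have h2 : A.valuation ((u⁻¹ : (AlgebraicClosure ℚ)ˣ) : AlgebraicClosure ℚ) ≤ 1 :=
    (A.valuation_le_one_iff _).2 hu'
  have h3 : A.valuation (u : AlgebraicClosure ℚ)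
      * A.valuation ((u⁻¹ : (AlgebraicClosure ℚ)ˣ) : AlgebraicClosure ℚ) = 1 := by
    rw [← map_mul, ← Units.val_mul, mul_inv_cancel, Units.val_one, map_one]
  refine le_antisymm h1 ?_
  calc (1 : A.ValueGroup)
      = A.valuation (u : AlgebraicClosure ℚ)
        * A.valuation ((u⁻¹ : (AlgebraicClosure ℚ)ˣ) : AlgebraicClosure ℚ) := h3.symm
    _ ≤ A.valuation (u : AlgebraicClosure ℚ) * 1 := by gcongr
    _ = A.valuation (u : AlgebraicClosure ℚ) := mul_one _

/-- The level generated by the `p`-th roots of unity: a level of `S ∋ p` containing `μ_p`. -/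
theorem exists_level_contains_roots (hpS : pPrime p ∈ S) :
    ∃ L₀ : Tow.Level S, ∀ ζ : Tow.Qbar, ζ ^ p = 1 → ζ ∈ L₀.F := by
  have hp : p.Prime := Fact.out
  haveI hnorm : (MonoidHom.ker (cycloChar p)).Normal := inferInstance
  obtain ⟨L, hL, hgal, hfix, -⟩ := exists_galois_level_of_subgroup S
    (MonoidHom.ker (cycloChar p)) (cycloLevel p) (cycloLevel_finiteDimensional p)
    (fun s hs => MonoidHom.mem_ker.2 (cycloChar_eq_one_of_mem_fixingSubgroup p s hs))
    (fun q hq A hA g hg => by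
      have hqp : (q : ℕ) ≠ p := by
        intro h
        apply hq
        have : q = pPrime p := Subtype.ext h
        rw [this]
        exact hpS
      exact MonoidHom.mem_ker.2 (cycloChar_eq_one_of_mem_inertia p q.2 hqp A hA g hg))
  refine ⟨⟨L, hL, (InfiniteGalois.normal_iff_isGalois _).2 hgal⟩, fun ζ hζ => ?_⟩
  show ζ ∈ L
  rw [← InfiniteGalois.fixedField_fixingSubgroup L, IntermediateField.mem_fixedField_iff]
  intro σ hσ
  rw [hfix, MonoidHom.mem_ker, cycloChar_eq_one_iff] at hσ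
  have hζ0 : ζ ≠ 0 := by
    rintro rfl
    rw [zero_pow hp.ne_zero] at hζ
    exact zero_ne_one hζ
  have hmem : Units.mk0 ζ hζ0 ∈ rootsOfUnity p (AlgebraicClosure ℚ) := by
    rw [mem_rootsOfUnity]
    apply Units.ext
    rw [Units.val_pow_eq_pow_val, Units.val_mk0, hζ, Units.val_one]
  exact hσ (Units.mk0 ζ hζ0) hmem

/-- **GD9** in the frozen shape of `Spec/Datum.lean`. -/
theorem sUnitsDivSpec (hpS : pPrime p ∈ S) : Tow.SUnitsDivSpec S p := by
  have hp : p.Prime := Fact.out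
  refine ⟨?_, exists_level_contains_roots S hpS⟩
  intro L e he
  -- a `p`-th root of the underlying unit
  let u : (AlgebraicClosure ℚ)ˣ := L.val e
  obtain ⟨β, hβ⟩ := IsAlgClosed.exists_pow_nat_eq (u : AlgebraicClosure ℚ) hp.pos
  have hβ0 : β ≠ 0 := by
    rintro rfl
    rw [zero_pow hp.ne_zero] at hβ
    exact u.ne_zero hβ.symm
  -- `u ∈ F`
  have huF : (u : AlgebraicClosure ℚ) ∈ L.F := by
    rw [← InfiniteGalois.fixedField_fixingSubgroup L.F, IntermediateField.mem_fixedField_iff]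
    intro σ hσ
    have h := L.unitsCoe_fixed e σ hσ
    have h' := congrArg (fun a : Tow.unitsQbar.V =>
      ((Additive.toMul (show Additive (AlgebraicClosure ℚ)ˣ from a) : (AlgebraicClosure ℚ)ˣ) :
        AlgebraicClosure ℚ)) h
    exact h'
  -- valuations
  have hvu : ∀ q : Nat.Primes, q ∉ S → ∀ A : ValuationSubring (AlgebraicClosure ℚ),
      A.LiesOverPrime (q : ℕ) → A.valuation (u : AlgebraicClosure ℚ) = 1 := fun q hq A hA =>
    valuation_unit_eq_one u (he q hq A hA).1 (he q hq A hA).2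
  have hvβ : ∀ q : Nat.Primes, q ∉ S → ∀ A : ValuationSubring (AlgebraicClosure ℚ),
      A.LiesOverPrime (q : ℕ) → A.valuation β = 1 := by
    intro q hq A hA
    have h := hvu q hq A hA
    rw [← hβ, map_pow] at h
    exact (pow_eq_one_iff.1 h).resolve_right hp.ne_zero
  -- the Kummer level
  have hK : (L.F ⊔ ℚ⟮β⟯).IsUnramifiedOutside S :=
    isUnramifiedOutside_sup_adjoin_root_unit S hpS L.unram (by rw [hβ]; exact huF) hvβ
  obtain ⟨F', hF', hgal, hle⟩ := exists_galois_level_ge S _ hK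
  let L' : Tow.Level S := ⟨F', hF', (InfiniteGalois.normal_iff_isGalois _).2 hgal⟩
  have h : L ≤ L' := le_sup_left.trans hle
  have hβF' : β ∈ F' :=
    hle (le_sup_right (a := L.F) (IntermediateField.mem_adjoin_simple_self ℚ β))
  have hfix : ∀ g ∈ L'.U, Tow.unitsQbar.ρ g (Additive.ofMul (Units.mk0 β hβ0))
      = Additive.ofMul (Units.mk0 β hβ0) := by
    intro g hg
    apply Additive.toMul.injective
    apply Units.ext
    exact (IntermediateField.mem_fixingSubgroup_iff _ _).1 hg β hβF'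
  refine ⟨L', h, L'.unitsMk (Additive.ofMul (Units.mk0 β hβ0)) hfix, ?_, ?_⟩
  · intro ℓ hℓ A hA
    have hv : A.valuation β = 1 := hvβ ℓ hℓ A hA
    constructor
    · show β ∈ A
      exact (A.valuation_le_one_iff β).1 hv.le
    · show ((Units.mk0 β hβ0)⁻¹ : (AlgebraicClosure ℚ)ˣ).1 ∈ A
      rw [Units.val_inv_eq_inv_val, Units.val_mk0, ← A.valuation_le_one_iff, map_inv₀, hv,
        inv_one]
  · apply L'.unitsCoe_injective
    show p • (Additive.ofMul (Units.mk0 β hβ0) : Additive (AlgebraicClosure ℚ)ˣ) = L.unitsCoe e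
    apply Additive.toMul.injective
    apply Units.ext
    show ((Units.mk0 β hβ0) ^ p : (AlgebraicClosure ℚ)ˣ).1 = (u : AlgebraicClosure ℚ)
    rw [Units.val_pow_eq_pow_val, Units.val_mk0, hβ]

end Fermat.Agent.S55.Bridge
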