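import Fermat.Agent.S54.ValRing
import Fermat.Agent.S55.Bridge.InertiaConj
import Fermat.Agent.S55.Bridge.Cyclo

/-!
# S55 bridge, part B15: a finite extension of `ℚ` is unramified outside a finite set of primes

`exists_finset_isUnramifiedOutside`: for `F/ℚ` finite (inside `ℚ̄`) there is a finite set `T` of
primes with `F.IsUnramifiedOutside T` (Prelude sense: all inertia groups of places of `ℚ̄` over
`q ∉ T` fix `F`).  Elementary proof: for an integral `y` with minimal polynomial `f`, an inertia
element `σ` with `σ y ≠ y` forces `f'(y) ∈ 𝔪_A`, and `f'(y)` divides a nonzero integer.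
-/

set_option autoImplicit false

namespace Fermat.Agent.S55.Bridge

open Polynomial Fermat.Agent.S54

variable (A : ValuationSubring (AlgebraicClosure ℚ))

/-- If an inertia element moves the integral element `y`, then `f'(y) ∈ 𝔪_A`, `f = minpoly ℤ y`. -/
theorem aeval_derivative_mem_nonunits {y : AlgebraicClosure ℚ} (hy : IsIntegral ℤ y)
    {σ : AlgebraicClosure ℚ ≃ₐ[ℚ] AlgebraicClosure ℚ} (hσ : σ ∈ A.inertiaSubgroupIn ℚ)
    (hne : σ y ≠ y) :
    aeval y (derivative (minpoly ℤ y)) ∈ A.nonunits := by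
  have hyA : y ∈ A := isIntegral_mem_valuationSubring A hy
  have hsy : IsIntegral ℤ (σ y) := hy.map σ
  have hsA : σ y ∈ A := isIntegral_mem_valuationSubring A hsy
  set P : Polynomial A := (minpoly ℤ y).map (algebraMap ℤ A) with hP
  let yA : A := ⟨y, hyA⟩
  let sA : A := ⟨σ y, hsA⟩
  have hcoe : ∀ (p : Polynomial ℤ) (a : A),
      ((eval a (p.map (algebraMap ℤ A)) : A) : AlgebraicClosure ℚ)
        = aeval (a : AlgebraicClosure ℚ) p := by
    intro p a
    rw [eval_map, aeval_def]
    exact hom_eval₂ p (algebraMap ℤ A) A.subtype a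
  have hrootY : IsRoot P yA := by
    apply Subtype.ext
    rw [hcoe]
    exact minpoly.aeval ℤ y
  have hrootS : IsRoot P sA := by
    apply Subtype.ext
    rw [hcoe]
    show aeval (σ y) (minpoly ℤ y) = 0
    have h1 : aeval (σ y) (minpoly ℤ y) = (σ : AlgebraicClosure ℚ →+* AlgebraicClosure ℚ)
        (aeval y (minpoly ℤ y)) := by
      rw [aeval_def, aeval_def, hom_eval₂]
      congr 1
      exact (RingHom.ext_int _ _)
    rw [h1, minpoly.aeval, map_zero]
  -- factor out the root `y`
  set Q : Polynomial A := P /ₘ (X - C yA) with hQ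
  have hfac : (X - C yA) * Q = P := mul_divByMonic_eq_iff_isRoot.2 hrootY
  have hder : eval yA (derivative P) = eval yA Q := by
    rw [← hfac, derivative_mul, derivative_sub, derivative_X, derivative_C, sub_zero, one_mul,
      eval_add, eval_mul, eval_sub, eval_X, eval_C, sub_self, zero_mul, add_zero]
  have hQs : eval sA Q = 0 := by
    have h := hrootS
    rw [IsRoot.def, ← hfac, eval_mul, eval_sub, eval_X, eval_C] at h
    rcases mul_eq_zero.1 h with h0 | h0
    · exfalso
      apply hne
      have := congrArg (Subtype.val) (sub_eq_zero.1 h0)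
      exact this
    · exact h0
  obtain ⟨w, hw⟩ := sub_dvd_eval_sub yA sA Q
  rw [hQs, sub_zero] at hw
  have hval : aeval y (derivative (minpoly ℤ y)) = (y - σ y) * (w : AlgebraicClosure ℚ) := by
    have h1 := hcoe (derivative (minpoly ℤ y)) yA
    rw [← derivative_map, ← hP, hder, hw] at h1
    rw [← h1]
    rfl
  rw [hval, ValuationSubring.mem_nonunits_iff, map_mul]
  have h1 : A.valuation (y - σ y) < 1 := by
    have := inertia_val_sub_lt_one A hσ y ((A.valuation_le_one_iff y).2 hyA)
    rwa [← neg_sub, Valuation.map_neg] at this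
  have h2 : A.valuation (w : AlgebraicClosure ℚ) ≤ 1 := (A.valuation_le_one_iff _).2 w.2
  calc A.valuation (y - σ y) * A.valuation (w : AlgebraicClosure ℚ)
      ≤ A.valuation (y - σ y) * 1 := by gcongr
    _ < 1 := by rwa [mul_one]

/-- An integer lying in `𝔪_A`, `A` over the prime `q`, is divisible by `q`. -/
theorem dvd_of_intCast_mem_nonunits {q : ℕ} (hq : q.Prime) (hA : A.LiesOverPrime q) {d : ℤ}
    (hd : (d : AlgebraicClosure ℚ) ∈ A.nonunits) : (q : ℤ) ∣ d := by
  by_contra hnd
  have hcop : IsCoprime (q : ℤ) d := by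
    rw [Int.isCoprime_iff_gcd_eq_one]
    have hp : Prime (q : ℤ) := Nat.prime_iff_prime_int.1 hq
    exact Int.isCoprime_iff_gcd_eq_one.1 ((Prime.coprime_iff_not_dvd hp).2 hnd)
  obtain ⟨u, w, huw⟩ := hcop
  have h1 : (u : AlgebraicClosure ℚ) * (q : AlgebraicClosure ℚ)
      + (w : AlgebraicClosure ℚ) * (d : AlgebraicClosure ℚ) = 1 := by
    have := congrArg (fun n : ℤ => (n : AlgebraicClosure ℚ)) huw
    simpa using this
  have hq' : A.valuation (q : AlgebraicClosure ℚ) < 1 := (A.mem_nonunits_iff).mp hA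
  have hd' : A.valuation (d : AlgebraicClosure ℚ) < 1 := (A.mem_nonunits_iff).mp hd
  have hu : A.valuation (u : AlgebraicClosure ℚ) ≤ 1 := val_intCast_le_one (A := A) u
  have hw : A.valuation (w : AlgebraicClosure ℚ) ≤ 1 := val_intCast_le_one (A := A) w
  have h2 : A.valuation ((u : AlgebraicClosure ℚ) * (q : AlgebraicClosure ℚ)) < 1 := by
    rw [map_mul]
    calc A.valuation (u : AlgebraicClosure ℚ) * A.valuation (q : AlgebraicClosure ℚ)
        ≤ 1 * A.valuation (q : AlgebraicClosure ℚ) := by gcongr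
      _ < 1 := by rwa [one_mul]
  have h3 : A.valuation ((w : AlgebraicClosure ℚ) * (d : AlgebraicClosure ℚ)) < 1 := by
    rw [map_mul]
    calc A.valuation (w : AlgebraicClosure ℚ) * A.valuation (d : AlgebraicClosure ℚ)
        ≤ 1 * A.valuation (d : AlgebraicClosure ℚ) := by gcongr
      _ < 1 := by rwa [one_mul]
  have h4 : A.valuation (1 : AlgebraicClosure ℚ) < 1 := by
    rw [← h1]
    exact lt_of_le_of_lt (A.valuation.map_add _ _) (max_lt h2 h3)
  rw [map_one] at h4
  exact lt_irrefl _ h4

/-- For every `x ∈ ℚ̄` there is a nonzero integer `d` such that the inertia groups at all primes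
not dividing `d` fix `x`. -/
theorem exists_int_inertia_fixes (x : AlgebraicClosure ℚ) :
    ∃ d : ℤ, d ≠ 0 ∧ ∀ q : ℕ, q.Prime → ¬ (q : ℤ) ∣ d →
      ∀ A : ValuationSubring (AlgebraicClosure ℚ), A.LiesOverPrime q →
        ∀ σ ∈ A.inertiaSubgroupIn ℚ, σ x = x := by
  haveI : Algebra.IsAlgebraic ℚ (AlgebraicClosure ℚ) := isAlgebraic_Qbar
  have halg : IsAlgebraic ℤ x :=
    (IsFractionRing.isAlgebraic_iff ℤ ℚ (AlgebraicClosure ℚ)).mpr (Algebra.IsAlgebraic.isAlgebraic x)
  obtain ⟨m, hm, hy⟩ := halg.exists_integral_multiple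
  set y : AlgebraicClosure ℚ := m • x with hydef
  -- `z = f'(y)` is integral and nonzero
  set z : AlgebraicClosure ℚ := aeval y (derivative (minpoly ℤ y)) with hz
  have hzint : IsIntegral ℤ z := by
    let y' : integralClosure ℤ (AlgebraicClosure ℚ) := ⟨y, hy⟩
    have : z = ((aeval y' (derivative (minpoly ℤ y)) : integralClosure ℤ (AlgebraicClosure ℚ)) :
          AlgebraicClosure ℚ) := (Subalgebra.aeval_coe _ y' _)
    rw [this]
    exact Subtype.property _
  have hz0 : z ≠ 0 := by
    have hsep : (minpoly ℚ y).Separable := (minpoly.irreducible hy.tower_top).separable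
    have h1 := hsep.aeval_derivative_ne_zero (minpoly.aeval ℚ y)
    rw [minpoly.isIntegrallyClosed_eq_field_fractions' ℚ hy, derivative_map,
      aeval_map_algebraMap] at h1
    exact h1
  have hd0 : (minpoly ℤ z).coeff 0 ≠ 0 := by
    have h1 := minpoly.coeff_zero_ne_zero (A := ℚ) hzint.tower_top hz0
    rw [minpoly.isIntegrallyClosed_eq_field_fractions' ℚ hzint, coeff_map] at h1
    intro h0
    apply h1
    rw [h0, map_zero]
  refine ⟨(minpoly ℤ z).coeff 0, hd0, ?_⟩
  intro q hq hnd A hA σ hσ
  by_contra hne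
  have hney : σ y ≠ y := by
    intro h
    apply hne
    rw [hydef, map_zsmul] at h
    have hm' : (m : AlgebraicClosure ℚ) ≠ 0 := by exact_mod_cast hm
    rw [zsmul_eq_mul, zsmul_eq_mul] at h
    exact mul_left_cancel₀ hm' h
  have hzmem : z ∈ A.nonunits := aeval_derivative_mem_nonunits A hy hσ hney
  -- `d = - (divX m)(z) * z`
  have hrel : aeval z (divX (minpoly ℤ z)) * z
      + (((minpoly ℤ z).coeff 0 : ℤ) : AlgebraicClosure ℚ) = 0 := by
    have h := congrArg (aeval z) (divX_mul_X_add (minpoly ℤ z))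
    rw [minpoly.aeval, map_add, map_mul, aeval_X, aeval_C] at h
    simpa using h
  have hwint : IsIntegral ℤ (aeval z (divX (minpoly ℤ z))) := by
    let z' : integralClosure ℤ (AlgebraicClosure ℚ) := ⟨z, hzint⟩
    have : aeval z (divX (minpoly ℤ z)) = ((aeval z' (divX (minpoly ℤ z)) :
          integralClosure ℤ (AlgebraicClosure ℚ)) : AlgebraicClosure ℚ) :=
      (Subalgebra.aeval_coe _ z' _)
    rw [this]
    exact Subtype.property _
  have hd : (((minpoly ℤ z).coeff 0 : ℤ) : AlgebraicClosure ℚ) ∈ A.nonunits := by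
    have h1 : (((minpoly ℤ z).coeff 0 : ℤ) : AlgebraicClosure ℚ)
        = -(aeval z (divX (minpoly ℤ z)) * z) := eq_neg_of_add_eq_zero_right hrel
    rw [h1, ValuationSubring.mem_nonunits_iff, Valuation.map_neg, map_mul]
    have h2 : A.valuation (aeval z (divX (minpoly ℤ z))) ≤ 1 :=
      (A.valuation_le_one_iff _).2 (isIntegral_mem_valuationSubring A hwint)
    have h3 : A.valuation z < 1 := (A.mem_nonunits_iff).mp hzmem
    calc A.valuation (aeval z (divX (minpoly ℤ z))) * A.valuation z
        ≤ 1 * A.valuation z := by gcongr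
      _ < 1 := by rwa [one_mul]
  exact hnd (dvd_of_intCast_mem_nonunits A hq hA hd)

/-- Finite-set version of `exists_int_inertia_fixes`. -/
theorem exists_int_inertia_fixes_finset (s : Finset (AlgebraicClosure ℚ)) :
    ∃ d : ℤ, d ≠ 0 ∧ ∀ q : ℕ, q.Prime → ¬ (q : ℤ) ∣ d →
      ∀ A : ValuationSubring (AlgebraicClosure ℚ), A.LiesOverPrime q →
        ∀ σ ∈ A.inertiaSubgroupIn ℚ, ∀ x ∈ s, σ x = x := by
  classical
  induction s using Finset.induction_on with
  | empty => exact ⟨1, one_ne_zero, fun _ _ _ _ _ _ _ x hx => absurd hx (Finset.notMem_empty x)⟩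
  | insert a s _ ih =>
    obtain ⟨d, hd, h⟩ := ih
    obtain ⟨e, he, h'⟩ := exists_int_inertia_fixes a
    refine ⟨d * e, mul_ne_zero hd he, fun q hq hnd A hA σ hσ x hx => ?_⟩
    rcases Finset.mem_insert.1 hx with rfl | hx
    · exact h' q hq (fun hdvd => hnd (Dvd.dvd.mul_left hdvd d)) A hA σ hσ
    · exact h q hq (fun hdvd => hnd (Dvd.dvd.mul_right hdvd e)) A hA σ hσ x hx

/-- **B15.** A finite extension of `ℚ` inside `ℚ̄` is unramified outside a finite set of
primes. -/
theorem exists_finset_isUnramifiedOutside (F : IntermediateField ℚ (AlgebraicClosure ℚ))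
    (hF : FiniteDimensional ℚ F) : ∃ T : Finset Nat.Primes, F.IsUnramifiedOutside T := by
  classical
  haveI := hF
  -- a finite basis
  let b := Module.finBasis ℚ F
  obtain ⟨d, hd, h⟩ := exists_int_inertia_fixes_finset
    (Finset.univ.image fun i => ((b i : F) : AlgebraicClosure ℚ))
  refine ⟨(d.natAbs.primeFactors).subtype Nat.Prime, hF, fun q hq A hA σ hσ => ?_⟩
  have hnd : ¬ ((q : ℕ) : ℤ) ∣ d := by
    intro hdvd
    apply hq
    refine Finset.mem_subtype.2 ?_
    rw [Nat.mem_primeFactors]
    refine ⟨q.2, ?_, Int.natAbs_ne_zero.2 hd⟩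
    exact Int.natCast_dvd.1 hdvd
  have hfix := h q q.2 hnd A hA σ hσ
  rw [IntermediateField.mem_fixingSubgroup_iff]
  intro x hx
  have hsum := b.sum_repr ⟨x, hx⟩
  have hx' : x = ∑ i, algebraMap ℚ (AlgebraicClosure ℚ) (b.repr ⟨x, hx⟩ i)
      * ((b i : F) : AlgebraicClosure ℚ) := by
    have := congrArg (fun t : F => (t : AlgebraicClosure ℚ)) hsum
    simp only [IntermediateField.coe_sum, Algebra.smul_def] at this
    exact this.symm
  show σ x = x
  conv_lhs => rw [hx']
  rw [map_sum]
  conv_rhs => rw [hx']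
  refine Finset.sum_congr rfl fun i _ => ?_
  rw [map_mul, AlgEquiv.commutes, hfix _ (Finset.mem_image_of_mem _ (Finset.mem_univ i))]

/-- **B15'.** Every finite extension of `ℚ` is unramified outside a finite set containing a
given one. -/
theorem exists_finset_ge_isUnramifiedOutside (S : Finset Nat.Primes)
    (F : IntermediateField ℚ (AlgebraicClosure ℚ)) (hF : FiniteDimensional ℚ F) :
    ∃ T : Finset Nat.Primes, S ⊆ T ∧ F.IsUnramifiedOutside T := by
  classical
  obtain ⟨T, hT⟩ := exists_finset_isUnramifiedOutside F hF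
  exact ⟨S ∪ T, Finset.subset_union_left, hT.mono Finset.subset_union_right⟩

/-- Every finite extension of `ℚ` is contained in a finite Galois extension which is unramified
outside a finite set of primes containing a given one. -/
theorem exists_galois_ge_isUnramifiedOutside (S : Finset Nat.Primes)
    (F : IntermediateField ℚ (AlgebraicClosure ℚ)) (hF : FiniteDimensional ℚ F) :
    ∃ (T : Finset Nat.Primes) (L : IntermediateField ℚ (AlgebraicClosure ℚ)),
      S ⊆ T ∧ L.IsUnramifiedOutside T ∧ IsGalois ℚ L ∧ F ≤ L := by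
  obtain ⟨T, hST, hT⟩ := exists_finset_ge_isUnramifiedOutside S F hF
  obtain ⟨L, hL, hgal, hle⟩ := exists_galois_level_ge T F hT
  exact ⟨T, L, hST, hL, hgal, hle⟩

end Fermat.Agent.S55.Bridge
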