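import Fermat.Agent.S55.Bridge.PlacePrime
import Fermat.Agent.S55.Bridge.Cyclo
import Fermat.Agent.S55.E1.H594.LevelUnits
import Fermat.Agent.S55.Spec.Tower2

/-!
# S55 bridge, part B17: the `S`-unit dictionary

For a tower level `L` the Prelude-style predicate `Tow.Level.IsSUnit` (unit at every place of `ℚ̄`
over a prime outside `S`) corresponds, under helper594's isomorphism
`E1.H594.levelUnitsIso : G.LRep L.Gal L.F ≅ L.units`, to the classical `S`-units
`G.sUnit S L.F = ker (Fˣ → Div^S)` of layer G (`G/Defs.lean`).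

* `forall_place_unit_iff_mem_sUnit` (field form), `isSUnit_levelUnitsIso_iff` (tower form).
-/

set_option autoImplicit false
set_option linter.unusedSectionVars false

namespace Fermat.Agent.S55.Bridge

open Fermat.Agent.S54 NumberField IsDedekindDomain Fermat.Agent.S55.E1.H594

attribute [local instance] isAlgebraic_Qbar isGalois_Qbar

variable {S : Finset Nat.Primes} (L : Tow.Level S)

/-- **B17c (field form).** `u ∈ Fˣ` is a unit at all places of `ℚ̄` over primes outside `S` iff it
is an `S`-unit in the sense of layer G. -/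
theorem forall_place_unit_iff_mem_sUnit (u : Additive (L.F)ˣ) :
    (∀ ℓ : Nat.Primes, ℓ ∉ S → ∀ A : ValuationSubring (AlgebraicClosure ℚ),
      A.LiesOverPrime (ℓ : ℕ) →
        (((u.toMul : (L.F)ˣ) : L.F) : AlgebraicClosure ℚ) ∈ A ∧
        ((((u.toMul)⁻¹ : (L.F)ˣ) : L.F) : AlgebraicClosure ℚ) ∈ A) ↔
      u ∈ G.sUnit S L.F := by
  rw [G.mem_sUnit_iff]
  constructor
  · intro h w
    rw [G.ordAt_eq_zero_iff]
    obtain ⟨q, hq, A, hA, hPA⟩ := exists_place_eq L.F w.1
    have hqS : (⟨q, hq⟩ : Nat.Primes) ∉ S := by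
      intro hmem
      apply w.2
      refine ⟨⟨q, hq⟩, hmem, ?_⟩
      rw [← hPA]
      exact H594.natCast_mem_primeBelowF L.F A hA
    have h1 := (unit_iff_valuation_eq_one L.F A hq hA u.toMul).1 (h ⟨q, hq⟩ hqS A hA)
    have hw : placePrime L.F A hq hA = w.1 := HeightOneSpectrum.ext hPA
    rw [hw] at h1
    exact h1
  · intro h ℓ hℓ A hA
    rw [unit_iff_valuation_eq_one L.F A ℓ.2 hA]
    have hout : ¬ G.IsAbove S L.F (placePrime L.F A ℓ.2 hA) := by
      rintro ⟨q, hqS, hq⟩
      have hq' : ((q : ℕ) : AlgebraicClosure ℚ) ∈ A.nonunits := by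
        have := (H594.mem_primeBelowF L.F A _).1 hq
        rwa [map_natCast] at this
      have hne : (ℓ : ℕ) ≠ q := by
        intro heq
        apply hℓ
        have : ℓ = q := Subtype.ext heq
        rw [this]
        exact hqS
      have hv := val_prime_eq_one (A := A) hA ℓ.2 q.2 hne
      rw [ValuationSubring.mem_nonunits_iff, hv] at hq'
      exact lt_irrefl _ hq'
    exact (G.ordAt_eq_zero_iff _ u).1 (h ⟨placePrime L.F A ℓ.2 hA, hout⟩)

/-- **B17d (tower form).** Under `levelUnitsIso`, `Tow.Level.IsSUnit` is membership in the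
`S`-units `G.sUnit S L.F` of layer G. -/
theorem isSUnit_levelUnitsIso_iff (u : Additive (L.F)ˣ) :
    L.IsSUnit ((levelUnitsIso L).hom.hom u) ↔ u ∈ G.sUnit S L.F := by
  rw [← forall_place_unit_iff_mem_sUnit]
  unfold Tow.Level.IsSUnit
  refine forall_congr' fun ℓ => forall_congr' fun _ => forall_congr' fun A =>
    forall_congr' fun _ => ?_
  have h1 : ((L.val ((levelUnitsIso L).hom.hom u) : Tow.Qbarˣ) : Tow.Qbar)
      = (((u.toMul : (L.F)ˣ) : L.F) : AlgebraicClosure ℚ) := rfl
  have h2 : (((L.val ((levelUnitsIso L).hom.hom u))⁻¹ : Tow.Qbarˣ) : Tow.Qbar)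
      = ((((u.toMul)⁻¹ : (L.F)ˣ) : L.F) : AlgebraicClosure ℚ) := by
    rw [Units.val_inv_eq_inv_val, h1, Units.val_inv_eq_inv_val]
    rfl
  rw [h1, h2]

end Fermat.Agent.S55.Bridge
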