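import Mathlib

/-!
# S55 bridge: linear maps out of Mathlib's `H1`, `H2`

`H1desc`, `H2desc`: a linear map on cocycles vanishing on coboundaries descends to cohomology.
-/

set_option autoImplicit false

namespace Fermat.Agent.S55.Bridge

open groupCohomology CategoryTheory

universe u

variable {k G : Type u} [CommRing k] [Group G] (A : Rep.{u, u, u} k G)
  {X : Type*} [AddCommGroup X] [Module k X]

theorem H2π_surjective : Function.Surjective (H2π A).hom :=
  (ModuleCat.epi_iff_surjective (H2π A)).1 inferInstance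

theorem H1π_surjective : Function.Surjective (H1π A).hom :=
  (ModuleCat.epi_iff_surjective (H1π A)).1 inferInstance

/-- Descend a linear map on 2-cocycles that kills coboundaries to `H2`. -/
noncomputable def H2desc (g : cocycles₂ A →ₗ[k] X)
    (hg : ∀ c : cocycles₂ A, (c : G × G → A) ∈ coboundaries₂ A → g c = 0) : H2 A →ₗ[k] X :=
  (Submodule.liftQ (LinearMap.ker (H2π A).hom) g (by
      intro c hc
      rw [LinearMap.mem_ker] at hc ⊢
      exact hg c ((H2π_eq_zero_iff c).1 hc))).comp
    ((H2π A).hom.quotKerEquivOfSurjective (H2π_surjective A)).symm.toLinearMap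

@[simp] theorem H2desc_H2π (g : cocycles₂ A →ₗ[k] X)
    (hg : ∀ c : cocycles₂ A, (c : G × G → A) ∈ coboundaries₂ A → g c = 0) (c : cocycles₂ A) :
    H2desc A g hg ((H2π A).hom c) = g c := by
  unfold H2desc
  rw [LinearMap.comp_apply]
  have h : ((H2π A).hom.quotKerEquivOfSurjective (H2π_surjective A)).symm ((H2π A).hom c)
      = Submodule.Quotient.mk c := by
    rw [LinearEquiv.symm_apply_eq]
    rfl
  rw [LinearEquiv.coe_coe, h]
  rfl

/-- Descend a linear map on 1-cocycles that kills coboundaries to `H1`. -/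
noncomputable def H1desc (g : cocycles₁ A →ₗ[k] X)
    (hg : ∀ c : cocycles₁ A, (c : G → A) ∈ coboundaries₁ A → g c = 0) : H1 A →ₗ[k] X :=
  (Submodule.liftQ (LinearMap.ker (H1π A).hom) g (by
      intro c hc
      rw [LinearMap.mem_ker] at hc ⊢
      exact hg c ((H1π_eq_zero_iff c).1 hc))).comp
    ((H1π A).hom.quotKerEquivOfSurjective (H1π_surjective A)).symm.toLinearMap

@[simp] theorem H1desc_H1π (g : cocycles₁ A →ₗ[k] X)
    (hg : ∀ c : cocycles₁ A, (c : G → A) ∈ coboundaries₁ A → g c = 0) (c : cocycles₁ A) :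
    H1desc A g hg ((H1π A).hom c) = g c := by
  unfold H1desc
  rw [LinearMap.comp_apply]
  have h : ((H1π A).hom.quotKerEquivOfSurjective (H1π_surjective A)).symm ((H1π A).hom c)
      = Submodule.Quotient.mk c := by
    rw [LinearEquiv.symm_apply_eq]
    rfl
  rw [LinearEquiv.coe_coe, h]
  rfl

end Fermat.Agent.S55.Bridge
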