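import Fermat.Agent.S55.Bridge.Restrict

/-!
# S55 bridge, part B14 (inertia) and B10 (unramifiedness at finite level)

* `exists_mem_inertia_restrict_eq`: restriction `I_A → I_{A ∩ F}` is onto (`F/ℚ` normal).
* `inertia_le_fixingSubgroup_iff`: `I_A ≤ G_F` for all `A` over `q` iff the inertia groups of the
  places `A ∩ F` of `F` are trivial.
-/

set_option autoImplicit false
set_option linter.style.haveILetI false

namespace Fermat.Agent.S55.Bridge

open scoped Pointwise
open Fermat.Agent.S54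

attribute [local instance] isAlgebraic_Qbar isGalois_Qbar

section

variable (A : ValuationSubring (AlgebraicClosure ℚ))

/-- Elements of the decomposition group preserve the maximal ideal. -/
theorem mem_nonunits_of_mem_decomposition {σ : AlgebraicClosure ℚ ≃ₐ[ℚ] AlgebraicClosure ℚ}
    (hσ : σ ∈ A.decompositionSubgroup ℚ) (x : AlgebraicClosure ℚ) :
    σ x ∈ A.nonunits ↔ x ∈ A.nonunits := by
  rw [mem_decompositionSubgroup_iff] at hσ
  rw [mem_nonunits_iff_inv_not_mem, mem_nonunits_iff_inv_not_mem, ← map_inv₀, hσ,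
    map_eq_zero_iff _ σ.injective]

/-- If `σ ∈ D_A` moves every algebraic integer by an element of the maximal ideal, then
`σ ∈ I_A`. -/
theorem mem_inertia_of_forall_integral {q : ℕ} (hq : q.Prime) (hA : A.LiesOverPrime q)
    {σ : AlgebraicClosure ℚ ≃ₐ[ℚ] AlgebraicClosure ℚ}
    (hσ : σ ∈ A.decompositionSubgroup ℚ)
    (h : ∀ b : AlgebraicClosure ℚ, IsIntegral ℤ b → σ b - b ∈ A.nonunits) :
    σ ∈ A.inertiaSubgroupIn ℚ := by
  rw [mem_inertiaSubgroupIn_iff]
  refine ⟨hσ, fun x hx => ?_⟩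
  obtain ⟨b, s, hb, hs, hsn, hxs⟩ := (mem_valuationSubring_iff A q hq hA x).1 hx
  have hbA : b ∈ A := isIntegral_mem_valuationSubring A hb
  have hsA : s ∈ A := isIntegral_mem_valuationSubring A hs
  have vs : A.valuation s = 1 := by
    refine le_antisymm ((A.valuation_le_one_iff s).2 hsA) ?_
    rw [ValuationSubring.mem_nonunits_iff, not_lt] at hsn
    exact hsn
  have hσsn : σ s ∉ A.nonunits := fun h' => hsn ((mem_nonunits_of_mem_decomposition A hσ s).1 h')
  have hσsA : σ s ∈ A := ((mem_decompositionSubgroup_iff A σ).1 hσ s).2 hsA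
  have vσs : A.valuation (σ s) = 1 := by
    refine le_antisymm ((A.valuation_le_one_iff _).2 hσsA) ?_
    rw [ValuationSubring.mem_nonunits_iff, not_lt] at hσsn
    exact hσsn
  have hb1 : A.valuation (σ b - b) < 1 := (ValuationSubring.mem_nonunits_iff A).1 (h b hb)
  have hs1 : A.valuation (σ s - s) < 1 := (ValuationSubring.mem_nonunits_iff A).1 (h s hs)
  have key : (σ x - x) * (σ s * s) = (σ b - b) * s - b * (σ s - s) := by
    have h1 : σ x * σ s = σ b := by rw [← map_mul, hxs]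
    linear_combination s * h1 - σ s * hxs
  have hv : A.valuation ((σ x - x) * (σ s * s)) < 1 := by
    rw [key]
    refine lt_of_le_of_lt (Valuation.map_sub _ _ _) (max_lt ?_ ?_)
    · rw [map_mul, vs, mul_one]
      exact hb1
    · rw [map_mul]
      calc A.valuation b * A.valuation (σ s - s) ≤ 1 * A.valuation (σ s - s) :=
            mul_le_mul_left ((A.valuation_le_one_iff b).2 hbA) _
        _ = A.valuation (σ s - s) := one_mul _
        _ < 1 := hs1
  rw [map_mul, map_mul, vσs, vs, mul_one, mul_one] at hv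
  exact (ValuationSubring.mem_nonunits_iff A).2 hv

end

section Lift

variable (F : IntermediateField ℚ (AlgebraicClosure ℚ))

/-- **B14 (inertia groups).** If `F/ℚ` is normal and `σ ∈ G_ℚ` stabilises the place `A ∩ F` of `F`
and acts trivially on its residue field, then `σ|_F` is the restriction of an element of the
inertia group of `A`. -/
theorem exists_mem_inertia_restrict_eq (hF : F.fixingSubgroup.Normal)
    {A : ValuationSubring (AlgebraicClosure ℚ)} {q : ℕ} (hq : q.Prime) (hA : A.LiesOverPrime q)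
    (σ : AlgebraicClosure ℚ ≃ₐ[ℚ] AlgebraicClosure ℚ) (hσD : ∀ x ∈ F, σ x ∈ A ↔ x ∈ A)
    (hσI : ∀ x ∈ F, x ∈ A → σ x - x ∈ A.nonunits) :
    ∃ σ' ∈ A.inertiaSubgroupIn ℚ, ∀ x ∈ F, σ' x = σ x := by
  -- step 1: we may assume `σ ∈ D_A`
  obtain ⟨σ₁, hσ₁D, hσ₁F⟩ := exists_mem_decomposition_restrict_eq F hF hq hA σ hσD
  have hσ₁I : ∀ x ∈ F, x ∈ A → σ₁ x - x ∈ A.nonunits := fun x hx hxA => by
    rw [hσ₁F x hx]; exact hσI x hx hxA
  -- step 2: the profinite group `G_F` acting on `ℤ̄`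
  letI : TopologicalSpace (integralClosure ℤ (AlgebraicClosure ℚ)) := ⊥
  haveI : DiscreteTopology (integralClosure ℤ (AlgebraicClosure ℚ)) := ⟨rfl⟩
  haveI := compactSpace_fixingSubgroup F
  haveI := totallyDisconnectedSpace_fixingSubgroup F
  haveI := continuousSMul_fixingSubgroup F
  haveI := smulCommClass_fixedPoints F
  haveI := isInvariant_fixedPoints F
  haveI hQprime := primeBelow_isPrime A
  haveI hlies : (primeBelow A).LiesOver ((primeBelow A).under
      (FixedPoints.subalgebra ℤ (integralClosure ℤ (AlgebraicClosure ℚ)) ↥F.fixingSubgroup)) :=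
    ⟨rfl⟩
  have hσ₁Q : σ₁ • primeBelow A = primeBelow A := by
    rw [← primeBelow_smul, MulAction.mem_stabilizer_iff.1 hσ₁D]
  -- the automorphism of `ℤ̄ / Q` induced by `σ₁`
  let e₀ : (integralClosure ℤ (AlgebraicClosure ℚ) ⧸ primeBelow A) ≃+*
      (integralClosure ℤ (AlgebraicClosure ℚ) ⧸ primeBelow A) :=
    Ideal.quotientEquiv (primeBelow A) (primeBelow A)
      (MulSemiringAction.toRingEquiv (AlgebraicClosure ℚ ≃ₐ[ℚ] AlgebraicClosure ℚ)
        (integralClosure ℤ (AlgebraicClosure ℚ)) σ₁) hσ₁Q.symm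
  have he₀ : ∀ b : integralClosure ℤ (AlgebraicClosure ℚ),
      e₀ (Ideal.Quotient.mk _ b) = Ideal.Quotient.mk _ (σ₁ • b) := fun b => rfl
  let e : (integralClosure ℤ (AlgebraicClosure ℚ) ⧸ primeBelow A) ≃ₐ[
      (FixedPoints.subalgebra ℤ (integralClosure ℤ (AlgebraicClosure ℚ)) ↥F.fixingSubgroup) ⧸
        (primeBelow A).under
          (FixedPoints.subalgebra ℤ (integralClosure ℤ (AlgebraicClosure ℚ)) ↥F.fixingSubgroup)]
      (integralClosure ℤ (AlgebraicClosure ℚ) ⧸ primeBelow A) :=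
    AlgEquiv.ofRingEquiv (f := e₀) (by
      intro y
      obtain ⟨a, rfl⟩ := Ideal.Quotient.mk_surjective y
      show e₀ (Ideal.Quotient.mk _ (a.1)) = Ideal.Quotient.mk _ (a.1)
      rw [he₀, Ideal.Quotient.eq, mem_primeBelow]
      have haF : ((a.1 : integralClosure ℤ (AlgebraicClosure ℚ)) : AlgebraicClosure ℚ) ∈ F := by
        apply mem_of_fixed_by_fixingSubgroup
        intro g hg
        have := a.2 ⟨g, hg⟩
        exact congrArg Subtype.val this
      exact hσ₁I _ haF (isIntegral_mem_valuationSubring A a.1.2))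
  obtain ⟨τ, hτ⟩ := Ideal.Quotient.stabilizerHom_surjective_of_profinite
    (G := ↥F.fixingSubgroup)
    ((primeBelow A).under
      (FixedPoints.subalgebra ℤ (integralClosure ℤ (AlgebraicClosure ℚ)) ↥F.fixingSubgroup))
    (primeBelow A) e
  -- `τ ∈ G_F` stabilises `Q` and induces the same automorphism as `σ₁`
  have hτQ : (τ.1.1 : AlgebraicClosure ℚ ≃ₐ[ℚ] AlgebraicClosure ℚ) • primeBelow A
      = primeBelow A := τ.2
  have hτD : (τ.1.1 : AlgebraicClosure ℚ ≃ₐ[ℚ] AlgebraicClosure ℚ) ∈ A.decompositionSubgroup ℚ := by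
    rw [MulAction.mem_stabilizer_iff]
    apply valuationSubring_ext_of_primeBelow hq (liesOverPrime_smul A _ q hA) hA
    rw [primeBelow_smul, hτQ]
  have hτσ : ∀ b : integralClosure ℤ (AlgebraicClosure ℚ),
      (τ.1.1 : AlgebraicClosure ℚ ≃ₐ[ℚ] AlgebraicClosure ℚ) (b : AlgebraicClosure ℚ)
        - σ₁ (b : AlgebraicClosure ℚ) ∈ A.nonunits := by
    intro b
    have h1 := congrArg (fun f => f (Ideal.Quotient.mk _ b)) hτ
    simp only [Ideal.Quotient.stabilizerHom_apply] at h1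
    have h2 : e (Ideal.Quotient.mk _ b) = Ideal.Quotient.mk _ (σ₁ • b) := he₀ b
    rw [h2, Ideal.Quotient.eq, mem_primeBelow] at h1
    exact h1
  refine ⟨(τ.1.1)⁻¹ * σ₁, ?_, ?_⟩
  · apply mem_inertia_of_forall_integral A hq hA
      (Subgroup.mul_mem _ (Subgroup.inv_mem _ hτD) hσ₁D)
    intro b hb
    have h3 := hτσ ⟨b, hb⟩
    have h4 : ((τ.1.1)⁻¹ * σ₁) b - b
        = (τ.1.1 : AlgebraicClosure ℚ ≃ₐ[ℚ] AlgebraicClosure ℚ)⁻¹
            (-((τ.1.1 : AlgebraicClosure ℚ ≃ₐ[ℚ] AlgebraicClosure ℚ) b - σ₁ b)) := by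
      rw [map_neg, map_sub]
      have h5 : (τ.1.1 : AlgebraicClosure ℚ ≃ₐ[ℚ] AlgebraicClosure ℚ)⁻¹ ((τ.1.1) b) = b := by
        show ((τ.1.1)⁻¹ * τ.1.1) b = b
        rw [inv_mul_cancel]
        rfl
      rw [h5]
      show (τ.1.1)⁻¹ (σ₁ b) - b = _
      ring
    rw [h4, mem_nonunits_of_mem_decomposition A (Subgroup.inv_mem _ hτD)]
    exact A.nonunits.neg_mem h3
  · intro x hx
    rw [← hσ₁F x hx]
    show (τ.1.1)⁻¹ (σ₁ x) = σ₁ x
    have hmem : σ₁ x ∈ F := map_mem_of_normal F hF σ₁ hx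
    exact (IntermediateField.mem_fixingSubgroup_iff F _).1 (Subgroup.inv_mem _ τ.1.2) _ hmem

end Lift

end Fermat.Agent.S55.Bridge
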