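import Fermat.Agent.S55.Bridge.Cyclo

/-!
# S55 bridge, part B13: `μ_p` as a Galois module and `M.dualTwist (cycloChar p) ≅ Hom(M, μ_p)`

* `MuP p` : the group `μ_p(ℚ̄)` of `p`-th roots of unity written additively, an `𝔽_p`-vector space
  of dimension one.
* `muPRep p` : the Galois representation on it.  It is *defined* as "multiply by `cycloChar p σ`"
  and `muPRep_apply` shows that this is the natural action `σ • t = σ(t)`.
* `muP p : Rep (ZMod p) G_ℚ`, `muPIsoOfChar : muP p ≅ ofChar (cycloChar p)`.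
* `homMuP M := Hom_{𝔽_p}(M, μ_p)` with the conjugation action `(σ f)(m) = σ (f (σ⁻¹ m))`, and
  `dualTwistIsoHomMuP : M.dualTwist (cycloChar p) ≅ homMuP M`.
* `evalMuP` : the evaluation pairing `M × M^*(1) → μ_p`, Galois equivariant (`evalMuP_equivariant`).
* `dualTwistDualTwistIso : (M.dualTwist χ).dualTwist χ ≅ M` for finite dimensional `M` (any field,
  any group, any character).
-/

set_option autoImplicit false
set_option linter.unusedSectionVars false
set_option linter.style.haveILetI false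

namespace Fermat.Agent.S55.Bridge

open ExtCitation Module

section MuP

variable (p : ℕ) [Fact p.Prime]

/-- `μ_p(ℚ̄)`, written additively. -/
def MuP : Type := Additive (rootsOfUnity p (AlgebraicClosure ℚ))

noncomputable instance MuP.instAddCommGroup : AddCommGroup (MuP p) :=
  inferInstanceAs (AddCommGroup (Additive (rootsOfUnity p (AlgebraicClosure ℚ))))

/-- The element of `MuP p` attached to a `p`-th root of unity. -/
def MuP.of (t : rootsOfUnity p (AlgebraicClosure ℚ)) : MuP p := Additive.ofMul t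

/-- The root of unity underlying an element of `MuP p`. -/
def MuP.root (x : MuP p) : rootsOfUnity p (AlgebraicClosure ℚ) := Additive.toMul x

variable {p}

@[simp] theorem MuP.root_of (t : rootsOfUnity p (AlgebraicClosure ℚ)) :
    (MuP.of p t).root = t := rfl

@[simp] theorem MuP.of_root (x : MuP p) : MuP.of p x.root = x := rfl

theorem MuP.root_injective : Function.Injective (MuP.root (p := p)) := fun _ _ h => h

@[simp] theorem MuP.root_add (x y : MuP p) : (x + y).root = x.root * y.root := rfl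

@[simp] theorem MuP.root_zero : (0 : MuP p).root = 1 := rfl

@[simp] theorem MuP.root_nsmul (n : ℕ) (x : MuP p) : (n • x).root = x.root ^ n := rfl

theorem MuP.nsmul_p (x : MuP p) : p • x = 0 := by
  apply MuP.root_injective
  rw [MuP.root_nsmul, MuP.root_zero]
  have h := (mem_rootsOfUnity p (x.root : (AlgebraicClosure ℚ)ˣ)).1 x.root.2
  exact Subtype.ext (by simpa using h)

variable (p)

noncomputable instance MuP.instModule : Module (ZMod p) (MuP p) :=
  AddCommGroup.zmodModule MuP.nsmul_p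

variable {p}

theorem MuP.zmod_smul (a : ZMod p) (x : MuP p) : a • x = a.val • x := by
  haveI : NeZero p := ⟨(Fact.out : p.Prime).ne_zero⟩
  conv_lhs => rw [← ZMod.natCast_zmod_val a]
  exact Nat.cast_smul_eq_nsmul (ZMod p) a.val x

theorem MuP.root_zmod_smul (a : ZMod p) (x : MuP p) : (a • x).root = x.root ^ a.val := by
  rw [MuP.zmod_smul, MuP.root_nsmul]

variable (p)

theorem MuP.natCard : Nat.card (MuP p) = p := card_rootsOfUnity_eq_self p

noncomputable instance MuP.instFinite : Finite (MuP p) :=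
  Nat.finite_of_card_ne_zero (by rw [MuP.natCard]; exact (Fact.out : p.Prime).ne_zero)

theorem MuP.finrank_eq_one : finrank (ZMod p) (MuP p) = 1 := by
  have h := Module.natCard_eq_pow_finrank (K := ZMod p) (V := MuP p)
  rw [MuP.natCard, Nat.card_zmod] at h
  have hp : p.Prime := Fact.out
  have h' : p ^ 1 = p ^ finrank (ZMod p) (MuP p) := by rw [pow_one]; exact h
  exact (Nat.pow_right_injective hp.two_le h').symm

/-- The Galois representation on `μ_p`: multiplication by the mod `p` cyclotomic character. -/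
noncomputable def muPRep :
    Representation (ZMod p) (AlgebraicClosure ℚ ≃ₐ[ℚ] AlgebraicClosure ℚ) (MuP p) :=
  (Representation.trivial (ZMod p) (AlgebraicClosure ℚ ≃ₐ[ℚ] AlgebraicClosure ℚ) (MuP p)).twist
    (cycloChar p)

theorem muPRep_apply_smul (σ : AlgebraicClosure ℚ ≃ₐ[ℚ] AlgebraicClosure ℚ) (x : MuP p) :
    muPRep p σ x = ((cycloChar p σ : (ZMod p)ˣ) : ZMod p) • x := rfl

/-- `muPRep` is the natural Galois action on roots of unity. -/
theorem muPRep_apply (σ : AlgebraicClosure ℚ ≃ₐ[ℚ] AlgebraicClosure ℚ) (x : MuP p) :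
    (((muPRep p σ x).root : (AlgebraicClosure ℚ)ˣ) : AlgebraicClosure ℚ)
      = σ ((x.root : (AlgebraicClosure ℚ)ˣ) : AlgebraicClosure ℚ) := by
  rw [muPRep_apply_smul, MuP.root_zmod_smul, cycloChar_spec p σ x.root.2]
  simp

/-- `μ_p` as an object of `Rep (ZMod p) G_ℚ`. -/
noncomputable def muP : Rep.{0, 0, 0} (ZMod p) (AlgebraicClosure ℚ ≃ₐ[ℚ] AlgebraicClosure ℚ) :=
  Rep.of (muPRep p)

/-- A (non canonical) `𝔽_p`-linear identification `𝔽_p ≃ μ_p`. -/
noncomputable def muPLinearEquiv : ZMod p ≃ₗ[ZMod p] MuP p :=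
  LinearEquiv.ofFinrankEq (ZMod p) (MuP p) (by rw [Module.finrank_self, MuP.finrank_eq_one])

end MuP

section Iso

variable (p : ℕ) [Fact p.Prime]

/-- `μ_p ≅ 𝔽_p(χ_p)` (non canonically: a choice of a primitive `p`-th root of unity). -/
noncomputable def muPRepEquivOfChar :
    ((Representation.trivial (ZMod p) (AlgebraicClosure ℚ ≃ₐ[ℚ] AlgebraicClosure ℚ)
      (ZMod p)).twist (cycloChar p)).Equiv (muPRep p) :=
  Representation.Equiv.mk (muPLinearEquiv p) (fun g => by
    ext
    simp only [LinearMap.coe_comp, LinearEquiv.coe_coe, Function.comp_apply,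
      Representation.twist_apply_apply, Representation.trivial_apply, muPRep_apply_smul]
    exact map_smul _ _ _)

/-- `𝔽_p(χ_p) ≅ μ_p` in `Rep (ZMod p) G_ℚ`. -/
noncomputable def ofCharIsoMuP :
    groupCohomology.ofChar (k := ZMod p) (cycloChar p) ≅ muP p :=
  Rep.mkIso (muPRepEquivOfChar p)

variable {p}
variable (M : Rep.{0, 0, 0} (ZMod p) (AlgebraicClosure ℚ ≃ₐ[ℚ] AlgebraicClosure ℚ))

/-- `Hom_{𝔽_p}(M, μ_p)` with the action `(σ f)(m) = σ (f (σ⁻¹ m))`. -/
noncomputable def homMuPRep :
    Representation (ZMod p) (AlgebraicClosure ℚ ≃ₐ[ℚ] AlgebraicClosure ℚ)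
      (M →ₗ[ZMod p] MuP p) :=
  Representation.linHom M.ρ (muPRep p)

theorem homMuPRep_apply (σ : AlgebraicClosure ℚ ≃ₐ[ℚ] AlgebraicClosure ℚ)
    (f : M →ₗ[ZMod p] MuP p) (m : M) :
    homMuPRep M σ f m = muPRep p σ (f (M.ρ σ⁻¹ m)) := rfl

/-- `Hom(M, μ_p)` as an object of `Rep (ZMod p) G_ℚ`. -/
noncomputable def homMuP : Rep.{0, 0, 0} (ZMod p) (AlgebraicClosure ℚ ≃ₐ[ℚ] AlgebraicClosure ℚ) :=
  Rep.of (homMuPRep M)

/-- The linear equivalence `M^* ≃ Hom(M, μ_p)`, `f ↦ e ∘ f`. -/
noncomputable def dualEquivHomMuP : Module.Dual (ZMod p) M ≃ₗ[ZMod p] (M →ₗ[ZMod p] MuP p) :=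
  LinearEquiv.arrowCongr (LinearEquiv.refl (ZMod p) M) (muPLinearEquiv p)

theorem dualEquivHomMuP_apply (f : Module.Dual (ZMod p) M) (m : M) :
    dualEquivHomMuP M f m = muPLinearEquiv p (f m) := rfl

/-- **B13.** `M^*(1) = M.dualTwist (cycloChar p)` is `Hom(M, μ_p)` as a representation. -/
noncomputable def dualTwistEquivHomMuP :
    (M.ρ.dual.twist (cycloChar p)).Equiv (homMuPRep M) :=
  Representation.Equiv.mk (dualEquivHomMuP M) (fun g => by
    ext f m
    simp only [LinearMap.coe_comp, LinearEquiv.coe_coe, Function.comp_apply,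
      dualEquivHomMuP_apply, homMuPRep_apply, muPRep_apply_smul,
      Representation.twist_apply_apply, LinearMap.smul_apply, Representation.dual_apply,
      map_smul]
    rfl)

/-- **B13.** `M.dualTwist (cycloChar p) ≅ Hom(M, μ_p)` in `Rep (ZMod p) G_ℚ`. -/
noncomputable def dualTwistIsoHomMuP : M.dualTwist (cycloChar p) ≅ homMuP M :=
  Rep.mkIso (dualTwistEquivHomMuP M)

/-- The evaluation pairing `M × M^*(1) → μ_p`. -/
noncomputable def evalMuP : M →ₗ[ZMod p] (M.dualTwist (cycloChar p)) →ₗ[ZMod p] MuP p :=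
  LinearMap.mk₂ (ZMod p) (fun m f => muPLinearEquiv p ((f : Module.Dual (ZMod p) M) m))
    (fun m m' f => by simp only [map_add])
    (fun c m f => by
      simp only [map_smul])
    (fun m f f' => by
      exact map_add _ _ _)
    (fun c m f => by
      change muPLinearEquiv p (c • ((f : Module.Dual (ZMod p) M) m)) = _
      rw [map_smul])

theorem evalMuP_apply (m : M) (f : M.dualTwist (cycloChar p)) :
    evalMuP M m f = muPLinearEquiv p ((f : Module.Dual (ZMod p) M) m) := rfl

/-- The evaluation pairing is Galois equivariant: `⟨σ m, σ f⟩ = σ ⟨m, f⟩`. -/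
theorem evalMuP_equivariant (σ : AlgebraicClosure ℚ ≃ₐ[ℚ] AlgebraicClosure ℚ)
    (m : M) (f : M.dualTwist (cycloChar p)) :
    evalMuP M (M.ρ σ m) ((M.dualTwist (cycloChar p)).ρ σ f) = muPRep p σ (evalMuP M m f) := by
  rw [evalMuP_apply, evalMuP_apply, Rep.dualTwist_ρ_apply, muPRep_apply_smul]
  have h : M.ρ σ⁻¹ (M.ρ σ m) = m := by
    rw [← Module.End.mul_apply, ← map_mul, inv_mul_cancel, map_one, Module.End.one_apply]
  simp only [LinearMap.smul_apply, LinearMap.coe_comp, Function.comp_apply, h, map_smul]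

/-- The evaluation pairing is perfect on the left: `⟨m, f⟩ = 0` for all `f` forces `m = 0`. -/
theorem evalMuP_left_injective (m : M) (h : ∀ f : M.dualTwist (cycloChar p), evalMuP M m f = 0) :
    m = 0 := by
  by_contra hm
  obtain ⟨f, hf⟩ : ∃ f : Module.Dual (ZMod p) M, f m ≠ 0 := by
    by_contra hcon
    exact hm ((Module.forall_dual_apply_eq_zero_iff (ZMod p) m).1
      (fun f => not_not.1 (fun hf => hcon ⟨f, hf⟩)))
  have := h f
  rw [evalMuP_apply, LinearEquiv.map_eq_zero_iff] at this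
  exact hf this

/-- The evaluation pairing is perfect on the right. -/
theorem evalMuP_right_injective (f : M.dualTwist (cycloChar p)) (h : ∀ m : M, evalMuP M m f = 0) :
    f = 0 := by
  apply LinearMap.ext
  intro m
  have := h m
  rw [evalMuP_apply, LinearEquiv.map_eq_zero_iff] at this
  exact this

end Iso

section DoubleDual

universe u

variable {k G : Type u} [Field k] [Group G]

/-- The evaluation map `M → M^{**}` intertwines `M` and `(M.dualTwist χ).dualTwist χ`. -/
theorem dualTwist_dualTwist_ρ_eval (M : Rep.{u, u, u} k G) (χ : G →* kˣ) (g : G) (m : M) :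
    ((M.dualTwist χ).dualTwist χ).ρ g (Module.Dual.eval k M m)
      = Module.Dual.eval k M (M.ρ g m) := by
  apply LinearMap.ext
  intro f
  rw [Rep.dualTwist_ρ_apply]
  simp only [LinearMap.smul_apply, LinearMap.coe_comp, Function.comp_apply,
    Module.Dual.eval_apply]
  have h1 : (M.dualTwist χ).ρ g⁻¹ f = ((χ g⁻¹ : kˣ) : k) • (f ∘ₗ M.ρ g⁻¹⁻¹) :=
    Rep.dualTwist_ρ_apply M χ g⁻¹ f
  rw [h1, inv_inv]
  simp only [LinearMap.smul_apply, LinearMap.coe_comp, Function.comp_apply, smul_eq_mul]
  rw [← mul_assoc, ← Units.val_mul, ← map_mul, mul_inv_cancel, map_one, Units.val_one, one_mul]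

/-- `M ≃ (M^*(χ))^*(χ)` as representations, for finite dimensional `M`. -/
noncomputable def dualTwistDualTwistEquiv (M : Rep.{u, u, u} k G) (χ : G →* kˣ)
    [FiniteDimensional k M] :
    M.ρ.Equiv ((M.dualTwist χ).ρ.dual.twist χ) :=
  Representation.Equiv.mk (Module.evalEquiv k M) (fun g => by
    ext m : 1
    exact (dualTwist_dualTwist_ρ_eval M χ g m).symm)

/-- `(M^*(χ))^*(χ) ≅ M` in `Rep k G`, for finite dimensional `M`. -/
noncomputable def dualTwistDualTwistIso (M : Rep.{u, u, u} k G) (χ : G →* kˣ)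
    [FiniteDimensional k M] :
    (M.dualTwist χ).dualTwist χ ≅ M :=
  (Rep.mkIso (ρ := M.ρ) (σ := (M.dualTwist χ).ρ.dual.twist χ)
    (dualTwistDualTwistEquiv M χ)).symm ≪≫ (Rep.mkIso (Representation.Equiv.mk
      (LinearEquiv.refl k M) (fun _ => rfl) : M.ρ.Equiv M.ρ) : Rep.of M.ρ ≅ M) 

end DoubleDual

end Fermat.Agent.S55.Bridge
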