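import Fermat.Agent.S55.Bridge.Averaging

/-!
# S55 bridge, part B3: the archimedean place contributes nothing when `2` is invertible

`archimedeanDecomposition = ⟨complex conjugation⟩` has order dividing `2`, so its `H¹` and its
(Prelude-)continuous `H²` with coefficients in a vector space over a field with `2 ≠ 0` vanish.
Consequently `sha₁`/`sha₂` are cut out by the finite places `q ∈ S` only.
-/

set_option autoImplicit false

namespace Fermat.Agent.S55.Bridge

open groupCohomology CategoryTheory ExtCitation

/-- The absolute Galois group of `ℚ` (as an abstract group), as used by the Prelude. -/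
abbrev GQ : Type := AlgebraicClosure ℚ ≃ₐ[ℚ] AlgebraicClosure ℚ

theorem archimedean_isOfFinOrder : IsOfFinOrder complexConjugation :=
  isOfFinOrder_iff_pow_eq_one.2 ⟨2, by norm_num, complexConjugation_sq⟩

instance archimedean_finite : Finite ↥archimedeanDecomposition := by
  unfold archimedeanDecomposition
  exact archimedean_isOfFinOrder.finite_zpowers

theorem archimedean_card_dvd_two : Nat.card ↥archimedeanDecomposition ∣ 2 := by
  unfold archimedeanDecomposition
  rw [Nat.card_zpowers]
  exact orderOf_dvd_of_pow_eq_one complexConjugation_sq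

/-- In a field where `2 ≠ 0`, the order of the archimedean decomposition group is invertible. -/
theorem archimedean_exists_inv {K : Type} [Field K] (h2 : (2 : K) ≠ 0) :
    ∃ c : K, c * (Nat.card ↥archimedeanDecomposition : K) = 1 := by
  have hd := archimedean_card_dvd_two
  have hne : (Nat.card ↥archimedeanDecomposition : K) ≠ 0 := by
    have hle : Nat.card ↥archimedeanDecomposition ≤ 2 := Nat.le_of_dvd (by norm_num) hd
    have hpos : 0 < Nat.card ↥archimedeanDecomposition := Nat.pos_of_dvd_of_pos hd (by norm_num)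
    interval_cases h : Nat.card ↥archimedeanDecomposition
    · simp
    · simpa using h2
  exact ⟨(Nat.card ↥archimedeanDecomposition : K)⁻¹, inv_mul_cancel₀ hne⟩

variable {K : Type} [Field K]

/-- `H¹(⟨c⟩, B) = 0` if `2 ≠ 0` in `K`. -/
theorem archimedean_H1_eq_zero (h2 : (2 : K) ≠ 0) (B : Rep K ↥archimedeanDecomposition)
    (x : H1 B) : x = 0 := by
  letI : Fintype ↥archimedeanDecomposition := Fintype.ofFinite _
  obtain ⟨c, hc⟩ := archimedean_exists_inv (K := K) h2
  rw [Nat.card_eq_fintype_card] at hc
  exact H1_eq_zero_of_card_inv B c hc x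

/-- The Prelude-continuous `H²` of `⟨c⟩` vanishes if `2 ≠ 0` in `K`. -/
theorem archimedean_continuousH2_eq_zero (h2 : (2 : K) ≠ 0)
    (B : Rep K ↥archimedeanDecomposition)
    (x : continuousH2 archimedeanLoc B) : x = 0 := by
  letI : Fintype ↥archimedeanDecomposition := Fintype.ofFinite _
  obtain ⟨c, hc⟩ := archimedean_exists_inv (K := K) h2
  rw [Nat.card_eq_fintype_card] at hc
  exact continuousH2_eq_zero_of_card_inv B archimedeanLoc c hc x

variable (S : Finset Nat.Primes)

/-- The archimedean component of the total localisation map on `H¹` vanishes. -/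
theorem locTotal_inl_eq_zero (h2 : (2 : K) ≠ 0) (A : Rep K GQ) (x : H1 A) (u : Unit) :
    locTotal (extArithLoc S) A x (Sum.inl u) = 0 :=
  archimedean_H1_eq_zero h2 (Rep.res archimedeanLoc A) _

/-- The archimedean component of the total localisation map on continuous `H²` vanishes. -/
theorem locTotal₂S_inl_eq_zero (h2 : (2 : K) ≠ 0) (M : Rep K GQ) (x : continuousH2S S M)
    (u : Unit) : locTotal₂S S M x (Sum.inl u) = 0 :=
  archimedean_continuousH2_eq_zero h2 (Rep.res archimedeanLoc M) _

/-- `sha₁` is cut out by the finite places only (when `2 ≠ 0`). -/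
theorem mem_sha₁_iff (h2 : (2 : K) ≠ 0) (A : Rep K GQ) (x : H1 A) :
    x ∈ sha₁ S A ↔ x ∈ continuousH1S S A ∧
      ∀ q : ↥S, (groupCohomology.map (primeLocalToGlobal q.1)
        (𝟙 (Rep.res (primeLocalToGlobal q.1) A)) 1).hom x = 0 := by
  unfold sha₁
  rw [Submodule.mem_inf, LinearMap.mem_ker]
  refine and_congr Iff.rfl ⟨fun h q => ?_, fun h => ?_⟩
  · exact congrFun h (Sum.inr q)
  · funext v
    rcases v with u | q
    · exact locTotal_inl_eq_zero S h2 A x u
    · exact h q

/-- `sha₂` is cut out by the finite places only (when `2 ≠ 0`). -/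
theorem mem_sha₂_iff (h2 : (2 : K) ≠ 0) (M : Rep K GQ) (x : continuousH2S S M) :
    x ∈ sha₂ S M ↔ ∀ q : ↥S, locRes₂S S M (primeLocalToGlobal q.1) x = 0 := by
  unfold sha₂
  rw [LinearMap.mem_ker]
  refine ⟨fun h q => ?_, fun h => ?_⟩
  · exact congrFun h (Sum.inr q)
  · funext v
    rcases v with u | q
    · exact locTotal₂S_inl_eq_zero S h2 M x u
    · exact h q

/-- In `ZMod p` with `p` an odd prime, `2 ≠ 0`. -/
theorem two_ne_zero_zmod {p : ℕ} [Fact p.Prime] (hp2 : p ≠ 2) : (2 : ZMod p) ≠ 0 := by
  intro h
  have h' : ((2 : ℕ) : ZMod p) = 0 := by exact_mod_cast h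
  rw [ZMod.natCast_eq_zero_iff] at h'
  exact hp2 ((Nat.prime_dvd_prime_iff_eq Fact.out Nat.prime_two).1 h')

end Fermat.Agent.S55.Bridge
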