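import Fermat.Agent.S55.Bridge.InertiaConj
import Fermat.Agent.S55.Bridge.Archimedean
import Fermat.Agent.S55.Bridge.Krasner

/-!
# S55 bridge: cochain-level description of the Prelude objects

Everything is expressed through functions on `G_ℚ` (resp. on the local Galois group) that are
constant modulo `F.fixingSubgroup` for a finite GALOIS extension `F/ℚ` unramified outside `S`
(resp. modulo `E.fixingSubgroup`, `E/ℚ_q` finite).

* `isLevelConstantS₁_iff_galois`, `isLevelConstantS₂_iff_galois`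
* `exists_rep_continuousH2S`, `continuousH2Sπ_eq_zero_iff_galois`
* `locRes₂S_mk_eq_zero_iff`
* `mem_sha₂_mk_iff`, `mem_sha₁_iff_cocycle`
-/

set_option autoImplicit false

namespace Fermat.Agent.S55.Bridge

open groupCohomology CategoryTheory ExtCitation IntermediateField

/-- `f` is constant on right cosets of `N`. -/
def IsConstMod₁ {G X : Type*} [Group G] (N : Subgroup G) (f : G → X) : Prop :=
  ∀ g s, s ∈ N → f (g * s) = f g

/-- `f` is constant on right cosets of `N` in both variables. -/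
def IsConstMod₂ {G X : Type*} [Group G] (N : Subgroup G) (f : G × G → X) : Prop :=
  ∀ g g' s s', s ∈ N → s' ∈ N → f (g * s, g' * s') = f (g, g')

theorem IsConstMod₁.mono {G X : Type*} [Group G] {N N' : Subgroup G} (h : N' ≤ N) {f : G → X}
    (hf : IsConstMod₁ N f) : IsConstMod₁ N' f := fun g s hs => hf g s (h hs)

theorem IsConstMod₂.mono {G X : Type*} [Group G] {N N' : Subgroup G} (h : N' ≤ N)
    {f : G × G → X} (hf : IsConstMod₂ N f) : IsConstMod₂ N' f :=
  fun g g' s s' hs hs' => hf g g' s s' (h hs) (h hs')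

variable (S : Finset Nat.Primes)

section Global

/-- S-level-constancy can be tested on finite Galois levels (above any given level `F₀`). -/
theorem isLevelConstantS₁_iff_galois {X : Type*}
    (f : (AlgebraicClosure ℚ ≃ₐ[ℚ] AlgebraicClosure ℚ) → X)
    (F₀ : IntermediateField ℚ (AlgebraicClosure ℚ)) (hF₀ : F₀.IsUnramifiedOutside S) :
    IsLevelConstantS₁ S f ↔ ∃ F : IntermediateField ℚ (AlgebraicClosure ℚ),
      F.IsUnramifiedOutside S ∧ IsGalois ℚ F ∧ F₀ ≤ F ∧ IsConstMod₁ F.fixingSubgroup f := by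
  constructor
  · rintro ⟨F₁, hF₁, h⟩
    obtain ⟨L, hL, hgal, hle⟩ := exists_galois_level_ge S (F₁ ⊔ F₀) (hF₁.sup hF₀)
    refine ⟨L, hL, hgal, le_sup_right.trans hle, fun g s hs => h g s ?_⟩
    exact IntermediateField.fixingSubgroup_antitone (le_sup_left.trans hle) hs
  · rintro ⟨F, hF, -, -, h⟩
    exact ⟨F, hF, h⟩

theorem isLevelConstantS₂_iff_galois {X : Type*}
    (f : (AlgebraicClosure ℚ ≃ₐ[ℚ] AlgebraicClosure ℚ) ×
      (AlgebraicClosure ℚ ≃ₐ[ℚ] AlgebraicClosure ℚ) → X)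
    (F₀ : IntermediateField ℚ (AlgebraicClosure ℚ)) (hF₀ : F₀.IsUnramifiedOutside S) :
    IsLevelConstantS₂ S f ↔ ∃ F : IntermediateField ℚ (AlgebraicClosure ℚ),
      F.IsUnramifiedOutside S ∧ IsGalois ℚ F ∧ F₀ ≤ F ∧ IsConstMod₂ F.fixingSubgroup f := by
  constructor
  · rintro ⟨F₁, hF₁, h⟩
    obtain ⟨L, hL, hgal, hle⟩ := exists_galois_level_ge S (F₁ ⊔ F₀) (hF₁.sup hF₀)
    refine ⟨L, hL, hgal, le_sup_right.trans hle, fun g g' s s' hs hs' => h g g' s s' ?_ ?_⟩
    · exact IntermediateField.fixingSubgroup_antitone (le_sup_left.trans hle) hs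
    · exact IntermediateField.fixingSubgroup_antitone (le_sup_left.trans hle) hs'
  · rintro ⟨F, hF, -, -, h⟩
    exact ⟨F, hF, h⟩

variable {k : Type} [CommRing k]
  (M : Rep.{0, 0, 0} k (AlgebraicClosure ℚ ≃ₐ[ℚ] AlgebraicClosure ℚ))

/-- Every class in `continuousH2S S M` is represented by a 2-cocycle which is constant modulo
`G_F` for a finite Galois `F ⊇ F₀` unramified outside `S`. -/
theorem exists_rep_continuousH2S (x : continuousH2S S M)
    (F₀ : IntermediateField ℚ (AlgebraicClosure ℚ)) (hF₀ : F₀.IsUnramifiedOutside S) :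
    ∃ F : IntermediateField ℚ (AlgebraicClosure ℚ),
      F.IsUnramifiedOutside S ∧ IsGalois ℚ F ∧ F₀ ≤ F ∧
      ∃ f : ↥(levelCocyclesS₂ S M), IsConstMod₂ F.fixingSubgroup
        (f : (AlgebraicClosure ℚ ≃ₐ[ℚ] AlgebraicClosure ℚ) ×
          (AlgebraicClosure ℚ ≃ₐ[ℚ] AlgebraicClosure ℚ) → M) ∧
        continuousH2Sπ S M f = x := by
  obtain ⟨f, rfl⟩ := Submodule.mkQ_surjective _ x
  obtain ⟨F, hF, hgal, hle, hc⟩ := (isLevelConstantS₂_iff_galois S _ F₀ hF₀).1 f.2.2
  exact ⟨F, hF, hgal, hle, f, hc, rfl⟩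

/-- A class in `continuousH2S S M` vanishes iff a representing cocycle is the coboundary of a
1-cochain constant modulo `G_F` for a finite Galois `F ⊇ F₀` unramified outside `S`. -/
theorem continuousH2Sπ_eq_zero_iff_galois (f : ↥(levelCocyclesS₂ S M))
    (F₀ : IntermediateField ℚ (AlgebraicClosure ℚ)) (hF₀ : F₀.IsUnramifiedOutside S) :
    continuousH2Sπ S M f = 0 ↔
      ∃ F : IntermediateField ℚ (AlgebraicClosure ℚ),
        F.IsUnramifiedOutside S ∧ IsGalois ℚ F ∧ F₀ ≤ F ∧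
        ∃ c : (AlgebraicClosure ℚ ≃ₐ[ℚ] AlgebraicClosure ℚ) → M,
          IsConstMod₁ F.fixingSubgroup c ∧ (d₁₂ M).hom c = f := by
  rw [continuousH2Sπ_eq_zero_iff, mem_levelCoboundariesS₂_iff]
  constructor
  · rintro ⟨c, hc, hd⟩
    obtain ⟨F, hF, hgal, hle, hcF⟩ := (isLevelConstantS₁_iff_galois S c F₀ hF₀).1 hc
    exact ⟨F, hF, hgal, hle, c, hcF, hd⟩
  · rintro ⟨F, hF, -, -, c, hc, hd⟩
    exact ⟨c, ⟨F, hF, hc⟩, hd⟩

end Global

section Local

variable {k : Type} [CommRing k]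
  (M : Rep.{0, 0, 0} k (AlgebraicClosure ℚ ≃ₐ[ℚ] AlgebraicClosure ℚ))

/-- The localisation at `r : H → G_ℚ` of the class of `f` vanishes iff `f ∘ (r × r)` is the
coboundary of a level-constant 1-cochain on `H`. -/
theorem locRes₂S_mk_eq_zero_iff {H : Type} [Group H]
    (r : H →* (AlgebraicClosure ℚ ≃ₐ[ℚ] AlgebraicClosure ℚ)) (f : ↥(levelCocyclesS₂ S M)) :
    locRes₂S S M r (continuousH2Sπ S M f) = 0 ↔
      ∃ c : H → M, IsLevelConstant₁ r c ∧
        ∀ h h' : H, M.ρ (r h) (c h') - c (h * h') + c h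
          = (f : (AlgebraicClosure ℚ ≃ₐ[ℚ] AlgebraicClosure ℚ) ×
              (AlgebraicClosure ℚ ≃ₐ[ℚ] AlgebraicClosure ℚ) → M) (r h, r h') := by
  have h1 : locRes₂S S M r (continuousH2Sπ S M f)
      = continuousH2π r (Rep.res r M)
          (levelCocycles₂Map (rH := MonoidHom.id _) (rG := r) r (fun _ => rfl)
            (LinearMap.id : M →ₗ[k] Rep.res r M) (fun _ _ => rfl)
            (levelCocyclesS₂ToLevelCocycles₂ S M f)) := rfl
  rw [h1, continuousH2π_eq_zero_iff, mem_levelCoboundaries₂_iff]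
  constructor
  · rintro ⟨c, hc, hd⟩
    refine ⟨c, hc, fun h h' => ?_⟩
    have := congrFun hd (h, h')
    rw [d₁₂_hom_apply] at this
    exact this
  · rintro ⟨c, hc, hd⟩
    refine ⟨c, hc, ?_⟩
    funext ⟨h, h'⟩
    rw [d₁₂_hom_apply]
    exact hd h h'

/-- Membership in `sha₂` on representatives (for `2` invertible the archimedean place is
automatic). -/
theorem mem_sha₂_mk_iff {K : Type} [Field K] (h2 : (2 : K) ≠ 0)
    (M : Rep.{0, 0, 0} K (AlgebraicClosure ℚ ≃ₐ[ℚ] AlgebraicClosure ℚ))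
    (f : ↥(levelCocyclesS₂ S M)) :
    continuousH2Sπ S M f ∈ sha₂ S M ↔
      ∀ q : ↥S, ∃ c : primeLocalGaloisGroup q.1 → M,
        IsLevelConstant₁ (primeLocalToGlobal q.1) c ∧
        ∀ h h' : primeLocalGaloisGroup q.1,
          M.ρ (primeLocalToGlobal q.1 h) (c h') - c (h * h') + c h
          = (f : (AlgebraicClosure ℚ ≃ₐ[ℚ] AlgebraicClosure ℚ) ×
              (AlgebraicClosure ℚ ≃ₐ[ℚ] AlgebraicClosure ℚ) → M)
            (primeLocalToGlobal q.1 h, primeLocalToGlobal q.1 h') := by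
  rw [mem_sha₂_iff S h2]
  exact forall_congr' fun q => locRes₂S_mk_eq_zero_iff S M (primeLocalToGlobal q.1) f

/-- Membership in `sha₁` on cocycles: `x ∈ sha₁ S A` iff `x` is the class of an
`S`-level-constant 1-cocycle `c` whose restriction to every local Galois group, `q ∈ S`, is a
coboundary. -/
theorem mem_sha₁_iff_cocycle {K : Type} [Field K] (h2 : (2 : K) ≠ 0)
    (A : Rep.{0, 0, 0} K (AlgebraicClosure ℚ ≃ₐ[ℚ] AlgebraicClosure ℚ)) (x : H1 A) :
    x ∈ sha₁ S A ↔ ∃ c : cocycles₁ A, IsLevelConstantS₁ S c ∧ (H1π A).hom c = x ∧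
      ∀ q : ↥S, ∃ a : A, ∀ h : primeLocalGaloisGroup q.1,
        c (primeLocalToGlobal q.1 h) = A.ρ (primeLocalToGlobal q.1 h) a - a := by
  rw [mem_sha₁_iff S h2, mem_continuousH1S_iff]
  have key : ∀ (c : cocycles₁ A) (q : ↥S),
      (groupCohomology.map (primeLocalToGlobal q.1)
        (𝟙 (Rep.res (primeLocalToGlobal q.1) A)) 1).hom ((H1π A).hom c) = 0 ↔
      ∃ a : A, ∀ h : primeLocalGaloisGroup q.1,
        c (primeLocalToGlobal q.1 h) = A.ρ (primeLocalToGlobal q.1 h) a - a := by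
    intro c q
    have hcomp := congrArg (fun φ => φ.hom c)
      (H1π_comp_map (A := A) (B := Rep.res (primeLocalToGlobal q.1) A)
        (primeLocalToGlobal q.1) (𝟙 (Rep.res (primeLocalToGlobal q.1) A)))
    simp only [ModuleCat.hom_comp, LinearMap.comp_apply] at hcomp
    rw [hcomp]
    rw [H1π_eq_zero_iff]
    constructor
    · rintro ⟨a, ha⟩
      refine ⟨a, fun h => ?_⟩
      have := congrFun ha h
      rw [d₀₁_hom_apply] at this
      exact this.symm
    · rintro ⟨a, ha⟩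
      refine ⟨a, ?_⟩
      funext h
      rw [d₀₁_hom_apply]
      exact (ha h).symm
  constructor
  · rintro ⟨⟨c, hc, rfl⟩, hloc⟩
    exact ⟨c, hc, rfl, fun q => (key c q).1 (hloc q)⟩
  · rintro ⟨c, hc, rfl, hloc⟩
    exact ⟨⟨c, hc, rfl⟩, fun q => (key c q).2 (hloc q)⟩

end Local

end Fermat.Agent.S55.Bridge
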