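import Mathlib
import Fermat.Agent.S55.Bridge.Cochain

/-!
# S55 bridge: inflation of low-degree cochains from a quotient group

`G` a group, `N ⊴ G` acting trivially on `M : Rep k G`.  Cochains of `G ⧸ N` with values in
`M.ofQuotient N` (Mathlib `Rep.ofQuotient`, same carrier as `M`) are identified with the cochains
of `G` that are constant modulo `N`.
-/

set_option autoImplicit false
set_option linter.unusedSectionVars false

namespace Fermat.Agent.S55.Bridge

open groupCohomology CategoryTheory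

variable {k G : Type} [CommRing k] [Group G] (M : Rep.{0, 0, 0} k G) (N : Subgroup G) [N.Normal]

/-- Inflation of 1-cochains. -/
def inflCochain₁ : ((G ⧸ N) → M) →ₗ[k] (G → M) where
  toFun f g := f (g : G ⧸ N)
  map_add' _ _ := rfl
  map_smul' _ _ := rfl

/-- Inflation of 2-cochains. -/
def inflCochain₂ : ((G ⧸ N) × (G ⧸ N) → M) →ₗ[k] (G × G → M) where
  toFun f p := f ((p.1 : G ⧸ N), (p.2 : G ⧸ N))
  map_add' _ _ := rfl
  map_smul' _ _ := rfl

@[simp] theorem inflCochain₁_apply (f : (G ⧸ N) → M) (g : G) :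
    inflCochain₁ M N f g = f (g : G ⧸ N) := rfl

@[simp] theorem inflCochain₂_apply (f : (G ⧸ N) × (G ⧸ N) → M) (p : G × G) :
    inflCochain₂ M N f p = f ((p.1 : G ⧸ N), (p.2 : G ⧸ N)) := rfl

theorem inflCochain₁_injective : Function.Injective (inflCochain₁ M N) := by
  intro f f' h
  funext x
  obtain ⟨g, rfl⟩ := QuotientGroup.mk_surjective x
  exact congrFun h g

theorem inflCochain₂_injective : Function.Injective (inflCochain₂ M N) := by
  intro f f' h
  funext ⟨x, y⟩
  obtain ⟨g, rfl⟩ := QuotientGroup.mk_surjective x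
  obtain ⟨g', rfl⟩ := QuotientGroup.mk_surjective y
  exact congrFun h (g, g')

theorem isConstMod₁_inflCochain₁ (f : (G ⧸ N) → M) : IsConstMod₁ N (inflCochain₁ M N f) := by
  intro g s hs
  show f ((g * s : G) : G ⧸ N) = f (g : G ⧸ N)
  congr 1
  rw [QuotientGroup.eq]
  simpa using N.inv_mem hs

theorem isConstMod₂_inflCochain₂ (f : (G ⧸ N) × (G ⧸ N) → M) :
    IsConstMod₂ N (inflCochain₂ M N f) := by
  intro g g' s s' hs hs'
  show f (((g * s : G) : G ⧸ N), ((g' * s' : G) : G ⧸ N)) = f ((g : G ⧸ N), (g' : G ⧸ N))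
  have h1 : ((g * s : G) : G ⧸ N) = (g : G ⧸ N) := by
    rw [QuotientGroup.eq]; simpa using N.inv_mem hs
  have h2 : ((g' * s' : G) : G ⧸ N) = (g' : G ⧸ N) := by
    rw [QuotientGroup.eq]; simpa using N.inv_mem hs'
  rw [h1, h2]

/-- A 1-cochain constant modulo `N` is inflated from `G ⧸ N`. -/
theorem exists_inflCochain₁_eq (f : G → M) (hf : IsConstMod₁ N f) :
    ∃ f' : (G ⧸ N) → M, inflCochain₁ M N f' = f := by
  refine ⟨fun x => f x.out, ?_⟩
  funext g
  show f ((g : G ⧸ N).out) = f g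
  have h : g⁻¹ * (g : G ⧸ N).out ∈ N := by
    rw [← QuotientGroup.eq, QuotientGroup.out_eq']
  have := hf g _ h
  rwa [mul_inv_cancel_left] at this

/-- A 2-cochain constant modulo `N` is inflated from `G ⧸ N`. -/
theorem exists_inflCochain₂_eq (f : G × G → M) (hf : IsConstMod₂ N f) :
    ∃ f' : (G ⧸ N) × (G ⧸ N) → M, inflCochain₂ M N f' = f := by
  refine ⟨fun x => f (x.1.out, x.2.out), ?_⟩
  funext ⟨g, g'⟩
  show f ((g : G ⧸ N).out, (g' : G ⧸ N).out) = f (g, g')
  have h : g⁻¹ * (g : G ⧸ N).out ∈ N := by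
    rw [← QuotientGroup.eq, QuotientGroup.out_eq']
  have h' : g'⁻¹ * (g' : G ⧸ N).out ∈ N := by
    rw [← QuotientGroup.eq, QuotientGroup.out_eq']
  have := hf g g' _ _ h h'
  rwa [mul_inv_cancel_left, mul_inv_cancel_left] at this

variable [Representation.IsTrivial (M.ρ.comp N.subtype)]

theorem ofQuotient_ρ_mk (g : G) (m : M) : (M.ofQuotient N).ρ (g : G ⧸ N) m = M.ρ g m := rfl

theorem inflCochain₂_d₁₂ (c : (G ⧸ N) → M) :
    inflCochain₂ M N ((d₁₂ (M.ofQuotient N)).hom c) = (d₁₂ M).hom (inflCochain₁ M N c) := by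
  funext ⟨g, g'⟩
  rw [inflCochain₂_apply, d₁₂_hom_apply, d₁₂_hom_apply]
  rfl

theorem inflCochain₁_d₀₁ (m : M) :
    inflCochain₁ M N ((d₀₁ (M.ofQuotient N)).hom m) = (d₀₁ M).hom m := by
  funext g
  rw [inflCochain₁_apply, d₀₁_hom_apply, d₀₁_hom_apply]
  rfl

theorem inflCochain₁_mem_cocycles₁_iff (f : (G ⧸ N) → M) :
    inflCochain₁ M N f ∈ cocycles₁ M ↔ f ∈ cocycles₁ (M.ofQuotient N) := by
  rw [mem_cocycles₁_iff, mem_cocycles₁_iff]
  constructor
  · intro h x y
    obtain ⟨g, rfl⟩ := QuotientGroup.mk_surjective x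
    obtain ⟨g', rfl⟩ := QuotientGroup.mk_surjective y
    exact h g g'
  · intro h g g'
    exact h g g'

theorem inflCochain₂_mem_cocycles₂_iff (f : (G ⧸ N) × (G ⧸ N) → M) :
    inflCochain₂ M N f ∈ cocycles₂ M ↔ f ∈ cocycles₂ (M.ofQuotient N) := by
  rw [mem_cocycles₂_iff, mem_cocycles₂_iff]
  constructor
  · intro h x y z
    obtain ⟨g, rfl⟩ := QuotientGroup.mk_surjective x
    obtain ⟨g', rfl⟩ := QuotientGroup.mk_surjective y
    obtain ⟨g'', rfl⟩ := QuotientGroup.mk_surjective z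
    exact h g g' g''
  · intro h g g' g''
    exact h g g' g''

/-- `inflCochain₂ f` is the coboundary of a cochain constant modulo `N` iff `f` is a coboundary. -/
theorem inflCochain₂_eq_d₁₂_iff (f : (G ⧸ N) × (G ⧸ N) → M) :
    (∃ c : G → M, IsConstMod₁ N c ∧ (d₁₂ M).hom c = inflCochain₂ M N f) ↔
      f ∈ coboundaries₂ (M.ofQuotient N) := by
  constructor
  · rintro ⟨c, hc, hd⟩
    obtain ⟨c', rfl⟩ := exists_inflCochain₁_eq M N c hc
    refine ⟨c', ?_⟩
    apply inflCochain₂_injective M N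
    rw [inflCochain₂_d₁₂]
    exact hd
  · rintro ⟨c', rfl⟩
    exact ⟨inflCochain₁ M N c', isConstMod₁_inflCochain₁ M N c', (inflCochain₂_d₁₂ M N c').symm⟩

end Fermat.Agent.S55.Bridge
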