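import Fermat.Agent.S55.Spec.Tower
import Fermat.Agent.S55.Bridge.Infl
import Fermat.Agent.S55.Bridge.HDesc

/-!
# S55 bridge: the Prelude's `continuousH2S` / `sha₂` through the finite levels of the tower

Vocabulary of `Spec/Tower.lean` (`Tow.Level S`, `L.U`, `L.Gal = G_ℚ ⧸ L.U`).  For a level `L`
whose subgroup `L.U` acts trivially on `M` (hypothesis `hL : ∀ s ∈ L.U, M.ρ s = 1`):

* `atLevel M L hL : Rep k L.Gal` — `M` as a `Gal(F/ℚ)`-module (`= M.ofQuotient L.U`, same carrier);
* `inflH2S M L hL : H2 (atLevel M L hL) →ₗ[k] continuousH2S S M` — inflation to the Prelude group;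
* `inflLevel M h hL : H2 (atLevel M L hL) →ₗ[k] H2 (atLevel M L' _)` — inflation `L ≤ L'`
  (Mathlib's `groupCohomology.map` along `Tow.Level.proj h`);
* `inflH2S_inflLevel`, `exists_inflH2S_eq` (joint surjectivity), `inflH2S_eq_zero_iff`
  (kernel = classes dying at a higher level): `continuousH2S S M = colim_L H²(Gal(F_L/ℚ), M)`.
-/

set_option autoImplicit false
set_option linter.unusedSectionVars false

namespace Fermat.Agent.S55.Bridge

open groupCohomology CategoryTheory ExtCitation IntermediateField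

attribute [local instance] isAlgebraic_Qbar isGalois_Qbar

variable {S : Finset Nat.Primes} {k : Type} [CommRing k] (M : Rep.{0, 0, 0} k Tow.GQ)

/-- A subgroup acting trivially gives Mathlib's `Representation.IsTrivial` for the restriction. -/
theorem isTrivial_comp_subtype {G : Type} [Group G] (A : Rep.{0, 0, 0} k G) (N : Subgroup G)
    (h : ∀ s ∈ N, A.ρ s = 1) : Representation.IsTrivial (A.ρ.comp N.subtype) :=
  ⟨fun s => by
    show A.ρ (s : G) = LinearMap.id
    rw [h s s.2]; rfl⟩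

/-- Triviality of the action passes to higher levels. -/
theorem trivial_of_le {L L' : Tow.Level S} (h : L ≤ L') (hL : ∀ s ∈ L.U, M.ρ s = 1) :
    ∀ s ∈ L'.U, M.ρ s = 1 := fun s hs => hL s (Tow.Level.U_anti h hs)

/-- `M` as a `Gal(F/ℚ)`-module, for a level `L` trivialising `M`. -/
noncomputable abbrev atLevel (L : Tow.Level S) (hL : ∀ s ∈ L.U, M.ρ s = 1) : Rep.{0, 0, 0} k L.Gal :=
  haveI := isTrivial_comp_subtype M L.U hL
  M.ofQuotient L.U

theorem atLevel_ρ_mk (L : Tow.Level S) (hL : ∀ s ∈ L.U, M.ρ s = 1) (g : Tow.GQ) (m : M) :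
    (atLevel M L hL).ρ (g : L.Gal) m = M.ρ g m := rfl

section Global

variable (L : Tow.Level S) (hL : ∀ s ∈ L.U, M.ρ s = 1)

/-- Inflation of 2-cocycles of `Gal(F/ℚ)` to `S`-level-constant 2-cocycles of `G_ℚ`. -/
noncomputable def inflZ2S : cocycles₂ (atLevel M L hL) →ₗ[k] ↥(levelCocyclesS₂ S M) :=
  haveI := isTrivial_comp_subtype M L.U hL
  LinearMap.codRestrict (levelCocyclesS₂ S M)
    ((inflCochain₂ M L.U).comp (cocycles₂ (atLevel M L hL)).subtype)
    (fun f => ⟨(inflCochain₂_mem_cocycles₂_iff M L.U f).2 f.2, L.F, L.unram,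
      isConstMod₂_inflCochain₂ M L.U f⟩)

theorem coe_inflZ2S (f : cocycles₂ (atLevel M L hL)) :
    (inflZ2S M L hL f : Tow.GQ × Tow.GQ → M) = inflCochain₂ M L.U f := rfl

theorem inflZ2S_apply (f : cocycles₂ (atLevel M L hL)) (g g' : Tow.GQ) :
    (inflZ2S M L hL f : Tow.GQ × Tow.GQ → M) (g, g') = f ((g : L.Gal), (g' : L.Gal)) := rfl

/-- Inflation `H²(Gal(F/ℚ), M) → continuousH2S S M`. -/
noncomputable def inflH2S : H2 (atLevel M L hL) →ₗ[k] continuousH2S S M :=
  H2desc (atLevel M L hL) ((continuousH2Sπ S M).comp (inflZ2S M L hL)) (by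
    haveI := isTrivial_comp_subtype M L.U hL
    intro c hc
    rw [LinearMap.comp_apply, continuousH2Sπ_eq_zero_iff, mem_levelCoboundariesS₂_iff]
    obtain ⟨c', hc'⟩ := hc
    refine ⟨inflCochain₁ M L.U c', ⟨L.F, L.unram, isConstMod₁_inflCochain₁ M L.U c'⟩, ?_⟩
    rw [coe_inflZ2S, ← hc']
    exact (inflCochain₂_d₁₂ M L.U c').symm)

@[simp] theorem inflH2S_H2π (f : cocycles₂ (atLevel M L hL)) :
    inflH2S M L hL ((H2π (atLevel M L hL)).hom f) = continuousH2Sπ S M (inflZ2S M L hL f) :=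
  H2desc_H2π _ _ _ f

/-- Joint surjectivity: every class of `continuousH2S S M` is inflated from a level above any
given level. -/
theorem exists_inflH2S_eq (x : continuousH2S S M) :
    ∃ (L' : Tow.Level S) (h : L ≤ L') (y : H2 (atLevel M L' (trivial_of_le M h hL))),
      inflH2S M L' (trivial_of_le M h hL) y = x := by
  obtain ⟨F, hF, hgal, hle, f, hc, rfl⟩ := exists_rep_continuousH2S S M x L.F L.unram
  let L' : Tow.Level S := ⟨F, hF, (InfiniteGalois.normal_iff_isGalois _).2 hgal⟩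
  have h : L ≤ L' := hle
  haveI := isTrivial_comp_subtype M L'.U (trivial_of_le M h hL)
  obtain ⟨f', hf'⟩ := exists_inflCochain₂_eq M L'.U (f : Tow.GQ × Tow.GQ → M) hc
  have hcoc : f' ∈ cocycles₂ (atLevel M L' (trivial_of_le M h hL)) := by
    rw [← inflCochain₂_mem_cocycles₂_iff M L'.U f', hf']
    exact f.2.1
  refine ⟨L', h, (H2π _).hom ⟨f', hcoc⟩, ?_⟩
  rw [inflH2S_H2π]
  congr 1
  exact Subtype.ext hf'

end Global

section Transition

variable {L L' : Tow.Level S} (h : L ≤ L') (hL : ∀ s ∈ L.U, M.ρ s = 1)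

/-- The identity of `M`, as a morphism `Res_{proj}(M at L) ⟶ M at L'`. -/
noncomputable def levelHom :
    Rep.res (Tow.Level.proj h) (atLevel M L hL) ⟶ atLevel M L' (trivial_of_le M h hL) :=
  Rep.ofHom ⟨LinearMap.id, fun g => QuotientGroup.induction_on g fun _ => rfl⟩

/-- Inflation `H²(Gal(F/ℚ), M) → H²(Gal(F'/ℚ), M)` for `F ≤ F'`. -/
noncomputable def inflLevel :
    H2 (atLevel M L hL) →ₗ[k] H2 (atLevel M L' (trivial_of_le M h hL)) :=
  (groupCohomology.map (Tow.Level.proj h) (levelHom M h hL) 2).hom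

theorem inflLevel_H2π (f : cocycles₂ (atLevel M L hL)) :
    inflLevel M h hL ((H2π (atLevel M L hL)).hom f) =
      (H2π (atLevel M L' (trivial_of_le M h hL))).hom
        ((mapCocycles₂ (Tow.Level.proj h) (levelHom M h hL)).hom f) := by
  have := congrArg (fun φ => φ.hom f)
    (H2π_comp_map (A := atLevel M L hL) (B := atLevel M L' (trivial_of_le M h hL))
      (Tow.Level.proj h) (levelHom M h hL))
  simp only [ModuleCat.hom_comp, LinearMap.comp_apply] at this
  exact this

theorem mapCocycles₂_levelHom_apply (f : cocycles₂ (atLevel M L hL)) (x y : L'.Gal) :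
    ((mapCocycles₂ (Tow.Level.proj h) (levelHom M h hL)).hom f : L'.Gal × L'.Gal → M) (x, y)
      = f (Tow.Level.proj h x, Tow.Level.proj h y) := rfl

/-- Inflation to the Prelude group is compatible with the transition maps. -/
theorem inflH2S_inflLevel (y : H2 (atLevel M L hL)) :
    inflH2S M L' (trivial_of_le M h hL) (inflLevel M h hL y) = inflH2S M L hL y := by
  obtain ⟨f, rfl⟩ := H2π_surjective (atLevel M L hL) y
  rw [inflLevel_H2π, inflH2S_H2π, inflH2S_H2π]
  congr 1

/-- The kernel of the inflation to the Prelude group: classes dying at a higher level. -/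
theorem inflH2S_eq_zero_iff (L : Tow.Level S) (hL : ∀ s ∈ L.U, M.ρ s = 1)
    (y : H2 (atLevel M L hL)) :
    inflH2S M L hL y = 0 ↔ ∃ (L' : Tow.Level S) (h : L ≤ L'), inflLevel M h hL y = 0 := by
  constructor
  · intro hy
    obtain ⟨f, rfl⟩ := H2π_surjective (atLevel M L hL) y
    rw [inflH2S_H2π] at hy
    obtain ⟨F, hF, hgal, hle, c, hc, hd⟩ :=
      (continuousH2Sπ_eq_zero_iff_galois S M _ L.F L.unram).1 hy
    let L' : Tow.Level S := ⟨F, hF, (InfiniteGalois.normal_iff_isGalois _).2 hgal⟩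
    have h : L ≤ L' := hle
    haveI := isTrivial_comp_subtype M L'.U (trivial_of_le M h hL)
    obtain ⟨c', rfl⟩ := exists_inflCochain₁_eq M L'.U c hc
    refine ⟨L', h, ?_⟩
    rw [inflLevel_H2π, H2π_eq_zero_iff]
    refine ⟨c', ?_⟩
    apply inflCochain₂_injective M L'.U
    rw [inflCochain₂_d₁₂]
    rw [hd]
    rfl
  · rintro ⟨L', h, hy⟩
    rw [← inflH2S_inflLevel M h hL y, hy, map_zero]

end Transition

end Fermat.Agent.S55.Bridge
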