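import Mathlib

/-!
# S55 bridge, part B1: pure linear algebra

Two vector spaces of equal finite dimension admit a bilinear pairing which is nondegenerate
on both sides.  Also: a linear equivalence `V ≃ Dual W` (no finiteness needed) gives one.
-/

set_option autoImplicit false

namespace Fermat.Agent.S55.Bridge

open Module

variable {K V W : Type*} [Field K] [AddCommGroup V] [Module K V] [AddCommGroup W] [Module K W]

/-- A linear equivalence `V ≃ₗ Dual W` is a perfect pairing (in the weak, two-sided
injectivity sense used by the frozen statement S55). -/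
theorem exists_pairing_of_equiv_dual (e : V ≃ₗ[K] Module.Dual K W) :
    ∃ B : V →ₗ[K] W →ₗ[K] K,
      (∀ y, (∀ x, B y x = 0) → y = 0) ∧ (∀ x, (∀ y, B y x = 0) → x = 0) := by
  refine ⟨e.toLinearMap, ?_, ?_⟩
  · intro y hy
    have : e y = 0 := LinearMap.ext hy
    exact e.map_eq_zero_iff.mp this
  · intro x hx
    refine (Module.forall_dual_apply_eq_zero_iff K x).mp ?_
    intro f
    obtain ⟨y, rfl⟩ := e.surjective f
    exact hx y

/-- Two finite-dimensional spaces of the same dimension admit a two-sided nondegenerate pairing. -/
theorem exists_pairing_of_finrank_eq [FiniteDimensional K V] [FiniteDimensional K W]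
    (h : finrank K V = finrank K W) :
    ∃ B : V →ₗ[K] W →ₗ[K] K,
      (∀ y, (∀ x, B y x = 0) → y = 0) ∧ (∀ x, (∀ y, B y x = 0) → x = 0) := by
  have h' : finrank K V = finrank K (Module.Dual K W) := by
    rw [h, Subspace.dual_finrank_eq]
  exact exists_pairing_of_equiv_dual (LinearEquiv.ofFinrankEq V (Module.Dual K W) h')

/-- Variant: it suffices to have injective linear maps in both directions into the duals
(finite-dimensionality is then automatic from one side being finite-dimensional). -/
theorem exists_pairing_of_injective [FiniteDimensional K W]
    (f : V →ₗ[K] Module.Dual K W) (hf : Function.Injective f)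
    (g : W →ₗ[K] Module.Dual K V) (hg : Function.Injective g) :
    ∃ B : V →ₗ[K] W →ₗ[K] K,
      (∀ y, (∀ x, B y x = 0) → y = 0) ∧ (∀ x, (∀ y, B y x = 0) → x = 0) := by
  haveI : FiniteDimensional K V := FiniteDimensional.of_injective f hf
  have h1 : finrank K V ≤ finrank K W := by
    have := LinearMap.finrank_le_finrank_of_injective hf
    rwa [Subspace.dual_finrank_eq] at this
  have h2 : finrank K W ≤ finrank K V := by
    have := LinearMap.finrank_le_finrank_of_injective hg
    rwa [Subspace.dual_finrank_eq] at this
  exact exists_pairing_of_finrank_eq (le_antisymm h1 h2)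

end Fermat.Agent.S55.Bridge
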