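import Mathlib
import Fermat.Prelude.Def_GroupCohomology_ContinuousUnramified

/-!
# S55 bridge, part B3a: cohomology of a finite group whose order is invertible

For a finite group `H` and a commutative ring `k` in which `Nat.card H` is invertible,
every 1-cocycle and every 2-cocycle with values in a `k`-linear representation is a coboundary
(averaging argument).  We give the statements needed for the Prelude objects
`groupCohomology.H1` and `groupCohomology.continuousH2`.
-/

set_option autoImplicit false

namespace Fermat.Agent.S55.Bridge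

open groupCohomology CategoryTheory

universe u

variable {k H : Type u} [CommRing k] [Group H] [Fintype H] (B : Rep k H)

/-- Averaging: a 1-cocycle on a finite group with invertible order is a coboundary. -/
theorem mem_coboundaries₁_of_card_inv (c : k) (hc : c * (Fintype.card H : k) = 1)
    (f : H → B) (hf : f ∈ cocycles₁ B) : f ∈ coboundaries₁ B := by
  rw [mem_cocycles₁_iff] at hf
  set a : B := ∑ h : H, f h with ha
  have key : ∀ g : H, (Fintype.card H : k) • f g = a - B.ρ g a := by
    intro g
    have h1 : ∑ h : H, f (g * h) = a :=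
      Fintype.sum_equiv (Equiv.mulLeft g) (fun h => f (g * h)) f (fun _ => rfl)
    have h2 : ∑ h : H, f (g * h) = B.ρ g a + (Fintype.card H : k) • f g := by
      simp_rw [hf]
      rw [Finset.sum_add_distrib, ← map_sum, Finset.sum_const, Finset.card_univ,
        Nat.cast_smul_eq_nsmul]
    rw [h1] at h2
    rw [eq_sub_iff_add_eq, add_comm]
    exact h2.symm
  refine ⟨-(c • a), ?_⟩
  funext g
  have : f g = c • (a - B.ρ g a) := by
    rw [← key g, smul_smul, hc, one_smul]
  rw [d₀₁_hom_apply, this]
  simp only [map_neg, map_smul, smul_sub]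
  abel

/-- Averaging: a 2-cocycle on a finite group with invertible order is the coboundary of the
averaged 1-cochain `g ↦ c • ∑ j, f (g, j)`. -/
theorem d₁₂_average_eq (c : k) (hc : c * (Fintype.card H : k) = 1)
    (f : H × H → B) (hf : f ∈ cocycles₂ B) :
    (d₁₂ B).hom (fun g => c • ∑ j : H, f (g, j)) = f := by
  rw [mem_cocycles₂_iff] at hf
  set u : H → B := fun g => ∑ j : H, f (g, j) with hu
  have key : ∀ g h : H, (Fintype.card H : k) • f (g, h) = B.ρ g (u h) - u (g * h) + u g := by
    intro g h
    have h1 : ∑ j : H, (f (g * h, j) + f (g, h)) = ∑ j : H, (B.ρ g (f (h, j)) + f (g, h * j)) :=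
      Finset.sum_congr rfl fun j _ => hf g h j
    rw [Finset.sum_add_distrib, Finset.sum_add_distrib, Finset.sum_const, Finset.card_univ,
      ← map_sum] at h1
    have h2 : ∑ j : H, f (g, h * j) = u g :=
      Fintype.sum_equiv (Equiv.mulLeft h) (fun j => f (g, h * j)) (fun j => f (g, j))
        (fun _ => rfl)
    rw [h2, ← Nat.cast_smul_eq_nsmul k] at h1
    have h3 : (Fintype.card H : k) • f (g, h) = B.ρ g (u h) + u g - u (g * h) := by
      rw [eq_sub_iff_add_eq, add_comm]
      exact h1
    rw [h3]
    abel
  funext ⟨g, h⟩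
  have : f (g, h) = c • (B.ρ g (u h) - u (g * h) + u g) := by
    rw [← key g h, smul_smul, hc, one_smul]
  rw [d₁₂_hom_apply, this]
  simp only [map_smul, smul_sub, smul_add]
  rfl

theorem mem_coboundaries₂_of_card_inv (c : k) (hc : c * (Fintype.card H : k) = 1)
    (f : H × H → B) (hf : f ∈ cocycles₂ B) : f ∈ coboundaries₂ B :=
  ⟨_, d₁₂_average_eq B c hc f hf⟩

/-- `H¹` of a finite group with invertible order vanishes. -/
theorem H1_eq_zero_of_card_inv (c : k) (hc : c * (Fintype.card H : k) = 1) (x : H1 B) : x = 0 := by
  induction x using H1_induction_on with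
  | h f => exact (H1π_eq_zero_iff f).2 (mem_coboundaries₁_of_card_inv B c hc f f.2)

/-- `H²` of a finite group with invertible order vanishes. -/
theorem H2_eq_zero_of_card_inv (c : k) (hc : c * (Fintype.card H : k) = 1) (x : H2 B) : x = 0 := by
  induction x using H2_induction_on with
  | h f => exact (H2π_eq_zero_iff f).2 (mem_coboundaries₂_of_card_inv B c hc f f.2)

/-- The Prelude's continuous `H²` (level-constant cochains with respect to
`r : H →* Gal(ℚ̄/ℚ)`) of a finite group with invertible order vanishes. -/
theorem continuousH2_eq_zero_of_card_inv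
    (r : H →* (AlgebraicClosure ℚ ≃ₐ[ℚ] AlgebraicClosure ℚ))
    (c : k) (hc : c * (Fintype.card H : k) = 1) (x : continuousH2 r B) : x = 0 := by
  obtain ⟨f, rfl⟩ := Submodule.Quotient.mk_surjective _ x
  rw [Submodule.Quotient.mk_eq_zero, Submodule.mem_comap, Submodule.subtype_apply,
    mem_levelCoboundaries₂_iff]
  obtain ⟨hfc, F, hF, hlev⟩ := f.2
  refine ⟨fun g => c • ∑ j : H, (f : H × H → B) (g, j), ⟨F, hF, fun g s hs => ?_⟩,
    d₁₂_average_eq B c hc _ hfc⟩
  refine congrArg (c • ·) (Finset.sum_congr rfl fun j _ => ?_)
  have := hlev g j s 1 hs (by rw [map_one]; exact Subgroup.one_mem _)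
  simpa using this

end Fermat.Agent.S55.Bridge
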