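import Fermat.Agent.S55.Spec.Datum
import Fermat.Agent.S55.Bridge.Krasner
import Fermat.Agent.S55.Bridge.FiniteRam

/-!
# S55: the component LDIV of `Tow.LocalSpec p` (third conjunct), exact frozen shape

Every element of `F_qˣ` becomes a `p`-th power in `F'_qˣ` for a suitable finite Galois `F'/ℚ`
containing `F` (a level of a bigger finite set of primes): `ℚ̄_q` is algebraically closed, a
`p`-th root generates a finite extension of `ℚ_q`, which by Krasner is contained in `ℚ_q · F₁`
for a finite `F₁/ℚ`; finally `F₁ · F` lies in a finite Galois extension unramified outside a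
finite set (B15).
-/

set_option autoImplicit false

namespace Fermat.Agent.S55.Bridge

open ExtCitation

attribute [local instance] isAlgebraic_Qbar isGalois_Qbar

/-- **LDIV** (third conjunct of `Tow.LocalSpec p`). -/
theorem localSpec_ldiv (p : ℕ) (hp : 0 < p) :
    ∀ (S' : Finset Nat.Primes) (L : Tow.Level S') (q : Nat.Primes) (x : (L.locUnits q).V),
      ∃ (S'' : Finset Nat.Primes) (hS : S' ⊆ S'') (L' : Tow.Level S'')
        (h : Tow.Level.ofLE hS L ≤ L') (y : (L'.locUnits q).V),
        p • y = (Tow.Level.trLoc h q).hom x := by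
  intro S' L q x
  haveI : Fact (q : ℕ).Prime := ⟨q.2⟩
  -- the underlying unit and a `p`-th root
  let u : (PadicAlgCl (q : ℕ))ˣ := Additive.toMul (L.locCoe q x)
  obtain ⟨v, hv⟩ := IsAlgClosed.exists_pow_nat_eq (u : PadicAlgCl (q : ℕ)) hp
  have hv0 : v ≠ 0 := by
    rintro rfl
    rw [zero_pow hp.ne'] at hv
    exact u.ne_zero hv.symm
  -- a global element generating a field containing `v`
  obtain ⟨b, hb⟩ := exists_global_generator (q : ℕ) v
  have hfin : FiniteDimensional ℚ
      ↥(IntermediateField.adjoin ℚ {b} ⊔ L.F : IntermediateField ℚ (AlgebraicClosure ℚ)) := by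
    haveI := L.unram.1
    haveI : FiniteDimensional ℚ (IntermediateField.adjoin ℚ {b}) :=
      IntermediateField.adjoin.finiteDimensional (Algebra.IsIntegral.isIntegral b)
    exact IntermediateField.finiteDimensional_sup _ _
  obtain ⟨T, F', hST, hF', hgal, hle⟩ :=
    exists_galois_ge_isUnramifiedOutside S' (IntermediateField.adjoin ℚ {b} ⊔ L.F) hfin
  let L' : Tow.Level T := ⟨F', hF', (InfiniteGalois.normal_iff_isGalois _).2 hgal⟩
  have h : Tow.Level.ofLE hST L ≤ L' := le_sup_right.trans hle
  have hfix : ∀ g ∈ L'.V q, (Tow.unitsQpbar q).ρ g (Additive.ofMul (Units.mk0 v hv0))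
      = Additive.ofMul (Units.mk0 v hv0) := by
    intro g hg
    let g' : PadicAlgCl (q : ℕ) ≃ₐ[ℚ_[(q : ℕ)]] PadicAlgCl (q : ℕ) := g
    have hgb : localGaloisToGlobal (q : ℕ) g' b = b := by
      have hg' : Tow.locQ q g ∈ F'.fixingSubgroup := hg
      exact (IntermediateField.mem_fixingSubgroup_iff _ _).1 hg' b
        (hle (le_sup_left (a := IntermediateField.adjoin ℚ {b}) (b := L.F)
          (IntermediateField.subset_adjoin ℚ _ (Set.mem_singleton b))))
    have hgv : g' v = v := fixes_adjoin_of_fixes (q : ℕ) g' b hgb v hb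
    apply Additive.toMul.injective
    apply Units.ext
    exact hgv
  refine ⟨T, hST, L', h, L'.locMk q (Additive.ofMul (Units.mk0 v hv0)) hfix, ?_⟩
  apply L'.locCoe_injective q
  show p • (Additive.ofMul (Units.mk0 v hv0) : Additive (PadicAlgCl (q : ℕ))ˣ) = L.locCoe q x
  apply Additive.toMul.injective
  apply Units.ext
  show ((Units.mk0 v hv0) ^ p : (PadicAlgCl (q : ℕ))ˣ).1 = (u : PadicAlgCl (q : ℕ))
  rw [Units.val_pow_eq_pow_val, Units.val_mk0, hv]

end Fermat.Agent.S55.Bridge
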