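import Fermat.Agent.S55.Bridge.LinAlg
import Fermat.Agent.S55.Bridge.Archimedean
import Fermat.Agent.S55.Bridge.DualTwist

/-!
# S55 bridge: reduction of the frozen statement to a dimension count

`S55` (existence of a two-sided nondegenerate pairing `Ш¹_S(M^∨(1)) × Ш²_S(M) → 𝔽_p`) follows from
either of
* `Ш²_S(M)` finite-dimensional and `finrank Ш¹ = finrank Ш²` (with `Ш¹` finite-dimensional), or
* a linear equivalence `Ш¹_S(M^∨(1)) ≃ Dual (Ш²_S(M))`, or
* injective linear maps `Ш¹ → Dual Ш²` and `Ш² → Dual Ш¹` with `Ш²` finite-dimensional.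
-/

set_option autoImplicit false

namespace Fermat.Agent.S55.Bridge

open groupCohomology ExtCitation Module

variable {p : ℕ} [Fact p.Prime] (S : Finset Nat.Primes)
  (M : Rep.{0, 0, 0} (ZMod p) (AlgebraicClosure ℚ ≃ₐ[ℚ] AlgebraicClosure ℚ))

/-- The conclusion of S55 from a dimension count. -/
theorem pairing_of_finrank_eq
    (h1 : FiniteDimensional (ZMod p) (sha₁ S (M.dualTwist (cycloChar p))))
    (h2 : FiniteDimensional (ZMod p) (sha₂ S M))
    (h : finrank (ZMod p) (sha₁ S (M.dualTwist (cycloChar p))) = finrank (ZMod p) (sha₂ S M)) :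
    ∃ B : sha₁ S (M.dualTwist (cycloChar p)) →ₗ[ZMod p] sha₂ S M →ₗ[ZMod p] ZMod p,
      (∀ y, (∀ x, B y x = 0) → y = 0) ∧ (∀ x, (∀ y, B y x = 0) → x = 0) :=
  exists_pairing_of_finrank_eq h

/-- The conclusion of S55 from an isomorphism with the dual. -/
theorem pairing_of_equiv_dual
    (e : sha₁ S (M.dualTwist (cycloChar p)) ≃ₗ[ZMod p] Module.Dual (ZMod p) (sha₂ S M)) :
    ∃ B : sha₁ S (M.dualTwist (cycloChar p)) →ₗ[ZMod p] sha₂ S M →ₗ[ZMod p] ZMod p,
      (∀ y, (∀ x, B y x = 0) → y = 0) ∧ (∀ x, (∀ y, B y x = 0) → x = 0) :=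
  exists_pairing_of_equiv_dual e

/-- The conclusion of S55 from two injections into duals. -/
theorem pairing_of_injective
    (h2 : FiniteDimensional (ZMod p) (sha₂ S M))
    (f : sha₁ S (M.dualTwist (cycloChar p)) →ₗ[ZMod p] Module.Dual (ZMod p) (sha₂ S M))
    (hf : Function.Injective f)
    (g : sha₂ S M →ₗ[ZMod p] Module.Dual (ZMod p) (sha₁ S (M.dualTwist (cycloChar p))))
    (hg : Function.Injective g) :
    ∃ B : sha₁ S (M.dualTwist (cycloChar p)) →ₗ[ZMod p] sha₂ S M →ₗ[ZMod p] ZMod p,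
      (∀ y, (∀ x, B y x = 0) → y = 0) ∧ (∀ x, (∀ y, B y x = 0) → x = 0) :=
  exists_pairing_of_injective f hf g hg

/-- Transport along linear equivalences: if `Ш¹ ≃ V`, `Ш² ≃ W` and `V`, `W` are
finite-dimensional of the same dimension, S55 follows. -/
theorem pairing_of_equivs {V W : Type} [AddCommGroup V] [Module (ZMod p) V]
    [AddCommGroup W] [Module (ZMod p) W] [FiniteDimensional (ZMod p) V]
    [FiniteDimensional (ZMod p) W]
    (e1 : sha₁ S (M.dualTwist (cycloChar p)) ≃ₗ[ZMod p] V) (e2 : sha₂ S M ≃ₗ[ZMod p] W)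
    (h : finrank (ZMod p) V = finrank (ZMod p) W) :
    ∃ B : sha₁ S (M.dualTwist (cycloChar p)) →ₗ[ZMod p] sha₂ S M →ₗ[ZMod p] ZMod p,
      (∀ y, (∀ x, B y x = 0) → y = 0) ∧ (∀ x, (∀ y, B y x = 0) → x = 0) := by
  haveI : FiniteDimensional (ZMod p) (sha₁ S (M.dualTwist (cycloChar p))) :=
    e1.symm.finiteDimensional
  haveI : FiniteDimensional (ZMod p) (sha₂ S M) := e2.symm.finiteDimensional
  apply exists_pairing_of_finrank_eq
  rw [e1.finrank_eq, e2.finrank_eq, h]

end Fermat.Agent.S55.Bridge
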