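import Fermat.Agent.S54.FrobExists
import Fermat.Agent.S55.Bridge.InertiaConj

/-!
# S55 bridge, part B14: places of `ℚ̄` above a place of a subfield are conjugate;
restriction is onto on decomposition groups.
-/

set_option autoImplicit false
set_option linter.style.haveILetI false

namespace Fermat.Agent.S55.Bridge

open scoped Pointwise
open Fermat.Agent.S54

attribute [local instance] isAlgebraic_Qbar isGalois_Qbar

section Instances

variable (F : IntermediateField ℚ (AlgebraicClosure ℚ))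

theorem compactSpace_fixingSubgroup : CompactSpace ↥F.fixingSubgroup :=
  isCompact_iff_compactSpace.mp (InfiniteGalois.fixingSubgroup_isClosed F).isCompact

theorem totallyDisconnectedSpace_fixingSubgroup : TotallyDisconnectedSpace ↥F.fixingSubgroup :=
  Subtype.totallyDisconnectedSpace

theorem continuousSMul_fixingSubgroup :
    letI : TopologicalSpace (integralClosure ℤ (AlgebraicClosure ℚ)) := ⊥
    ContinuousSMul ↥F.fixingSubgroup (integralClosure ℤ (AlgebraicClosure ℚ)) := by
  letI : TopologicalSpace (integralClosure ℤ (AlgebraicClosure ℚ)) := ⊥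
  haveI := continuousSMul_integralClosure
  refine ⟨?_⟩
  have h : Continuous fun p : (AlgebraicClosure ℚ ≃ₐ[ℚ] AlgebraicClosure ℚ) ×
      (integralClosure ℤ (AlgebraicClosure ℚ)) => p.1 • p.2 := continuous_smul
  exact h.comp (continuous_subtype_val.prodMap continuous_id)

theorem smulCommClass_fixedPoints :
    SMulCommClass ↥F.fixingSubgroup
      (FixedPoints.subalgebra ℤ (integralClosure ℤ (AlgebraicClosure ℚ)) ↥F.fixingSubgroup)
      (integralClosure ℤ (AlgebraicClosure ℚ)) where
  smul_comm g a b := by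
    show g • (a.1 * b) = a.1 * g • b
    rw [smul_mul', a.2 g]

theorem isInvariant_fixedPoints :
    Algebra.IsInvariant
      (FixedPoints.subalgebra ℤ (integralClosure ℤ (AlgebraicClosure ℚ)) ↥F.fixingSubgroup)
      (integralClosure ℤ (AlgebraicClosure ℚ)) ↥F.fixingSubgroup :=
  ⟨fun b hb => ⟨⟨b, hb⟩, rfl⟩⟩

end Instances

section Prime

/-- A valuation subring over a prime is determined by the prime of `ℤ̄` below it. -/
theorem valuationSubring_ext_of_primeBelow {A A' : ValuationSubring (AlgebraicClosure ℚ)}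
    {q : ℕ} (hq : q.Prime) (hA : A.LiesOverPrime q) (hA' : A'.LiesOverPrime q)
    (h : primeBelow A = primeBelow A') : A = A' := by
  have key : ∀ s : AlgebraicClosure ℚ, IsIntegral ℤ s → (s ∈ A.nonunits ↔ s ∈ A'.nonunits) := by
    intro s hs
    have := congrArg (fun I : Ideal (integralClosure ℤ (AlgebraicClosure ℚ)) =>
      (⟨s, hs⟩ : integralClosure ℤ (AlgebraicClosure ℚ)) ∈ I) h
    simpa [mem_primeBelow] using this
  apply SetLike.ext
  intro x
  rw [mem_valuationSubring_iff A q hq hA, mem_valuationSubring_iff A' q hq hA']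
  constructor
  · rintro ⟨b, s, hb, hs, hsn, hx⟩
    exact ⟨b, s, hb, hs, fun h' => hsn ((key s hs).2 h'), hx⟩
  · rintro ⟨b, s, hb, hs, hsn, hx⟩
    exact ⟨b, s, hb, hs, fun h' => hsn ((key s hs).1 h'), hx⟩

/-- `primeBelow` is equivariant. -/
theorem primeBelow_smul (A : ValuationSubring (AlgebraicClosure ℚ))
    (g : AlgebraicClosure ℚ ≃ₐ[ℚ] AlgebraicClosure ℚ) :
    primeBelow (g • A) = g • primeBelow A := by
  ext b
  rw [mem_primeBelow, mem_nonunits_smul_iff, Ideal.mem_pointwise_smul_iff_inv_smul_mem,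
    mem_primeBelow]
  rfl

end Prime

section Transitive

variable (F : IntermediateField ℚ (AlgebraicClosure ℚ))

/-- An algebraic integer fixed by `G_F` lies in `F`. -/
theorem mem_of_fixed_by_fixingSubgroup (x : AlgebraicClosure ℚ)
    (hx : ∀ g ∈ F.fixingSubgroup, g x = x) : x ∈ F := by
  rw [← InfiniteGalois.fixedField_fixingSubgroup F, IntermediateField.mem_fixedField_iff]
  exact hx

/-- **Places of `ℚ̄` over the same place of `F` are conjugate under `G_F`.** -/
theorem exists_smul_eq_of_restrict_eq {A A' : ValuationSubring (AlgebraicClosure ℚ)}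
    {q : ℕ} (hq : q.Prime) (hA : A.LiesOverPrime q) (hA' : A'.LiesOverPrime q)
    (h : ∀ x ∈ F, x ∈ A ↔ x ∈ A') :
    ∃ τ ∈ F.fixingSubgroup, τ • A = A' := by
  letI : TopologicalSpace (integralClosure ℤ (AlgebraicClosure ℚ)) := ⊥
  haveI : DiscreteTopology (integralClosure ℤ (AlgebraicClosure ℚ)) := ⟨rfl⟩
  haveI := compactSpace_fixingSubgroup F
  haveI := totallyDisconnectedSpace_fixingSubgroup F
  haveI := continuousSMul_fixingSubgroup F
  haveI := smulCommClass_fixedPoints F
  haveI := isInvariant_fixedPoints F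
  haveI := primeBelow_isPrime A
  haveI := primeBelow_isPrime A'
  have hunder : (primeBelow A).under
      (FixedPoints.subalgebra ℤ (integralClosure ℤ (AlgebraicClosure ℚ)) ↥F.fixingSubgroup)
      = (primeBelow A').under
      (FixedPoints.subalgebra ℤ (integralClosure ℤ (AlgebraicClosure ℚ)) ↥F.fixingSubgroup) := by
    ext a
    rw [Ideal.mem_comap, Ideal.mem_comap]
    show ((a.1 : integralClosure ℤ (AlgebraicClosure ℚ)) : AlgebraicClosure ℚ) ∈ A.nonunits ↔
      ((a.1 : integralClosure ℤ (AlgebraicClosure ℚ)) : AlgebraicClosure ℚ) ∈ A'.nonunits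
    have haF : ((a.1 : integralClosure ℤ (AlgebraicClosure ℚ)) : AlgebraicClosure ℚ) ∈ F := by
      apply mem_of_fixed_by_fixingSubgroup
      intro g hg
      have := a.2 ⟨g, hg⟩
      exact congrArg Subtype.val this
    rw [mem_nonunits_iff_inv_not_mem, mem_nonunits_iff_inv_not_mem, h _ (F.inv_mem haF)]
  obtain ⟨τ, hτ⟩ := Algebra.IsInvariant.exists_smul_of_under_eq_of_profinite
    (A := FixedPoints.subalgebra ℤ (integralClosure ℤ (AlgebraicClosure ℚ)) ↥F.fixingSubgroup)
    (G := ↥F.fixingSubgroup) (primeBelow A) (primeBelow A') hunder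
  refine ⟨τ.1, τ.2, ?_⟩
  apply valuationSubring_ext_of_primeBelow hq (liesOverPrime_smul A τ.1 q hA) hA'
  rw [primeBelow_smul, hτ]
  rfl

/-- A normal intermediate field is stable under `G_ℚ`. -/
theorem map_mem_of_normal (hF : F.fixingSubgroup.Normal)
    (σ : AlgebraicClosure ℚ ≃ₐ[ℚ] AlgebraicClosure ℚ) {x : AlgebraicClosure ℚ} (hx : x ∈ F) :
    σ x ∈ F := by
  apply mem_of_fixed_by_fixingSubgroup
  intro g hg
  have h1 : σ⁻¹ * g * σ ∈ F.fixingSubgroup := by
    have := hF.conj_mem g hg σ⁻¹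
    rwa [inv_inv] at this
  have h2 := (IntermediateField.mem_fixingSubgroup_iff F _).1 h1 x hx
  have h3 : (σ⁻¹ * g * σ) x = σ⁻¹ (g (σ x)) := rfl
  rw [h3] at h2
  have h4 := congrArg σ h2
  have h5 : σ (σ⁻¹ (g (σ x))) = g (σ x) := by
    show (σ * σ⁻¹) (g (σ x)) = g (σ x)
    rw [mul_inv_cancel]
    rfl
  rw [h5] at h4
  exact h4

/-- **B14 (decomposition groups).** If `F/ℚ` is normal and `σ ∈ G_ℚ` stabilises the place
`A ∩ F` of `F`, then `σ|_F` is the restriction of an element of the decomposition group of `A`. -/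
theorem exists_mem_decomposition_restrict_eq (hF : F.fixingSubgroup.Normal)
    {A : ValuationSubring (AlgebraicClosure ℚ)} {q : ℕ} (hq : q.Prime) (hA : A.LiesOverPrime q)
    (σ : AlgebraicClosure ℚ ≃ₐ[ℚ] AlgebraicClosure ℚ) (hσ : ∀ x ∈ F, σ x ∈ A ↔ x ∈ A) :
    ∃ σ' ∈ A.decompositionSubgroup ℚ, ∀ x ∈ F, σ' x = σ x := by
  have hA' : (σ • A).LiesOverPrime q := liesOverPrime_smul A σ q hA
  have hcomp : ∀ x ∈ F, x ∈ σ • A ↔ x ∈ A := by
    intro x hx
    rw [mem_smul_valuationSubring_iff]
    have hx' : σ⁻¹ x ∈ F := map_mem_of_normal F hF σ⁻¹ hx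
    have h1 := hσ (σ⁻¹ x) hx'
    have h2 : σ (σ⁻¹ x) = x := by
      show (σ * σ⁻¹) x = x
      rw [mul_inv_cancel]
      rfl
    rw [h2] at h1
    exact h1.symm
  obtain ⟨τ, hτ, hτA⟩ := exists_smul_eq_of_restrict_eq F hq hA' hA hcomp
  refine ⟨τ * σ, ?_, ?_⟩
  · rw [MulAction.mem_stabilizer_iff, mul_smul]
    exact hτA
  · intro x hx
    show τ (σ x) = σ x
    exact (IntermediateField.mem_fixingSubgroup_iff F _).1 hτ _ (map_mem_of_normal F hF σ hx)

end Transitive

end Fermat.Agent.S55.Bridge
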