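import Fermat.Agent.S55.Bridge.RestrictInertia

/-!
# S55 bridge, part B10 (valuation form): unramifiedness can be tested at finite level

For a normal `F/ℚ` and a prime `q`: all inertia groups `I_A` (`A` a place of `ℚ̄` over `q`) lie in
`G_F` iff for every such `A`, every `σ ∈ G_ℚ` that stabilises the place `A ∩ F` of `F` and acts
trivially on its residue field fixes `F` pointwise (i.e. the inertia group of `A ∩ F` in
`Gal(F/ℚ)` is trivial).
-/

set_option autoImplicit false

namespace Fermat.Agent.S55.Bridge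

open scoped Pointwise

variable (F : IntermediateField ℚ (AlgebraicClosure ℚ))

/-- The finite-level inertia condition for `σ` at the place `A ∩ F`. -/
def IsInertiaAt (A : ValuationSubring (AlgebraicClosure ℚ))
    (σ : AlgebraicClosure ℚ ≃ₐ[ℚ] AlgebraicClosure ℚ) : Prop :=
  (∀ x ∈ F, σ x ∈ A ↔ x ∈ A) ∧ ∀ x ∈ F, x ∈ A → σ x - x ∈ A.nonunits

theorem isInertiaAt_of_mem_inertia {A : ValuationSubring (AlgebraicClosure ℚ)}
    {σ : AlgebraicClosure ℚ ≃ₐ[ℚ] AlgebraicClosure ℚ} (hσ : σ ∈ A.inertiaSubgroupIn ℚ) :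
    IsInertiaAt F A σ := by
  rw [mem_inertiaSubgroupIn_iff] at hσ
  exact ⟨fun x _ => (mem_decompositionSubgroup_iff A σ).1 hσ.1 x, fun x _ hx => hσ.2 x hx⟩

/-- **B10 (valuation form).** -/
theorem inertia_le_fixingSubgroup_iff (hF : F.fixingSubgroup.Normal) {q : ℕ} (hq : q.Prime) :
    (∀ A : ValuationSubring (AlgebraicClosure ℚ), A.LiesOverPrime q →
      A.inertiaSubgroupIn ℚ ≤ F.fixingSubgroup) ↔
    (∀ A : ValuationSubring (AlgebraicClosure ℚ), A.LiesOverPrime q →
      ∀ σ : AlgebraicClosure ℚ ≃ₐ[ℚ] AlgebraicClosure ℚ, IsInertiaAt F A σ →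
        σ ∈ F.fixingSubgroup) := by
  constructor
  · intro h A hA σ hσ
    obtain ⟨σ', hσ', hres⟩ := exists_mem_inertia_restrict_eq F hF hq hA σ hσ.1 hσ.2
    have hfix := h A hA hσ'
    rw [IntermediateField.mem_fixingSubgroup_iff] at hfix ⊢
    intro x hx
    rw [← hres x hx]
    exact hfix x hx
  · intro h A hA σ hσ
    exact h A hA σ (isInertiaAt_of_mem_inertia F hσ)

/-- `IsUnramifiedOutside` at finite level, for normal `F`. -/
theorem isUnramifiedOutside_iff (hF : F.fixingSubgroup.Normal) (S : Finset Nat.Primes) :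
    F.IsUnramifiedOutside S ↔ FiniteDimensional ℚ F ∧
      ∀ q : Nat.Primes, q ∉ S → ∀ A : ValuationSubring (AlgebraicClosure ℚ),
        A.LiesOverPrime (q : ℕ) → ∀ σ : AlgebraicClosure ℚ ≃ₐ[ℚ] AlgebraicClosure ℚ,
          IsInertiaAt F A σ → σ ∈ F.fixingSubgroup := by
  unfold IntermediateField.IsUnramifiedOutside
  refine and_congr Iff.rfl ?_
  constructor
  · intro h q hq
    exact (inertia_le_fixingSubgroup_iff F hF q.2).1 (h q hq)
  · intro h q hq
    exact (inertia_le_fixingSubgroup_iff F hF q.2).2 (h q hq)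

end Fermat.Agent.S55.Bridge
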